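import Fermat.Agent.S19Model.ClassFunctions
import Fermat.Agent.FlatJ0.Main
import Fermat.Agent.Frobenius.Exists
import Fermat.Agent.EigenRep.Smooth

/-!
# The model of the torsion

The finite flat model of the `ℓ^k`-torsion of `J₀(N)`, `ℓ ∤ N`, from the closure of the chart
functions under addition.
-/

set_option autoImplicit false

noncomputable section

namespace Fermat.Agent.S19Model

open AlgebraicCurve IsLocalRing ModularCurve Fermat.Agent.FlatJ0 Fermat.Agent.Reduction
  Fermat.Agent.FunctionFieldRR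
open scoped Fermat.Agent.Reduction

local notation "Ω" => AlgebraicClosure ℚ
local notation "G_ℚ" => (AlgebraicClosure ℚ) ≃ₐ[ℚ] (AlgebraicClosure ℚ)

/-- In large degree the chart functions are closed under addition of the arguments. -/
def AddClosed : Prop :=
  ∀ {A : ValuationSubring Ω} {F : IntermediateField Ω (LaurentSeries Ω)}
    {Fk : IntermediateField (IsLocalRing.ResidueField A)
      (LaurentSeries (IsLocalRing.ResidueField A))}
    {M : GoodModel A F Fk}
    [IsAlgClosed (IsLocalRing.ResidueField A)] [IsFunctionField Ω F]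
    [IsFunctionField (IsLocalRing.ResidueField A) Fk]
    [HasPrincipalDivisors Ω F] [HasPrincipalDivisors (IsLocalRing.ResidueField A) Fk]
    {R : M.ReductionMap} {gal : G_ℚ →* SemilinearAut Ω F} {p g : ℕ} {c : ℤ},
    GoodModel.RRData (A := A) (F := F) (Fk := Fk) (g : ℤ) c → IsOver A p → IsCoeffAction gal →
    FixedPlacesDense gal R →
    ∀ {W : Type} [AddCommGroup W] [Finite W] {jmath : W →+ Pic0 Ω F},
      Function.Injective jmath → ∀ C : ChartFamily R gal g jmath, ∃ N : ℤ,
      ∀ L : Lat R, (∀ e, C.Y e ≤ L.D) → 0 ≤ L.D → N ≤ Divisor.degree L.D →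
        (∀ σ ∈ A.inertiaSubgroupIn ℚ, gal σ • L.D = L.D) →
        (∀ σ ∈ A.inertiaSubgroupIn ℚ, ∀ j, gal σ • L.v j = L.v j) →
        ∀ Cd : (∀ e, Coords R L.D L.v (C.Xbar e)), ∀ f ∈ C.gens Cd,
          (fun q : W × W => f (q.1 + q.2)) ∈ pairAlg (Algebra.adjoin A (C.gens Cd))

section General

variable {A : ValuationSubring Ω} {F : IntermediateField Ω (LaurentSeries Ω)}
  {Fk : IntermediateField (IsLocalRing.ResidueField A) (LaurentSeries (IsLocalRing.ResidueField A))}
  {M : GoodModel A F Fk}
  [IsAlgClosed (IsLocalRing.ResidueField A)] [IsFunctionField Ω F]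
  [IsFunctionField (IsLocalRing.ResidueField A) Fk]
  [HasPrincipalDivisors Ω F] [HasPrincipalDivisors (IsLocalRing.ResidueField A) Fk]
  {R : M.ReductionMap} {gal : G_ℚ →* SemilinearAut Ω F} {p g : ℕ} {c : ℤ}

/-- A finite smooth Galois submodule of the divisor classes has a model. -/
theorem exists_isModel (hadd : AddClosed) [Fact p.Prime]
    (H : GoodModel.RRData (A := A) (F := F) (Fk := Fk) (g : ℤ) c) (h : IsOver A p)
    (hgal : IsCoeffAction gal) (hd : FixedPlacesDense gal R) {W : Type} [AddCommGroup W] [Finite W]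
    {jmath : W →+ Pic0 Ω F} (hj : Function.Injective jmath) (act : G_ℚ →* AddMonoid.End W)
    (hact : ∀ σ x, jmath (act σ x) = gal σ • jmath x) (hsm : IsSmooth act) :
    ∃ Mo, RowS56.IsModel p act Mo := by
  obtain ⟨C⟩ := exists_chartFamily H h hgal hd jmath
  obtain ⟨N, hN⟩ := hadd H h hgal hd hj C
  have := C.finite_ι
  let := Fintype.ofFinite C.ι
  obtain ⟨L, hYL, hL0, hLdeg, hLD, hLv⟩ := exists_fixed_lat H hgal hd (max N (c + 2 * (g : ℤ)))
    (∑ e, C.Y e) (Finset.sum_nonneg fun e _ => C.Y_nonneg e) fun σ hσ => by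
      rw [Finset.smul_sum]
      exact Finset.sum_congr rfl fun e _ => C.Y_fixed e σ hσ
  obtain ⟨Cd⟩ := C.exists_coords H (L := L) (le_trans (le_max_right _ _) hLdeg)
  exact exists_isModel_of_inertia (act := act) h hsm (C.gens Cd) (C.gens_finite Cd) (C.gens_int Cd)
    (C.gens_conj H Cd hgal act hact hLD hLv) (C.gens_sep Cd hj)
    (hN L (fun e => le_trans (Finset.single_le_sum (fun e _ => C.Y_nonneg e) (Finset.mem_univ e))
        hYL)
      hL0 (le_trans (le_max_left _ _) hLdeg) hLD hLv Cd)

end General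

/-- The Galois action on a torsion submodule of `J₀(N)`. -/
def torsionAct (N : ℕ) (m : ℤ) :
    G_ℚ →* AddMonoid.End ↥(Submodule.torsionBy ℤ (JZero N) m) where
  toFun σ :=
    { toFun := fun x => ⟨σ • (x : JZero N), by
        rw [Submodule.mem_torsionBy_iff]
        refine (map_zsmul (DistribSMul.toAddMonoidHom (JZero N) σ) m (x : JZero N)).symm.trans ?_
        exact (congrArg (σ • ·) ((Submodule.mem_torsionBy_iff m _).mp x.2)).trans (smul_zero σ)⟩
      map_zero' := Subtype.ext (smul_zero σ)
      map_add' := fun x y => Subtype.ext (smul_add σ (x : JZero N) y) }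
  map_one' := AddMonoidHom.ext fun x => Subtype.ext (one_smul G_ℚ (x : JZero N))
  map_mul' σ τ := AddMonoidHom.ext fun x => Subtype.ext (mul_smul σ τ (x : JZero N))

/-- `J₀(N)[ℓ^k]` has a model at `ℓ ∤ N`. -/
theorem exists_isModel_jZero_torsion (hadd : AddClosed) (N : ℕ) [NeZero N] (ℓ : ℕ)
    [Fact ℓ.Prime] (hℓN : ¬ ℓ ∣ N) (k : ℕ) :
    ∃ Mo, RowS56.IsModel ℓ (torsionAct N ((ℓ : ℤ) ^ k)) Mo := by
  classical
  obtain ⟨A, hA⟩ := Frobenius.exists_liesOverPrime Ω (Fact.out : ℓ.Prime)
  have h : IsOver A ℓ := ⟨Fact.out, hA⟩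
  have hF := IgusaGenus.reductionFacts hℓN hA
  have := hF.char0.hasPrincipal
  have := hF.charL.hasPrincipal
  have : IsAlgClosed (ResidueField A) := isAlgClosed_residueField
  set M := modularGoodModel A N hA hF with hM
  have := M.isFunctionField_bar
  have := M.isFunctionField_red
  have hinputs := reductionInputsModL hA hF
  set R := reductionMapOfSpec M (placeReductionModL hinputs)
    (isPlaceReductionModL_placeReductionModL hinputs) with hR
  obtain ⟨c, hc⟩ := hF.genus_le
  have H : GoodModel.RRData (A := A) (F := modularFunctionFieldBar N)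
      (Fk := modularFunctionFieldFullC (ResidueField A) N) (genus0 N : ℤ) c :=
    ⟨hF.char0.riemann, hc⟩
  have hgal : IsCoeffAction (arithmeticGalois (modularFunctionFieldFull N)) := fun σ x =>
    coe_arithmeticGalois_smul _ σ x
  have hj : M.jF = jBar N := modularSeriesModel_jF A N
  have hd : FixedPlacesDense (arithmeticGalois (modularFunctionFieldFull N)) R := by
    refine fixedPlacesDense R H h hgal (fun σ _ => ?_) ?_
    · rw [hj]
      exact Subtype.ext ((hgal σ (jBar N)).trans (coeffMap_jqModC _))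
    · have hk : M.jK = jC (ResidueField A) N := modularSeriesModel_jK A N
      rw [hk]
      exact isSeparable_jC (ResidueField A) N (natCast_residue_ne_zero hA hℓN)
  set W := ↥(Submodule.torsionBy ℤ (JZero N) ((ℓ : ℤ) ^ k))
  have : Finite W := by
    have : NeZero (ℓ ^ k) := ⟨pow_ne_zero k (Fact.out : ℓ.Prime).ne_zero⟩
    have hpos : 0 < Nat.card (Pic0.torsion Ω (modularFunctionFieldBar N) (ℓ ^ k)) := by
      rw [J0Torsion.natCard_torsion (J0Torsion.parabolicFull N)]
      exact pow_pos (NeZero.pos _) _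
    have := (Nat.card_pos_iff.mp hpos).2
    refine Finite.of_injective (fun x : W => (⟨(x : JZero N), Pic0.mem_torsion.mpr (by
      rw [Nat.cast_pow]; exact (Submodule.mem_torsionBy_iff _ _).mp x.2)⟩ :
        Pic0.torsion Ω (modularFunctionFieldBar N) (ℓ ^ k))) fun x y e => Subtype.ext ?_
    exact congrArg (fun z : Pic0.torsion Ω (modularFunctionFieldBar N) (ℓ ^ k) => (z : JZero N)) e
  refine exists_isModel hadd H h hgal hd (W := W)
    (jmath := (Submodule.torsionBy ℤ (JZero N) ((ℓ : ℤ) ^ k)).subtype.toAddMonoidHom)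
    Subtype.val_injective (torsionAct N _) (fun σ x => galois_smul_pic0_def _ σ _) fun x => ?_
  obtain ⟨K, hK, hfix⟩ := EigenRep.jZeroSmooth N (x : JZero N)
  exact ⟨K, hK, fun σ hσ => Subtype.ext (hfix σ hσ)⟩

end Fermat.Agent.S19Model

end
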