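import Fermat.Agent.S19Model.Comul
import Fermat.Agent.S19Model.Main

/-!
# Closure under addition

The chart functions are closed under addition in large degree.
-/

set_option autoImplicit false

noncomputable section

namespace Fermat.Agent.S19Model

/-- **Closure under addition.** -/
theorem addClosed : AddClosed := by
  intro A F Fk M _ _ _ _ _ R gal p g c H h hgal hd W _ _ jmath _ C
  exact ⟨max (c + 4 * (g : ℤ) + 2) (4 * (g : ℤ)), fun L hY _ hN hD _ Cd =>
    C.comulClosed H Cd hgal hd h hY hD (le_trans (le_max_left _ _) hN)
      (le_trans (le_max_right _ _) hN)⟩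

end Fermat.Agent.S19Model

end
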