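import Fermat.Agent.S19Model.Main
import Fermat.Agent.Row32.ToHopf

/-!
# The Hopf algebra of the torsion

The finite flat Hopf algebra of the `ℓ^k`-torsion of `J₀(N)`, `ℓ ∤ N`, from the closure of the chart
functions under addition.
-/

set_option autoImplicit false

noncomputable section

namespace Fermat.Agent.S19Model

open AlgebraicCurve ModularCurve

/-- The `ℓ^k`-torsion of `J₀(N)` is finite. -/
theorem finite_jZero_torsion (N : ℕ) [NeZero N] (ℓ : ℕ) [Fact ℓ.Prime] (k : ℕ) :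
    Finite ↥(Submodule.torsionBy ℤ (JZero N) ((ℓ : ℤ) ^ k)) := by
  have : NeZero (ℓ ^ k) := ⟨pow_ne_zero k (Fact.out : ℓ.Prime).ne_zero⟩
  have hpos : 0 <
      Nat.card (Pic0.torsion (AlgebraicClosure ℚ) (modularFunctionFieldBar N) (ℓ ^ k)) := by
    rw [J0Torsion.natCard_torsion (J0Torsion.parabolicFull N)]
    exact pow_pos (NeZero.pos _) _
  have := (Nat.card_pos_iff.mp hpos).2
  refine Finite.of_injective (fun x : ↥(Submodule.torsionBy ℤ (JZero N) ((ℓ : ℤ) ^ k)) =>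
    (⟨(x : JZero N), Pic0.mem_torsion.mpr (by
      rw [Nat.cast_pow]; exact (Submodule.mem_torsionBy_iff _ _).mp x.2)⟩ :
      Pic0.torsion (AlgebraicClosure ℚ) (modularFunctionFieldBar N) (ℓ ^ k)))
    fun x y e => Subtype.ext ?_
  exact congrArg (fun z : Pic0.torsion (AlgebraicClosure ℚ) (modularFunctionFieldBar N) (ℓ ^ k) =>
    (z : JZero N)) e

/-- The Hopf algebra of the torsion. -/
theorem exists_hopf_jZero_torsion (hadd : AddClosed) (p : ℕ) [NeZero p] (ℓ : ℕ) [Fact ℓ.Prime]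
    (hℓp : ¬ ℓ ∣ p) (k : ℕ) :
    ∃ (H : Type) (_ : CommRing H) (_ : HopfAlgebra (GaloisRep.ratLocalizedAt ℓ) H),
      Module.Finite (GaloisRep.ratLocalizedAt ℓ) H ∧ Module.Flat (GaloisRep.ratLocalizedAt ℓ) H ∧
      Coalgebra.IsCocomm (GaloisRep.ratLocalizedAt ℓ) H ∧
      ∃ e : WithConv (H →ₐ[GaloisRep.ratLocalizedAt ℓ] AlgebraicClosure ℚ) ≃
          ↥(Submodule.torsionBy ℤ (JZero p) ((ℓ : ℤ) ^ k)),
        (∀ f g, e (f * g) = e f + e g) ∧
        ∀ (σ : AlgebraicClosure ℚ ≃ₐ[ℚ] AlgebraicClosure ℚ)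
          (f g : WithConv (H →ₐ[GaloisRep.ratLocalizedAt ℓ] AlgebraicClosure ℚ)),
          (∀ h : H, g h = σ (f h)) → ((e g : JZero p)) = σ • (e f : JZero p) := by
  have := finite_jZero_torsion p ℓ k
  obtain ⟨Mo, hMo⟩ := exists_isModel_jZero_torsion hadd p ℓ hℓp k
  obtain ⟨H, hr, hh, hfin, hflat, hco, e, hadd', hgal⟩ := Row32.exists_hopf_of_isModel hMo
  exact ⟨H, hr, hh, hfin, hflat, hco, e, hadd', fun σ f g h => congrArg Subtype.val (hgal σ f g h)⟩

end Fermat.Agent.S19Model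

end
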