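import Fermat.Agent.Reduction.CurveBasics
import Fermat.Agent.FlatJ0.Classes
import Fermat.Agent.MWJ0.RR
import Mathlib.FieldTheory.IsAlgClosed.Basic

/-!
# Riemann–Roch spaces of large degree: base points, colon ideals, products

Algebra of Riemann–Roch spaces of a function field over an algebraically closed field, granted
the two bounds of Riemann–Roch in large degree. It is applied to the residual curve.
-/

set_option autoImplicit false

noncomputable section

namespace Fermat.Agent.S19Model

open AlgebraicCurve Module Fermat.Agent.FunctionFieldRR Fermat.Agent.Reduction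

variable {K E : Type*} [Field K] [Field E] [Algebra K E]

/-- An effective divisor linearly equivalent to one with `l ≤ 1` is equal to it. -/
theorem eq_of_isPrincipal_sub {K E : Type*} [Field K] [Field E] [Algebra K E] [IsAlgClosed K]
    [IsFunctionField K E] [HasPrincipalDivisors K E] {X X' : Divisor K E} (hX : 0 ≤ X)
    (hX' : 0 ≤ X') (hl : Module.finrank K (riemannRochSpace X) ≤ 1)
    (hprin : Divisor.IsPrincipal (X' - X)) : X' = X := by
  obtain ⟨e, he, hee⟩ := hprin
  have hXX : X' = X + dvs (K := K) e := by rw [← eq_dvs hee]; abel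
  obtain ⟨κ, hκ⟩ := Fermat.Agent.FlatJ0.eq_algebraMap_of_finrank_le_one hX hl
    ((mem_rr_iff_dvs he).mpr (hXX ▸ hX') : e ∈ riemannRochSpace X)
  rw [hXX, hκ, dvs_algebraMap, add_zero]

/-- At every place some section has no zero. -/
def HasNoBasePoint (U : Divisor K E) : Prop :=
  ∀ v : Place K E, ∃ h ∈ riemannRochSpace U, h ≠ 0 ∧ v.ord h = -U v

/-- Multiplication by a space without base point can be cancelled. -/
theorem HasNoBasePoint.mem_sub {U T : Divisor K E} (hU : HasNoBasePoint U) {f : E}
    (hf : ∀ h ∈ riemannRochSpace U, f * h ∈ riemannRochSpace T) :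
    f ∈ riemannRochSpace (T - U) := by
  rcases eq_or_ne f 0 with rfl | hf0
  · exact zero_mem _
  rw [mem_rr hf0]
  intro v
  obtain ⟨h, hh, h0, hord⟩ := hU v
  have h1 := (mem_rr (mul_ne_zero hf0 h0)).mp (hf h hh) v
  rw [v.ord_mul hf0 h0, hord] at h1
  rw [Finsupp.sub_apply]
  omega

/-- The functions multiplying `L(U)` into `L(T)` form `L(T - U)`. -/
theorem HasNoBasePoint.mem_sub_iff {U T : Divisor K E} (hU : HasNoBasePoint U) {f : E} :
    f ∈ riemannRochSpace (T - U) ↔
      ∀ h ∈ riemannRochSpace U, f * h ∈ riemannRochSpace T := by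
  refine ⟨fun hf h hh => ?_, hU.mem_sub⟩
  simpa using rr_mul hf hh

/-- The functions of `L(D)` multiplying a spanning family of `L(U)` into `L(T)` form
`L(T - U)`, if `T - U ≤ D`. -/
theorem HasNoBasePoint.colon {U T D : Divisor K E} (hU : HasNoBasePoint U) (hD : T - U ≤ D)
    {s : Set E} (hs : Submodule.span K s = riemannRochSpace U) {f : E} :
    f ∈ riemannRochSpace (T - U) ↔
      f ∈ riemannRochSpace D ∧ ∀ h ∈ s, f * h ∈ riemannRochSpace T := by
  rw [hU.mem_sub_iff]
  refine ⟨fun hf => ⟨rr_mono hD (hU.mem_sub hf), fun h hh => hf h ?_⟩, fun hf h hh => ?_⟩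
  · rw [← hs]; exact Submodule.subset_span hh
  · have hle : Submodule.span K s ≤ (riemannRochSpace T).comap (LinearMap.mulLeft K f) :=
      Submodule.span_le.mpr fun h hh => hf.2 h hh
    exact hle (hs.symm ▸ hh)

/-- Multiplication by `a` shifts the divisor by the divisor of `a`. -/
theorem mul_mem_rr_sub_dvs [HasPrincipalDivisors K E] {a : E} (ha : a ≠ 0) {D : Divisor K E}
    {f : E} : a * f ∈ riemannRochSpace (D - dvs a) ↔ f ∈ riemannRochSpace D := by
  rcases eq_or_ne f 0 with rfl | hf0
  · simp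
  rw [mem_rr hf0, mem_rr (mul_ne_zero ha hf0)]
  refine forall_congr' fun v => ?_
  rw [v.ord_mul ha hf0, Finsupp.sub_apply, dvs_apply]
  omega

theorem map_mulLeft_rr [HasPrincipalDivisors K E] {a : E} (ha : a ≠ 0) (D : Divisor K E) :
    (riemannRochSpace D).map (LinearMap.mulLeft K a) = riemannRochSpace (D - dvs a) := by
  ext x
  rw [Submodule.mem_map]
  refine ⟨?_, fun hx => ⟨a⁻¹ * x, ?_, by simp [ha]⟩⟩
  · rintro ⟨f, hf, rfl⟩
    exact (mul_mem_rr_sub_dvs ha).mpr hf
  · rw [← mul_mem_rr_sub_dvs ha, mul_inv_cancel_left₀ ha]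
    exact hx

theorem finrank_rr_sub_dvs [HasPrincipalDivisors K E] {a : E} (ha : a ≠ 0) (D : Divisor K E) :
    finrank K (riemannRochSpace (D - dvs a)) = finrank K (riemannRochSpace D) := by
  rw [← map_mulLeft_rr ha]
  exact (Submodule.equivMapOfInjective _ (mul_right_injective₀ ha) _).finrank_eq.symm

variable [IsAlgClosed K] [IsFunctionField K E] {g c : ℤ}
  (hlow : ∀ D : Divisor K E,
    Divisor.degree D + 1 - g ≤ (finrank K (riemannRochSpace D) : ℤ))
  (hup : ∀ D : Divisor K E, c ≤ Divisor.degree D →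
    (finrank K (riemannRochSpace D) : ℤ) ≤ Divisor.degree D + 1 - g)
include hlow hup

theorem not_rr_le_sub_single {U : Divisor K E} (hU : c + 1 ≤ Divisor.degree U) (v : Place K E) :
    ¬ riemannRochSpace U ≤ riemannRochSpace (U - Finsupp.single v 1) := by
  intro hle
  have h1 := Submodule.finrank_mono hle
  have h2 := hlow U
  have h3 := hup (U - Finsupp.single v 1) (by
    rw [map_sub, Divisor.degree_single, deg_eq_one]; omega)
  rw [map_sub, Divisor.degree_single, deg_eq_one] at h3
  omega

/-- Divisors of large degree have no base point. -/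
theorem hasNoBasePoint {U : Divisor K E} (hU : c + 1 ≤ Divisor.degree U) : HasNoBasePoint U := by
  intro v
  obtain ⟨h, hh, hnot⟩ := SetLike.not_le_iff_exists.mp (not_rr_le_sub_single hlow hup hU v)
  have h0 : h ≠ 0 := fun e => hnot (e ▸ zero_mem _)
  refine ⟨h, hh, h0, le_antisymm ?_ ((mem_rr h0).mp hh v)⟩
  by_contra hlt
  refine hnot ((mem_rr h0).mpr fun w => ?_)
  have hw := (mem_rr h0).mp hh w
  by_cases hwv : w = v
  · subst hwv
    simp only [Finsupp.sub_apply, Finsupp.single_eq_same]
    omega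
  · simpa [Finsupp.single_eq_of_ne hwv] using hw

theorem rr_ne_bot {U : Divisor K E} (hU : c + 1 ≤ Divisor.degree U) :
    riemannRochSpace U ≠ ⊥ := by
  obtain ⟨v⟩ := (inferInstance : Nonempty (Place K E))
  obtain ⟨h, hh, h0, -⟩ := hasNoBasePoint hlow hup hU v
  exact fun e => h0 ((Submodule.mem_bot K).mp (e ▸ hh))

variable [HasPrincipalDivisors K E]

/-- A pencil without base point. -/
theorem exists_isPencil {U : Divisor K E} (hU : c + 1 ≤ Divisor.degree U) :
    ∃ s₁ s₂ : E, MWJ0.IsPencil U s₁ s₂ := by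
  classical
  have hW := not_rr_le_sub_single hlow hup hU
  have hne := rr_ne_bot hlow hup hU
  obtain ⟨s₁, h1, n1, -⟩ := MWJ0.RRData.exists_avoid _ hW le_rfl hne ∅
  obtain ⟨s₂, h2, n2, e2⟩ :=
    MWJ0.RRData.exists_avoid _ hW le_rfl hne (dvs (K := K) s₁ + U).support
  refine ⟨s₁, s₂, h1, h2, n1, n2, fun v => ?_⟩
  by_cases hv : v ∈ (dvs (K := K) s₁ + U).support
  · exact Or.inr (e2 v hv)
  · refine Or.inl ?_
    rw [Finsupp.notMem_support_iff, Finsupp.add_apply, dvs_apply] at hv
    omega

/-- The products of sections of `U` and `V` span the sections of `U + V`. -/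
theorem rr_mul_eq {U V : Divisor K E} (hU : c + 1 ≤ Divisor.degree U)
    (hVU : c ≤ Divisor.degree (V - U)) (hV : c ≤ Divisor.degree V) :
    riemannRochSpace U * riemannRochSpace V = riemannRochSpace (U + V) := by
  refine le_antisymm (Submodule.mul_le.mpr fun a ha b hb => rr_mul ha hb) ?_
  have hdegU : 0 ≤ Divisor.degree U := by
    by_contra hlt
    exact rr_ne_bot hlow hup hU ((Submodule.eq_bot_iff _).mpr fun f hf =>
      eq_zero_of_mem_rr_of_degree_neg (not_le.mp hlt) hf)
  obtain ⟨s₁, s₂, h1, h2, n1, n2, hbp⟩ := exists_isPencil hlow hup hU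
  let P := (riemannRochSpace V).map (LinearMap.mulLeft K s₁)
  let Q := (riemannRochSpace V).map (LinearMap.mulLeft K s₂)
  have hP : finrank K P = finrank K (riemannRochSpace V) :=
    (Submodule.equivMapOfInjective _ (mul_right_injective₀ n1) _).finrank_eq.symm
  have hQ : finrank K Q = finrank K (riemannRochSpace V) :=
    (Submodule.equivMapOfInjective _ (mul_right_injective₀ n2) _).finrank_eq.symm
  have hPQ : P ⊔ Q ≤ riemannRochSpace U * riemannRochSpace V := by
    refine sup_le ?_ ?_ <;> rintro x ⟨b, hb, rfl⟩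
    · exact Submodule.mul_mem_mul h1 hb
    · exact Submodule.mul_mem_mul h2 hb
  have hle : P ⊔ Q ≤ riemannRochSpace (U + V) :=
    hPQ.trans (Submodule.mul_le.mpr fun a ha b hb => rr_mul ha hb)
  -- the relations of the pencil
  have hI : P ⊓ Q ≤ (riemannRochSpace (V - U)).map (LinearMap.mulLeft K (s₁ * s₂)) := by
    rintro x ⟨⟨a, ha, hax⟩, ⟨b, hb, hbx⟩⟩
    simp only [LinearMap.mulLeft_apply] at hax hbx
    refine ⟨a / s₂, ?_, by rw [LinearMap.mulLeft_apply, ← hax]; field_simp⟩
    rcases eq_or_ne a 0 with rfl | ha0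
    · simp
    have hb0 : b ≠ 0 := by rintro rfl; simp [← hax, n1, ha0] at hbx
    refine (mem_rr (div_ne_zero ha0 n2)).mpr fun v => ?_
    have hsum : v.ord s₁ + v.ord a = v.ord s₂ + v.ord b := by
      rw [← v.ord_mul n1 ha0, ← v.ord_mul n2 hb0, hax, hbx]
    have ea := (mem_rr ha0).mp ha v
    have eb := (mem_rr hb0).mp hb v
    rw [ord_div v ha0 n2, Finsupp.sub_apply]
    rcases hbp v with e | e <;> omega
  refine le_trans (le_of_eq (Submodule.eq_of_le_of_finrank_le hle ?_).symm) hPQ
  have h3 := (Submodule.finrank_mono hI).trans (Submodule.finrank_map_le _ _)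
  have h4 := Submodule.finrank_sup_add_finrank_inf_eq P Q
  have eV := hlow V
  have eUV := hup (U + V) (by rw [map_add]; omega)
  have eVU := hup (V - U) hVU
  rw [map_add] at eUV
  rw [map_sub] at eVU
  omega

theorem span_mul_eq {U V : Divisor K E} (hU : c + 1 ≤ Divisor.degree U)
    (hVU : c ≤ Divisor.degree (V - U)) (hV : c ≤ Divisor.degree V) {s t : Set E}
    (hs : Submodule.span K s = riemannRochSpace U)
    (ht : Submodule.span K t = riemannRochSpace V) :
    Submodule.span K {x | ∃ a ∈ s, ∃ b ∈ t, x = a * b} = riemannRochSpace (U + V) := by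
  rw [← rr_mul_eq hlow hup hU hVU hV, ← hs, ← ht, Submodule.span_mul_span]
  refine congrArg _ (Set.ext fun x => ?_)
  simp [Set.mem_mul, eq_comm]

end Fermat.Agent.S19Model

end
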