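import Fermat.Agent.S19Model.Defs
import Fermat.Agent.S19Model.Residual
import Fermat.Agent.FlatJ0.Classes

/-!
# Addition of divisor classes in free families

If `L(D - X)` and `L(D - X')` are free over `B` and `Z` is the effective divisor of degree `g`
equivalent to `X + X' - Y - Y' + Y''`, with non-special reduction, then `L(D - Z)` is free over
`B`: it is obtained from them by products, colons and shifts by elements.
-/

set_option autoImplicit false

noncomputable section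

namespace Fermat.Agent.S19Model

open AlgebraicCurve IsLocalRing Fermat.Agent.FlatJ0 Fermat.Agent.Reduction
  Fermat.Agent.FunctionFieldRR
open scoped Fermat.Agent.Reduction

local notation "Ω" => AlgebraicClosure ℚ

/-- Linearly equivalent divisors have spaces of the same dimension. -/
theorem finrank_rr_of_isPrincipal {K E : Type*} [Field K] [Field E] [Algebra K E]
    [HasPrincipalDivisors K E] {D D' : Divisor K E} (h : Divisor.IsPrincipal (D' - D)) :
    Module.finrank K (riemannRochSpace D') = Module.finrank K (riemannRochSpace D) := by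
  obtain ⟨f, hf, hfd⟩ := h
  have e : D' - D = dvs f := Finsupp.ext fun v => by rw [hfd, dvs_apply]
  rw [← finrank_rr_sub_dvs hf D']
  rw [show D' - dvs f = D by rw [← e]; abel]

variable {A : ValuationSubring Ω} {F : IntermediateField Ω (LaurentSeries Ω)}
  {Fk : IntermediateField (IsLocalRing.ResidueField A) (LaurentSeries (IsLocalRing.ResidueField A))}
  {M : GoodModel A F Fk}
  [HasPrincipalDivisors Ω F] [HasPrincipalDivisors (IsLocalRing.ResidueField A) Fk]
  {R : M.ReductionMap} {g c : ℤ} (H : GoodModel.RRData (A := A) (F := F) (Fk := Fk) g c)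
  (hlow : ∀ D : Divisor (ResidueField A) Fk, Divisor.degree D + 1 - g ≤
    (Module.finrank (ResidueField A) (riemannRochSpace D) : ℤ))
  {S : Type*} [Finite S] {B : Subalgebra A (S → Ω)} (hB : Valued B)

local notation "rDiv" => Finsupp.mapDomain R.toFun

omit [Finite S] in
/-- The residual generators span. -/
theorem span_toFk_eq {L : Lat R} {Eb : Divisor (ResidueField A) Fk} {r : ℕ}
    {ub : Fin r → Fin L.n → ResidueField A} (hmem : ∀ j, L.toFk (ub j) ∈ riemannRochSpace Eb)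
    (hspan : riemannRochSpace Eb ≤
      Submodule.span (ResidueField A) (Set.range fun j => L.toFk (ub j))) :
    Submodule.span (ResidueField A) (Set.range fun j => L.toFk (ub j)) = riemannRochSpace Eb :=
  le_antisymm (Submodule.span_le.mpr (by rintro _ ⟨j, rfl⟩; exact hmem j)) hspan

include hB in
omit [Finite S] in
/-- The divisor of an element reduces to the divisor of its reduction. -/
theorem IsElem.mapDomain_dvs {L : Lat R} {a : S → Fin L.n → Ω} {ab : Fin L.n → ResidueField A}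
    (ha : IsElem B L a ab) (h0 : L.toFk ab ≠ 0) (s : S) :
    L.toFn (a s) ≠ 0 ∧ rDiv (dvs (L.toFn (a s))) = dvs (L.toFk ab) := by
  obtain ⟨hi, hr⟩ := ha.toFn_int hB s
  have hne : M.red (L.toFn (a s)) ≠ 0 := hr ▸ h0
  exact ⟨fun e => hne (by rw [e, M.red_zero]), by rw [R.spec _ hi hne, hr]⟩

omit [Finite S] in
/-- A first generator. -/
theorem IsFreeRR.exists_elem {L : Lat R} {E : S → Divisor Ω F}
    {Eb : Divisor (ResidueField A) Fk} (h : IsFreeRR B L E Eb)
    (hpos : 0 < Module.finrank (ResidueField A) (riemannRochSpace Eb)) :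
    ∃ (a : S → Fin L.n → Ω) (ab : Fin L.n → ResidueField A), IsElem B L a ab ∧
      L.toFk ab ≠ 0 ∧ L.toFk ab ∈ riemannRochSpace Eb ∧
      ∀ s, L.toFn (a s) ∈ riemannRochSpace (E s) := by
  obtain ⟨r, u, v, hr, hu, hli, hm, hmb, -⟩ := h.exists_gens
  have j : Fin r := ⟨0, hr ▸ hpos⟩
  exact ⟨u j, v j, hu j, fun e => hli.ne_zero j (L.toFk_injective (e.trans (map_zero _).symm)),
    hmb j, hm j⟩

variable [IsAlgClosed (ResidueField A)] [IsFunctionField Ω F] [IsFunctionField (ResidueField A) Fk]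

include hB H hlow in
/-- The product of two free families, in large degree. -/
theorem IsFreeRR.mul {L₁ L₂ L₃ : Lat R} (hle : L₁.D + L₂.D ≤ L₃.D)
    {E₁ E₂ : S → Divisor Ω F} {E₁b E₂b : Divisor (ResidueField A) Fk}
    (h₁ : IsFreeRR B L₁ E₁ E₁b) (h₂ : IsFreeRR B L₂ E₂ E₂b)
    (hU : c + 1 ≤ Divisor.degree E₁b) (hVU : c ≤ Divisor.degree (E₂b - E₁b))
    (hV : c ≤ Divisor.degree E₂b) :
    IsFreeRR B L₃ (fun s => E₁ s + E₂ s) (E₁b + E₂b) := by
  obtain ⟨r₁, u₁, v₁, -, he₁, -, hm₁, hm₁b, hs₁⟩ := h₁.exists_gens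
  obtain ⟨r₂, u₂, v₂, -, he₂, -, hm₂, hm₂b, hs₂⟩ := h₂.exists_gens
  refine isFreeRR_mul hB hle he₁ he₂ (fun s => (add_le_add (h₁.le s) (h₂.le s)).trans hle) ?_
    (fun s => by rw [Finsupp.mapDomain_add, h₁.map_eq, h₂.map_eq])
    (fun q q' s => mul_mem_rr (hm₁ q s) (hm₂ q' s)) (fun q q' => mul_mem_rr (hm₁b q) (hm₂b q')) ?_
  · refine (add_le_add h₁.leb h₂.leb).trans ?_
    rw [← Finsupp.mapDomain_add]
    exact mapDomain_mono R.toFun hle
  · rw [← span_mul_eq hlow H.up hU hVU hV (span_toFk_eq hm₁b hs₁) (span_toFk_eq hm₂b hs₂)]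
    refine Submodule.span_mono ?_
    rintro _ ⟨_, ⟨a, rfl⟩, _, ⟨b, rfl⟩, rfl⟩
    exact ⟨(a, b), rfl⟩

include hB in
/-- Multiplication of a free family by an element. -/
theorem IsFreeRR.shift {L₁ L₂ L₃ : Lat R} (hle : L₁.D + L₂.D ≤ L₃.D)
    {a : S → Fin L₁.n → Ω} {ab : Fin L₁.n → ResidueField A} (ha : IsElem B L₁ a ab)
    (h0 : L₁.toFk ab ≠ 0) {E : S → Divisor Ω F} {Eb : Divisor (ResidueField A) Fk}
    (h : IsFreeRR B L₂ E Eb) :
    IsFreeRR B L₃ (fun s => E s - dvs (L₁.toFn (a s))) (Eb - dvs (L₁.toFk ab)) := by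
  obtain ⟨r, u, v, -, he, -, hm, hmb, hs⟩ := h.exists_gens
  have hd := fun s => ha.mapDomain_dvs hB h0 s
  refine isFreeRR_mul hB hle (fun _ : Unit => ha) he (fun s => ?_) ?_
    (fun s => by rw [Finsupp.mapDomain_sub, h.map_eq, (hd s).2])
    (fun _ q s => (mul_mem_rr_sub_dvs (hd s).1).mpr (hm q s))
    (fun _ q => (mul_mem_rr_sub_dvs h0).mpr (hmb q)) ?_
  · have h1 := (mem_rr_iff_dvs (hd s).1).mp (L₁.toFn_mem (a s))
    calc E s - dvs (L₁.toFn (a s)) ≤ L₂.D + L₁.D := by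
          rw [sub_le_iff_le_add, add_assoc]
          exact le_add_of_le_of_nonneg (h.le s) h1
      _ ≤ L₃.D := by rw [add_comm]; exact hle
  · have h1 := (mem_rr_iff_dvs h0).mp (L₁.toFk_mem ab)
    calc Eb - dvs (L₁.toFk ab) ≤ rDiv L₂.D + rDiv L₁.D := by
          rw [sub_le_iff_le_add, add_assoc]
          exact le_add_of_le_of_nonneg h.leb h1
      _ ≤ rDiv L₃.D := by
        rw [← Finsupp.mapDomain_add, add_comm]
        exact mapDomain_mono R.toFun hle
  · rw [← map_mulLeft_rr h0, ← span_toFk_eq hmb hs, Submodule.map_span]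
    refine Submodule.span_mono ?_
    rintro _ ⟨_, ⟨q, rfl⟩, rfl⟩
    exact ⟨((), q), rfl⟩

omit [IsAlgClosed (ResidueField ↥A)] [IsFunctionField (ResidueField ↥A) ↥Fk] in
include hB in
/-- Division of a free family by an element. -/
theorem IsFreeRR.unshift {L₁ L₂ L₃ : Lat R} (hle : L₁.D + L₂.D ≤ L₃.D)
    {a : S → Fin L₂.n → Ω} {ab : Fin L₂.n → ResidueField A} (ha : IsElem B L₂ a ab)
    (h0 : L₂.toFk ab ≠ 0) {T : S → Divisor Ω F} {Tb : Divisor (ResidueField A) Fk}
    (h : IsFreeRR B L₃ T Tb) (hE : ∀ s, T s + dvs (L₂.toFn (a s)) ≤ L₁.D)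
    (hEb : Tb + dvs (L₂.toFk ab) ≤ rDiv L₁.D)
    (hdim : ∀ s, Module.finrank (ResidueField A) (riemannRochSpace (Tb + dvs (L₂.toFk ab))) ≤
      Module.finrank Ω (riemannRochSpace (T s + dvs (L₂.toFn (a s))))) :
    IsFreeRR B L₁ (fun s => T s + dvs (L₂.toFn (a s))) (Tb + dvs (L₂.toFk ab)) := by
  refine isFreeRR_colon hB hle (fun _ : Unit => ha) h hE hEb
    (fun s => by rw [Finsupp.mapDomain_add, h.map_eq, (ha.mapDomain_dvs hB h0 s).2])
    (fun _ s f hf => ?_) (fun f _ => ?_) hdim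
  · have := (mul_mem_rr_sub_dvs (ha.mapDomain_dvs hB h0 s).1).mpr hf
    rwa [add_sub_cancel_right, mul_comm] at this
  · rw [← mul_mem_rr_sub_dvs h0 (D := Tb + dvs (L₂.toFk ab)), add_sub_cancel_right,
      mul_comm (L₂.toFk ab) f]
    exact ⟨fun hf _ => hf, fun hf => hf ()⟩

include hB H hlow in
/-- The colon of two free families. -/
theorem IsFreeRR.colon {L₁ L₂ L₃ : Lat R} (hle : L₁.D + L₂.D ≤ L₃.D)
    {U T E : S → Divisor Ω F} {Ub Tb Eb : Divisor (ResidueField A) Fk}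
    (hU : IsFreeRR B L₂ U Ub) (hT : IsFreeRR B L₃ T Tb)
    (he : ∀ s, E s = T s - U s) (heb : Eb = Tb - Ub) (hUb : c + 1 ≤ Divisor.degree Ub)
    (hE : ∀ s, E s ≤ L₁.D) (hEb : Eb ≤ rDiv L₁.D)
    (hdim : ∀ s, Module.finrank (ResidueField A) (riemannRochSpace Eb) ≤
      Module.finrank Ω (riemannRochSpace (E s))) :
    IsFreeRR B L₁ E Eb := by
  obtain ⟨r, u, v, -, hu, -, hm, hmb, hs⟩ := hU.exists_gens
  have hbp := hasNoBasePoint hlow H.up hUb
  refine isFreeRR_colon hB hle hu hT hE hEb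
    (fun s => by rw [he, heb, Finsupp.mapDomain_sub, hT.map_eq, hU.map_eq])
    (fun q s f hf => ?_) (fun f hf => ?_) hdim
  · have := mul_mem_rr hf (hm q s)
    rwa [he, sub_add_cancel] at this
  · subst heb
    rw [hbp.colon hEb (span_toFk_eq hmb hs)]
    exact ⟨fun h' q => h'.2 _ ⟨q, rfl⟩, fun h' => ⟨hf, by rintro _ ⟨q, rfl⟩; exact h' q⟩⟩

include H in
omit [Finite S] in
/-- In large degree dimensions do not jump. -/
theorem finrank_le_of_map_eq {E : Divisor Ω F} {Eb : Divisor (ResidueField A) Fk}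
    (he : rDiv E = Eb) (hdeg : c ≤ Divisor.degree Eb) :
    Module.finrank (ResidueField A) (riemannRochSpace Eb) ≤
      Module.finrank Ω (riemannRochSpace E) := by
  subst he
  have h1 := H.up _ hdeg
  have h2 := H.low E
  rw [GoodModel.ReductionMap.degree_map] at h1
  omega

/-- The lattices used by the addition. -/
structure AddLattices (R : M.ReductionMap) (LD : Lat R) (Y Y' Y'' : Divisor Ω F) where
  L2 : Lat R
  L3 : Lat R
  L4 : Lat R
  LP : Lat R
  LG : Lat R
  LQ : Lat R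
  hL2 : L2.D = LD.D + LD.D
  hL3 : L3.D = LD.D + L2.D
  hL4 : L4.D = LD.D + L3.D
  hLP : LP.D = LD.D + Y + Y' - Y''
  hLG : LG.D = LD.D + LD.D + LD.D - Y - Y' + Y''
  hLQ : LQ.D = LD.D + LP.D

include H hlow hB in
/-- **Addition.** -/
theorem isFreeRR_add [Nonempty S] {LD : Lat R} {Y Y' Y'' : Divisor Ω F}
    (L : AddLattices R LD Y Y' Y'') (hY : Divisor.degree Y = g) (hY' : Divisor.degree Y' = g)
    (hY'' : Divisor.degree Y'' = g) (hd : c + 3 * g + 2 ≤ Divisor.degree LD.D)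
    (hd0 : 3 * g ≤ Divisor.degree LD.D) (hg : 0 ≤ g)
    {X X' Z : S → Divisor Ω F} {Xb X'b Zb : Divisor (ResidueField A) Fk}
    (hX0 : ∀ s, 0 ≤ X s) (hX'0 : ∀ s, 0 ≤ X' s) (hZ0 : ∀ s, 0 ≤ Z s)
    (hXg : ∀ s, Divisor.degree (X s) = g) (hX'g : ∀ s, Divisor.degree (X' s) = g)
    (hZg : ∀ s, Divisor.degree (Z s) = g)
    (hZb : ∀ s, rDiv (Z s) = Zb) (hZl : Module.finrank (ResidueField A) (riemannRochSpace Zb) ≤ 1)
    (hprin : ∀ s, Divisor.IsPrincipal (Z s + Y + Y' - Y'' - X s - X' s))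
    (hX : IsFreeRR B LD (fun s => LD.D - X s) (rDiv LD.D - Xb))
    (hX' : IsFreeRR B LD (fun s => LD.D - X' s) (rDiv LD.D - X'b)) :
    IsFreeRR B LD (fun s => LD.D - Z s) (rDiv LD.D - Zb) := by
  obtain ⟨L2, L3, L4, LP, LG, LQ, hL2, hL3, hL4, hLP, hLG, hLQ⟩ := L
  obtain ⟨s₀⟩ := ‹Nonempty S›
  have hXb : ∀ s, rDiv (X s) = Xb := fun s => by
    have := hX.map_eq s
    rwa [Finsupp.mapDomain_sub, sub_right_inj] at this
  have hX'b : ∀ s, rDiv (X' s) = X'b := fun s => by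
    have := hX'.map_eq s
    rwa [Finsupp.mapDomain_sub, sub_right_inj] at this
  set d := Divisor.degree LD.D with hddef
  have hdm : ∀ E : Divisor Ω F, Divisor.degree (rDiv E) = Divisor.degree E :=
    fun E => GoodModel.ReductionMap.degree_map E _
  have hdXb : Divisor.degree Xb = g := by rw [← hXb s₀, hdm, hXg]
  have hdX'b : Divisor.degree X'b = g := by rw [← hX'b s₀, hdm, hX'g]
  have hd2 : Divisor.degree L2.D = d + d := by rw [hL2, map_add]
  have hdP : Divisor.degree LP.D = d + g := by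
    rw [hLP, map_sub, map_add, map_add, hY, hY', hY'']; ring
  have hdG : Divisor.degree LG.D = d + d + d - g := by
    rw [hLG, map_add, map_sub, map_sub, map_add, map_add, hY, hY', hY'']; ring
  -- the products
  have h3 : IsFreeRR B L3 (fun s => LD.D - X' s + L2.D) (rDiv LD.D - X'b + rDiv L2.D) :=
    hX'.mul H hlow hB hL3.ge (isFreeRR_self L2)
      (by rw [map_sub, hdm, hdX'b]; omega) (by rw [map_sub, map_sub, hdm, hdm, hdX'b, hd2]; omega)
      (by rw [hdm, hd2]; omega)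
  have h4 : IsFreeRR B L4 (fun s => LD.D - X s + (LD.D - X' s + L2.D))
      (rDiv LD.D - Xb + (rDiv LD.D - X'b + rDiv L2.D)) :=
    hX.mul H hlow hB hL4.ge h3 (by rw [map_sub, hdm, hdXb]; omega)
      (by rw [map_sub, map_add, map_sub, map_sub, hdm, hdm, hdXb, hdX'b, hd2]; omega)
      (by rw [map_add, map_sub, hdm, hdm, hdX'b, hd2]; omega)
  -- the space of `D + Y + Y' - Y'' - X - X'`
  set E₁ : S → Divisor Ω F := fun s => LP.D - X s - X' s with hE₁
  set E₁b : Divisor (ResidueField A) Fk := rDiv LP.D - Xb - X'b with hE₁b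
  have hdE₁ : Divisor.degree E₁b = d - g := by
      rw [hE₁b, map_sub, map_sub, hdm, hdP, hdXb, hdX'b]; ring
  have hE₁map : ∀ s, rDiv (E₁ s) = E₁b := fun s => by
    rw [hE₁, hE₁b, Finsupp.mapDomain_sub, Finsupp.mapDomain_sub, hXb, hX'b]
  have hPG : LP.D + LG.D = L4.D := by rw [hL4, hL3, hL2, hLP, hLG]; abel
  have h1 : IsFreeRR B LP E₁ E₁b := by
    refine IsFreeRR.colon H hlow hB hPG.le (isFreeRR_self LG) h4 (fun s => ?_) ?_
      (by rw [hdm, hdG]; omega) (fun s => ?_) ?_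
      fun s => finrank_le_of_map_eq H (hE₁map s) (by omega)
    · rw [eq_sub_iff_add_eq, hE₁]
      simp only
      rw [show LP.D - X s - X' s + LG.D = (LP.D + LG.D) - X s - X' s by abel, hPG, hL4, hL3]
      abel
    · rw [eq_sub_iff_add_eq, hE₁b,
        show rDiv LP.D - Xb - X'b + rDiv LG.D = (rDiv LP.D + rDiv LG.D) - Xb - X'b by abel,
        ← Finsupp.mapDomain_add, hPG, hL4, hL3, Finsupp.mapDomain_add, Finsupp.mapDomain_add]
      abel
    · exact (sub_le_self _ (hX'0 s)).trans (sub_le_self _ (hX0 s))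
    · rw [← hE₁map s₀]
      exact mapDomain_mono R.toFun ((sub_le_self _ (hX'0 s₀)).trans (sub_le_self _ (hX0 s₀)))
  obtain ⟨u, ub, hu, hu0, -, humem⟩ := h1.exists_elem (by
    have := hlow E₁b
    omega)
  have hud := fun s => hu.mapDomain_dvs hB hu0 s
  -- the space of `D - R`
  have hT2 : IsFreeRR B LQ (fun s => LD.D - dvs (LP.toFn (u s)))
      (rDiv LD.D - dvs (LP.toFk ub)) :=
    IsFreeRR.shift hB (by rw [hLQ, add_comm]) hu hu0 (isFreeRR_self LD)
  set E₂ : S → Divisor Ω F := fun s => LD.D - dvs (LP.toFn (u s)) - E₁ s with hE₂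
  set E₂b : Divisor (ResidueField A) Fk := rDiv LD.D - dvs (LP.toFk ub) - E₁b with hE₂b
  have hE₂map : ∀ s, rDiv (E₂ s) = E₂b := fun s => by
    rw [hE₂, hE₂b, Finsupp.mapDomain_sub, Finsupp.mapDomain_sub, hE₁map, (hud s).2]
  have hE₂le : ∀ s, E₂ s ≤ LD.D := fun s => by
    have h0 := (mem_rr_iff_dvs (hud s).1).mp (humem s)
    have e : E₂ s = LD.D - (E₁ s + dvs (LP.toFn (u s))) := by rw [hE₂]; simp only; abel
    rw [e]
    exact sub_le_self _ h0
  -- `D - R` is equivalent to `Z`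
  have hE₂Z : ∀ s, Divisor.IsPrincipal (E₂ s - Z s) := fun s => by
    have e : E₂ s - Z s = -dvs (LP.toFn (u s)) + -(Z s + Y + Y' - Y'' - X s - X' s) := by
      rw [hE₂, hE₁, hLP]; simp only; abel
    rw [e]
    exact Divisor.principal.add_mem (Divisor.principal.neg_mem (isPrincipal_dvs (hud s).1))
      (Divisor.principal.neg_mem (hprin s))
  have hE₂l : Module.finrank (ResidueField A) (riemannRochSpace E₂b) ≤ 1 := by
    have := isPrincipal_mapDomain (R := R) (hE₂Z s₀)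
    rw [Finsupp.mapDomain_sub, hE₂map, hZb] at this
    rwa [finrank_rr_of_isPrincipal this]
  have hE₂deg : ∀ s, Divisor.degree (E₂ s) = g := fun s => by
    rw [hE₂, map_sub, map_sub, degree_dvs, ← hdm (E₁ s), hE₁map, hdE₁]; ring
  have hE₂pos : ∀ s, 1 ≤ Module.finrank Ω (riemannRochSpace (E₂ s)) := fun s => by
    have := H.low (E₂ s)
    rw [hE₂deg] at this
    omega
  have h2 : IsFreeRR B LD E₂ E₂b :=
    IsFreeRR.colon H hlow hB (hLQ.ge) h1 hT2 (fun s => rfl) rfl (by omega) hE₂le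
      (by rw [← hE₂map s₀]; exact mapDomain_mono R.toFun (hE₂le s₀))
      fun s => hE₂l.trans (hE₂pos s)
  have hE₂bdeg : Divisor.degree E₂b = g := by rw [← hE₂map s₀, hdm, hE₂deg]
  obtain ⟨f₀, fb, hf, hf0, -, hfmem⟩ := h2.exists_elem (by
    have := hlow E₂b
    omega)
  have hfd := fun s => hf.mapDomain_dvs hB hf0 s
  have hZl' : ∀ s, Module.finrank Ω (riemannRochSpace (Z s)) ≤ 1 := fun s =>
    (R.finrank_le (Z s)).trans (by rw [hZb]; exact hZl)
  have hFZ : ∀ s, dvs (LD.toFn (f₀ s)) + E₂ s = Z s := fun s => by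
    refine eq_of_isPrincipal_sub (hZ0 s) ?_ (hZl' s) ?_
    · rw [add_comm]; exact (mem_rr_iff_dvs (hfd s).1).mp (hfmem s)
    · rw [add_sub_assoc]
      exact Divisor.principal.add_mem (isPrincipal_dvs (hfd s).1) (hE₂Z s)
  -- the space of `D - Z`
  have hT3 : IsFreeRR B LQ (fun s => E₁ s - dvs (LD.toFn (f₀ s))) (E₁b - dvs (LD.toFk fb)) :=
    IsFreeRR.shift hB hLQ.ge hf hf0 h1
  have hout : ∀ s, E₁ s - dvs (LD.toFn (f₀ s)) + dvs (LP.toFn (u s)) = LD.D - Z s := fun s => by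
    rw [← hFZ s, hE₂]; simp only; abel
  have houtb : E₁b - dvs (LD.toFk fb) + dvs (LP.toFk ub) = rDiv LD.D - Zb := by
    rw [← hE₁map s₀, ← (hfd s₀).2, ← (hud s₀).2, ← hZb s₀, ← Finsupp.mapDomain_sub,
      ← Finsupp.mapDomain_sub, ← Finsupp.mapDomain_add, hout]
  have h5 := IsFreeRR.unshift hB hLQ.ge hu hu0 hT3 (fun s => by
      show E₁ s - dvs (LD.toFn (f₀ s)) + dvs (LP.toFn (u s)) ≤ LD.D
      rw [hout]; exact sub_le_self _ (hZ0 s))
    (by
      rw [houtb, ← hZb s₀, ← Finsupp.mapDomain_sub]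
      exact mapDomain_mono R.toFun (sub_le_self _ (hZ0 s₀)))
    (fun s => by
      show _ ≤ Module.finrank Ω
          (riemannRochSpace (E₁ s - dvs (LD.toFn (f₀ s)) + dvs (LP.toFn (u s))))
      rw [hout, houtb]
      refine finrank_le_of_map_eq (R := R) H ?_ ?_
      · rw [Finsupp.mapDomain_sub, hZb]
      · rw [map_sub, hdm, ← hZb s, hdm, hZg]; omega)
  simp only [hout, houtb] at h5
  exact h5

end Fermat.Agent.S19Model
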