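import Fermat.Agent.S19Model.Classes

/-!
# Functions of the charts

The functions on a finite module of divisor classes given by the indicators of the residual classes
and the echelon coordinates of their charts: integral, commuting with inertia, separating points.
-/

set_option autoImplicit false

noncomputable section

namespace Fermat.Agent.S19Model

open AlgebraicCurve IsLocalRing Fermat.Agent.FlatJ0 Fermat.Agent.Reduction
  Fermat.Agent.FunctionFieldRR
open scoped Fermat.Agent.Reduction

local notation "Ω" => AlgebraicClosure ℚ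
local notation "G_ℚ" => (AlgebraicClosure ℚ) ≃ₐ[ℚ] (AlgebraicClosure ℚ)

variable {A : ValuationSubring Ω} {F : IntermediateField Ω (LaurentSeries Ω)}
  {Fk : IntermediateField (IsLocalRing.ResidueField A) (LaurentSeries (IsLocalRing.ResidueField A))}
  {M : GoodModel A F Fk}
  [HasPrincipalDivisors Ω F] [HasPrincipalDivisors (IsLocalRing.ResidueField A) Fk]
  {R : M.ReductionMap} {gal : G_ℚ →* SemilinearAut Ω F} {g : ℕ} {c : ℤ}
  (H : GoodModel.RRData (A := A) (F := F) (Fk := Fk) (g : ℤ) c)
  {W : Type} [AddCommGroup W] {jmath : W →+ Pic0 Ω F}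

namespace ChartFamily

variable (C : ChartFamily R gal g jmath) {L : Lat R}

include H in
/-- Echelon coordinates over all residual classes. -/
theorem exists_coords [IsAlgClosed (ResidueField A)] [IsFunctionField Ω F]
    [IsFunctionField (ResidueField A) Fk] (hL : c + 2 * (g : ℤ) ≤ Divisor.degree L.D) :
    Nonempty (∀ e, Coords R L.D L.v (C.Xbar e)) :=
  ⟨fun e => (exists_coordinates H L.basis (C.Xbar e) (by rw [C.Xbar_degree]; omega)
    (by rw [C.Xbar_degree]; exact hL)).some⟩

variable (Cd : ∀ e, Coords R L.D L.v (C.Xbar e))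

open scoped Classical in
/-- The indicator of a residual class. -/
def indicator (e : C.ι) : W → Ω := fun x => if C.cls x = e then 1 else 0

open scoped Classical in
/-- A coordinate of the charts of a residual class. -/
def coordFun (e : C.ι) (s : Fin (Cd e).m) (j : Fin L.n) : W → Ω :=
  fun x => if C.cls x = e then (Cd e).coord (C.X x) s j else 0

/-- The indicators and coordinates. -/
def gens : Set (W → Ω) :=
  Set.range C.indicator ∪
    Set.range fun q : (Σ e, Fin (Cd e).m × Fin L.n) => C.coordFun Cd q.1 q.2.1 q.2.2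

theorem indicator_mem (e : C.ι) : C.indicator e ∈ C.gens Cd := Or.inl ⟨e, rfl⟩

theorem coordFun_mem (e : C.ι) (s : Fin (Cd e).m) (j : Fin L.n) :
    C.coordFun Cd e s j ∈ C.gens Cd :=
  Or.inr ⟨⟨e, s, j⟩, rfl⟩

theorem gens_finite : (C.gens Cd).Finite := by
  have := C.finite_ι
  exact (Set.finite_range _).union (Set.finite_range _)

theorem isOverDiv {x : W} {e : C.ι} (hx : C.cls x = e) : IsOverDiv R (C.Xbar e) (C.X x) :=
  hx ▸ C.isOver x

theorem gens_int : ∀ f ∈ C.gens Cd, ∀ x, f x ∈ A := by
  rintro f (⟨e, rfl⟩ | ⟨⟨e, s, j⟩, rfl⟩) x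
  · simp only [indicator]
    split_ifs
    · exact one_mem _
    · exact zero_mem _
  · simp only [coordFun]
    split_ifs with hx
    · exact (Cd e).integral _ (C.isOverDiv hx) s j
    · exact zero_mem _

/-- The functions separate the points. -/
theorem gens_sep (hj : Function.Injective jmath) (x y : W) (hf : ∀ f ∈ C.gens Cd, f x = f y) :
    x = y := by
  classical
  have hcl : C.cls y = C.cls x := by
    by_contra hne
    have h1 := hf _ (C.indicator_mem Cd (C.cls x))
    simp only [indicator, if_true, if_neg hne] at h1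
    exact one_ne_zero h1
  have hX : C.X x = C.X y := by
    refine (Cd (C.cls x)).injective _ _ (C.isOver x) (C.isOverDiv hcl) ?_
    funext s j
    have h1 := hf _ (C.coordFun_mem Cd (C.cls x) s j)
    simpa [coordFun, hcl] using h1
  refine hj (((C.isRep x).eq_iff (C.isRep y)).mpr ?_)
  rw [hX, hcl, sub_self]
  exact (Divisor.principal (K := Ω) (F := F)).zero_mem

variable [IsAlgClosed (ResidueField A)] [IsFunctionField Ω F] [IsFunctionField (ResidueField A) Fk]

include H in
/-- The functions commute with inertia. -/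
theorem gens_conj (hgal : IsCoeffAction gal) (act : G_ℚ →* AddMonoid.End W)
    (hact : ∀ σ x, jmath (act σ x) = gal σ • jmath x)
    (hD : ∀ σ ∈ A.inertiaSubgroupIn ℚ, gal σ • L.D = L.D)
    (hv : ∀ σ ∈ A.inertiaSubgroupIn ℚ, ∀ j, gal σ • L.v j = L.v j) :
    ∀ f ∈ C.gens Cd, ∀ σ ∈ A.inertiaSubgroupIn ℚ, conjFun act σ f = f := by
  classical
  rintro f (⟨e, rfl⟩ | ⟨⟨e, s, j⟩, rfl⟩) σ hσ <;> rw [conjFun_eq_iff] <;> intro x <;>
    obtain ⟨hcl, hX⟩ := C.equivariant H hgal act hact hσ x
  · simp only [indicator, hcl]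
    split_ifs <;> simp
  · simp only [coordFun, hcl]
    split_ifs with hx
    · rw [hX, (Cd e).equivariant (gal σ) (hD σ hσ) (hv σ hσ) _ (C.isOverDiv hx)
        (hX ▸ C.isOverDiv (hcl.trans hx)) s j, baseAut_gal hgal]
    · simp

end ChartFamily

variable [IsAlgClosed (ResidueField A)] [IsFunctionField Ω F] [IsFunctionField (ResidueField A) Fk]

/-- Fixed lattices of arbitrarily large degree above a fixed divisor. -/
theorem exists_fixed_lat (H : GoodModel.RRData (A := A) (F := F) (Fk := Fk) (g : ℤ) c)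
    (hgal : IsCoeffAction gal) (hd : FixedPlacesDense gal R) (N : ℤ) (E : Divisor Ω F)
    (hE0 : 0 ≤ E) (hEfix : ∀ σ ∈ A.inertiaSubgroupIn ℚ, gal σ • E = E) :
    ∃ L : Lat R, E ≤ L.D ∧ 0 ≤ L.D ∧ N ≤ Divisor.degree L.D ∧
      (∀ σ ∈ A.inertiaSubgroupIn ℚ, gal σ • L.D = L.D) ∧
      ∀ σ ∈ A.inertiaSubgroupIn ℚ, ∀ j, gal σ • L.v j = L.v j := by
  classical
  obtain ⟨P, -, hP⟩ := hd ∅ Set.finite_empty
  set n : ℕ := (max N c).toNat
  set D : Divisor Ω F := E + Finsupp.single P (n : ℤ) with hD
  have hP0 : (0 : Divisor Ω F) ≤ Finsupp.single P (n : ℤ) := Finsupp.le_def.mpr fun v => by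
    rw [Finsupp.single_apply]
    split_ifs <;> simp
  have hD0 : 0 ≤ D := add_nonneg hE0 hP0
  have hDfix : ∀ σ ∈ A.inertiaSubgroupIn ℚ, gal σ • D = D := fun σ hσ => by
    rw [hD, smul_add, hEfix σ hσ, SemilinearAut.smul_single, hP σ hσ]
  have hdeg : (n : ℤ) ≤ Divisor.degree D := by
    rw [hD, map_add, Divisor.degree_single, deg_eq_one]
    have := degree_nonneg_of_nonneg hE0
    simp only [Nat.cast_one, mul_one]
    omega
  obtain ⟨v, hv, hexp⟩ := exists_fixed_basis R H hgal hd hD0 hDfix
  have hb : IsIntBasis M D v := ⟨rfl, fun j => (hv j).1, fun j => (hv j).2.1, fun f hf => by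
    obtain ⟨a, ha, hai, -⟩ := hexp f hf
    exact ⟨a, ha, hai⟩⟩
  have hc : c ≤ Divisor.degree D :=
    le_trans (le_trans (le_max_right N c) (Int.self_le_toNat _)) hdeg
  have hli := hb.red_linearIndependent H R hc
  refine ⟨⟨D, _, v, hb, hli, ?_⟩, le_add_of_nonneg_right hP0, hD0,
    le_trans (le_trans (le_max_left N c) (Int.self_le_toNat _)) hdeg, hDfix, fun σ hσ j =>
        (hv j).2.2 σ hσ⟩
  have := finiteDimensional_riemannRochSpace (K := ResidueField A) (Finsupp.mapDomain R.toFun D)
  refine Submodule.eq_of_le_of_finrank_le (Submodule.span_le.mpr ?_) ?_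
  · rintro _ ⟨j, rfl⟩
    exact R.red_mem_rr (hb.mem j) (hb.isInt j)
  · rw [finrank_span_eq_card hli, Fintype.card_fin]
    have h2 := H.up (Finsupp.mapDomain R.toFun D) (by rwa [GoodModel.ReductionMap.degree_map])
    have h3 := H.finrank_eq hc R
    rw [GoodModel.ReductionMap.degree_map] at h2
    omega

end Fermat.Agent.S19Model

end
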