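import Fermat.Agent.RowS56.Model.Lattice
import Fermat.Agent.FlatJ0.InertiaFixed
import Fermat.Agent.Frobenius.Exists
import Fermat.Agent.BigImage.RootsOfUnity
import Mathlib.RingTheory.Adjoin.Basic
import Mathlib.RingTheory.IntegralClosure.IsIntegralClosure.Basic
import Mathlib.LinearAlgebra.Matrix.NonsingularInverse
import Mathlib.LinearAlgebra.Vandermonde
import Mathlib.RingTheory.RootsOfUnity.PrimitiveRoots
import Mathlib.LinearAlgebra.LinearIndependent.Lemmas

/-!
# Descent of an integral lattice of functions to `ℤ_(p)`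

An algebra of `A`-valued functions on a finite Galois module, generated by functions commuting with
inertia and stable under the decomposition group, is spanned over `A` by equivariant functions; if
it is closed under comultiplication these form a model over `ℤ_(p)`.
-/

set_option autoImplicit false

noncomputable section

namespace Fermat.Agent.S19Model

open Fermat.Agent.FlatJ0 Fermat.Agent.RowS56 Submodule IsLocalRing Module

local notation "Ω" => AlgebraicClosure ℚ
local notation "G_ℚ" => (AlgebraicClosure ℚ) ≃ₐ[ℚ] (AlgebraicClosure ℚ)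

local instance isAlgebraicQbar_s19 : Algebra.IsAlgebraic ℚ (AlgebraicClosure ℚ) :=
  AlgebraicClosure.isAlgebraic ℚ
local instance isGaloisQbar_s19 : IsGalois ℚ (AlgebraicClosure ℚ) := Frobenius.isGalois_qbar

variable {A : ValuationSubring Ω} {p : ℕ} {W : Type} [AddCommGroup W]
  (act : G_ℚ →* AddMonoid.End W)

/-- The action on functions. -/
def conjFun (σ : G_ℚ) (f : W → Ω) : W → Ω := fun x => σ (f (act σ⁻¹ x))

theorem act_inv_act (σ : G_ℚ) (x : W) : act σ⁻¹ (act σ x) = x := by
  show (act σ⁻¹ * act σ) x = x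
  rw [← map_mul, inv_mul_cancel, map_one]
  rfl

theorem act_act_inv (σ : G_ℚ) (x : W) : act σ (act σ⁻¹ x) = x := by
  show (act σ * act σ⁻¹) x = x
  rw [← map_mul, mul_inv_cancel, map_one]
  rfl

theorem conjFun_mul (σ τ : G_ℚ) (f : W → Ω) :
    conjFun act (σ * τ) f = conjFun act σ (conjFun act τ f) := by
  funext x
  show σ (τ (f (act (σ * τ)⁻¹ x))) = σ (τ (f (act τ⁻¹ (act σ⁻¹ x))))
  rw [mul_inv_rev, map_mul]
  rfl

theorem conjFun_eq_iff (σ : G_ℚ) (f : W → Ω) :
    conjFun act σ f = f ↔ ∀ x, f (act σ x) = σ (f x) := by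
  constructor
  · intro h x
    conv_lhs => rw [← h]
    show σ (f (act σ⁻¹ (act σ x))) = _
    rw [act_inv_act]
  · intro h
    funext x
    show σ (f (act σ⁻¹ x)) = f x
    rw [← h, act_act_inv]

/-- The fixed functions of one element. -/
theorem conjFun_add (σ : G_ℚ) (f g : W → Ω) :
    conjFun act σ (f + g) = conjFun act σ f + conjFun act σ g :=
  funext fun _ => map_add σ _ _

theorem conjFun_hmul (σ : G_ℚ) (f g : W → Ω) :
    conjFun act σ (f * g) = conjFun act σ f * conjFun act σ g :=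
  funext fun _ => map_mul σ _ _

theorem conjFun_smul (σ : G_ℚ) (c : Ω) (f : W → Ω) :
    conjFun act σ (c • f) = σ c • conjFun act σ f :=
  funext fun _ => map_mul σ _ _

theorem conjFun_sum (σ : G_ℚ) {κ : Type*} (s : Finset κ) (f : κ → W → Ω) :
    conjFun act σ (∑ i ∈ s, f i) = ∑ i ∈ s, conjFun act σ (f i) := by
  funext x
  simp [conjFun, Finset.sum_apply, map_sum]

theorem conjFun_one (σ : G_ℚ) : conjFun act σ 1 = 1 := funext fun _ => map_one σ

/-- The sums of products `a(x) b(y)` with `a`, `b` in `H`. -/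
def pairAlg (H : Subalgebra A (W → Ω)) : Subalgebra A (W × W → Ω) :=
  Algebra.adjoin A ({F | ∃ a ∈ H, F = fun q : W × W => a q.1} ∪
    {F | ∃ b ∈ H, F = fun q : W × W => b q.2})

omit [AddCommGroup W] in
theorem exists_sum_of_mem_pairAlg {H : Subalgebra A (W → Ω)} {F : W × W → Ω}
    (hF : F ∈ pairAlg H) :
    ∃ (n : ℕ) (a b : Fin n → W → Ω), (∀ i, a i ∈ H) ∧ (∀ i, b i ∈ H) ∧
      ∀ x y, F (x, y) = ∑ i, a i x * b i y := by
  induction hF using Algebra.adjoin_induction with
  | mem F hF =>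
    rcases hF with ⟨a, ha, rfl⟩ | ⟨b, hb, rfl⟩
    · exact ⟨1, ![a], ![1], fun _ => by simpa using ha, fun _ => by simp,
        fun x y => by simp⟩
    · exact ⟨1, ![1], ![b], fun _ => by simp, fun _ => by simpa using hb,
        fun x y => by simp⟩
  | algebraMap r =>
    exact ⟨1, ![algebraMap A (W → Ω) r], ![1], fun _ => by simp,
      fun _ => by simp, fun x y => by simp [Pi.algebraMap_apply]⟩
  | add F G _ _ hF hG =>
    obtain ⟨n, a, b, ha, hb, e⟩ := hF
    obtain ⟨n', a', b', ha', hb', e'⟩ := hG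
    refine ⟨n + n', Fin.append a a', Fin.append b b', fun i => ?_, fun i => ?_, fun x y => ?_⟩
    · exact Fin.addCases (fun i => by simpa using ha i) (fun i => by simpa using ha' i) i
    · exact Fin.addCases (fun i => by simpa using hb i) (fun i => by simpa using hb' i) i
    · simp [Fin.sum_univ_add, e, e']
  | mul F G _ _ hF hG =>
    obtain ⟨n, a, b, ha, hb, e⟩ := hF
    obtain ⟨n', a', b', ha', hb', e'⟩ := hG
    refine ⟨n * n', fun i => a (finProdFinEquiv.symm i).1 * a' (finProdFinEquiv.symm i).2,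
      fun i => b (finProdFinEquiv.symm i).1 * b' (finProdFinEquiv.symm i).2,
      fun i => H.mul_mem (ha _) (ha' _), fun i => H.mul_mem (hb _) (hb' _), fun x y => ?_⟩
    simp only [Pi.mul_apply, e, e', Finset.sum_mul_sum]
    rw [← finProdFinEquiv.sum_comp, Fintype.sum_prod_type]
    refine Finset.sum_congr rfl fun i _ => Finset.sum_congr rfl fun j _ => ?_
    simp only [Equiv.symm_apply_apply]
    ring

variable {act}

omit [AddCommGroup W] in
/-- A separating algebra of functions spans all functions. -/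
theorem span_eq_top_of_sep [Finite W] (H : Subalgebra A (W → Ω))
    (hsep : ∀ x y : W, (∀ f ∈ H, f x = f y) → x = y) : span Ω (H : Set (W → Ω)) = ⊤ := by
  classical
  let := Fintype.ofFinite W
  set S := span Ω (H : Set (W → Ω))
  have hone : (1 : W → Ω) ∈ S := subset_span H.one_mem
  have hmul : ∀ f ∈ S, ∀ g ∈ S, f * g ∈ S := by
    intro f hf g hg
    have := Submodule.mul_mem_mul hf hg
    rw [Submodule.span_mul_span] at this
    exact span_mono (Set.mul_subset_iff.mpr fun _ ha _ hb => H.mul_mem ha hb) this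
  have key : ∀ x : W, ∀ t : Finset W, x ∉ t → ∃ f ∈ S, f x = 1 ∧ ∀ y ∈ t, f y = 0 := by
    intro x t
    induction t using Finset.induction_on with
    | empty => exact fun _ => ⟨1, hone, rfl, by simp⟩
    | insert y t hy ih =>
      intro hx
      rw [Finset.mem_insert, not_or] at hx
      obtain ⟨f, hf, hfx, hft⟩ := ih hx.2
      obtain ⟨g, hg, hgxy⟩ : ∃ g ∈ H, g x ≠ g y := by
        by_contra! hcon
        exact hx.1 (hsep x y hcon)
      refine ⟨f * ((g x - g y)⁻¹ • (g - g y • (1 : W → Ω))), hmul _ hf _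
        (S.smul_mem _ (S.sub_mem (subset_span hg) (S.smul_mem _ hone))), ?_, ?_⟩
      · simp [hfx, inv_mul_cancel₀ (sub_ne_zero.mpr hgxy)]
      · intro z hz
        rcases Finset.mem_insert.mp hz with rfl | hz
        · simp
        · simp [hft z hz]
  rw [eq_top_iff]
  intro f _
  rw [← Finset.univ_sum_single f]
  refine S.sum_mem fun x _ => ?_
  obtain ⟨d, hd, hdx, hdt⟩ := key x (Finset.univ.erase x) (Finset.notMem_erase _ _)
  rw [show (Pi.single x (f x) : W → Ω) = f x • d by
    funext y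
    rcases eq_or_ne y x with rfl | hy
    · simp [hdx]
    · simp [Pi.single_eq_of_ne hy, hdt y (Finset.mem_erase.mpr ⟨hy, Finset.mem_univ y⟩)]]
  exact S.smul_mem _ hd

/-- Every point is fixed by the fixing subgroup of a finite extension. -/
def IsSmooth (act : G_ℚ →* AddMonoid.End W) : Prop :=
  ∀ x : W, ∃ K : IntermediateField ℚ Ω, FiniteDimensional ℚ K ∧
    ∀ σ : G_ℚ, (∀ a ∈ K, σ a = a) → act σ x = x

/-- Galois descent: equivariant functions span all functions. -/
theorem span_equivariant_eq_top [Finite W] (hsm : IsSmooth act) :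
    span Ω {f : W → Ω | ∀ σ, conjFun act σ f = f} = ⊤ := by
  classical
  let := Fintype.ofFinite W
  choose K hK hfixK using hsm
  by_contra hne
  obtain ⟨φ, hφ, hker⟩ := Submodule.exists_le_ker_of_lt_top _ (lt_top_iff_ne_top.mpr hne)
  refine hφ (LinearMap.pi_ext' fun x₀ => LinearMap.ext_ring ?_)
  have := hK x₀
  set L := K x₀
  let ext : (L →ₐ[ℚ] Ω) → G_ℚ := fun τ =>
    AlgEquiv.ofBijective (τ.liftNormal Ω) (Algebra.IsAlgebraic.algHom_bijective _)
  have hext : ∀ τ (a : L), ext τ (a : Ω) = τ a := fun τ a => τ.liftNormal_commutes Ω a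
  have hact : ∀ σ σ' : G_ℚ, (∀ a : L, σ (a : Ω) = σ' (a : Ω)) → act σ x₀ = act σ' x₀ :=
    fun σ σ' e => by
      have h1 : act (σ'⁻¹ * σ) x₀ = x₀ := hfixK x₀ _ fun a ha => by
        show σ'⁻¹ (σ a) = a
        rw [show σ a = σ' a from e ⟨a, ha⟩]
        exact σ'.symm_apply_apply a
      conv_rhs => rw [← h1]
      show act σ x₀ = (act σ' * act (σ'⁻¹ * σ)) x₀
      rw [← map_mul, mul_inv_cancel_left]
  let pt : (L →ₐ[ℚ] Ω) → W := fun τ => act (ext τ) x₀
  let := Fintype.ofFinite (L →ₐ[ℚ] Ω)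
  -- an equivariant function for each element of the field
  let T : L → W → Ω := fun a => ∑ τ : L →ₐ[ℚ] Ω, τ a • Pi.single (pt τ) 1
  have hT : ∀ a σ, conjFun act σ (T a) = T a := fun a σ => by
    simp only [T]
    rw [conjFun_sum]
    let e : (L →ₐ[ℚ] Ω) ≃ (L →ₐ[ℚ] Ω) :=
      { toFun := fun τ => σ.toAlgHom.comp τ
        invFun := fun τ => σ⁻¹.toAlgHom.comp τ
        left_inv := fun τ => AlgHom.ext fun a => σ.symm_apply_apply (τ a)
        right_inv := fun τ => AlgHom.ext fun a => σ.apply_symm_apply (τ a) }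
    refine Eq.trans (Finset.sum_congr rfl fun τ _ => ?_) (e.sum_comp _)
    have hpt : pt (e τ) = act σ (pt τ) := by
      show act (ext (e τ)) x₀ = (act σ * act (ext τ)) x₀
      rw [← map_mul]
      refine hact _ _ fun b => ?_
      rw [hext, AlgEquiv.mul_apply, hext]
      rfl
    rw [conjFun_smul]
    congr 1
    funext y
    simp only [conjFun, hpt, Pi.single_apply, apply_ite σ, map_one, map_zero]
    exact if_congr ⟨fun h => by rw [← h, act_act_inv],
      fun h => by rw [h, act_inv_act]⟩ rfl rfl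
  have hzero : ∀ a, ∑ τ : L →ₐ[ℚ] Ω, φ (Pi.single (pt τ) 1) * τ a = 0 := fun a => by
    have : φ (T a) = 0 := hker (subset_span (hT a))
    rw [map_sum] at this
    simpa [mul_comm] using this
  have hli : LinearIndependent Ω fun τ : L →ₐ[ℚ] Ω => (τ : L → Ω) :=
    (linearIndependent_monoidHom L Ω).comp (fun τ : L →ₐ[ℚ] Ω => (τ : L →* Ω))
      fun τ τ' e => AlgHom.ext fun a => DFunLike.congr_fun e a
  have h0 := Fintype.linearIndependent_iff.mp hli (fun τ => φ (Pi.single (pt τ) 1))
      (funext fun a => by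
    simpa [Finset.sum_apply] using hzero a) L.val
  have hpt : pt L.val = x₀ := by
    show act (ext L.val) x₀ = x₀
    refine (hact _ 1 fun a => ?_).trans (by rw [map_one]; rfl)
    rw [hext]
    rfl
  rw [hpt] at h0
  simpa using h0

section Local

theorem mem_of_residue {σ : G_ℚ} (hσ : σ ∈ A.decompositionSubgroup ℚ) {x : Ω} (hx : x ∈ A) :
    σ x ∈ A := by
  rw [← A.valuation_le_one_iff, MultRed.decomp_isometry hσ, A.valuation_le_one_iff]
  exact hx

/-- A Frobenius element acts by the `p`-th power on residues. -/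
theorem residue_frobenius {φ : G_ℚ} (hφ : A.IsFrobeniusAt φ p) (x : A) :
    residue A ⟨φ x, mem_of_residue hφ.mem_decompositionSubgroup x.2⟩ = residue A x ^ p := by
  rw [← hφ.smul_residue_eq, ← ResidueField.residue_smul]
  rfl

variable (h : IsOver A p)
include h

/-- An algebraic number is integral after multiplying by a power of `p`. -/
theorem exists_pow_mul_mem (c : Ω) : ∃ m : ℕ, (p : Ω) ^ m * c ∈ A := by
  have hc : IsAlgebraic ℤ c :=
    (IsFractionRing.isAlgebraic_iff ℤ ℚ Ω).mpr (Algebra.IsAlgebraic.isAlgebraic c)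
  obtain ⟨N, hN, hint⟩ := hc.exists_integral_multiple
  obtain ⟨m, u, hu, e⟩ := Nat.exists_eq_pow_mul_and_not_dvd (Int.natAbs_ne_zero.mpr hN) p
    h.prime.ne_one
  refine ⟨m, ?_⟩
  have h1 : (p : Ω) ^ m * (u : Ω) * c ∈ A := by
    have h0 := Frobenius.mem_of_isIntegral A hint
    rw [zsmul_eq_mul] at h0
    rcases Int.natAbs_eq N with e' | e' <;> rw [e', e] at h0 <;> push_cast at h0
    · exact h0
    · rw [neg_mul] at h0
      exact neg_mem_iff.mp h0
  have hu1 : A.valuation (u : Ω) = 1 := MultRed.vnat_eq_one h.prime h.liesOver hu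
  rw [← A.valuation_le_one_iff] at h1 ⊢
  rwa [map_mul, map_mul, hu1, mul_one, ← map_mul] at h1

/-- Roots of unity of order prime to `p` are determined by their residues. -/
theorem eq_one_of_residue_eq_one {n : ℕ} (hn : ¬ p ∣ n) {z : A} (hz : z ^ n = 1)
    (hres : residue A z = 1) : z = 1 := by
  by_contra hne
  have h0 : (∑ i ∈ Finset.range n, z ^ i) * (z - 1) = 0 := by rw [geom_sum_mul, hz, sub_self]
  rcases mul_eq_zero.mp h0 with e | e
  · have := congrArg (residue A) e
    rw [map_sum, map_zero] at this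
    simp only [map_pow, hres, one_pow, Finset.sum_const, Finset.card_range, nsmul_one] at this
    have : Fact p.Prime := ⟨h.prime⟩
    have := Frobenius.residueField_charP h.prime h.liesOver
    exact hn ((CharP.cast_eq_zero_iff (ResidueField A) p n).mp ‹_›)
  · exact hne (sub_eq_zero.mp e)

/-- Numbers fixed by inertia and by a Frobenius element are approximated by integers. -/
theorem exists_int_near {φ : G_ℚ} (hφ : A.IsFrobeniusAt φ p) (m : ℕ) {c : Ω} (hc : c ∈ A)
    (hI : ∀ σ ∈ A.inertiaSubgroupIn ℚ, σ c = c) (hφc : φ c = c) :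
    ∃ n : ℤ, ∃ d ∈ A, c - n = (p : Ω) ^ m * d ∧ (∀ σ ∈ A.inertiaSubgroupIn ℚ, σ d = d) ∧
        φ d = d := by
  induction m with
  | zero => exact ⟨0, c, hc, by simp, hI, hφc⟩
  | succ m ih =>
    obtain ⟨n, d, hd, e, hdI, hdφ⟩ := ih
    have : Fact p.Prime := ⟨h.prime⟩
    have := Frobenius.residueField_charP h.prime h.liesOver
    have hr : residue A ⟨d, hd⟩ ^ p = residue A ⟨d, hd⟩ := by
      rw [← residue_frobenius hφ ⟨d, hd⟩]
      exact congrArg _ (Subtype.ext hdφ)
    obtain ⟨a, ha⟩ := (mem_bot_iff_intCast p (ResidueField A)).mp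
      ((Subfield.mem_bot_iff_pow_eq_self (ResidueField A) p).mpr hr)
    have hda : d - a ∈ A.nonunits := by
      have : residue A (⟨d, hd⟩ - (a : A)) = 0 := by rw [map_sub, map_intCast, ha, sub_self]
      rw [residue_eq_zero_iff, ← A.coe_mem_nonunits_iff] at this
      simpa using this
    have hdiv : (d - a) / (p : Ω) ∈ A := by
      rcases eq_or_ne (d - a) 0 with h0 | h0
      · rw [h0, zero_div]; exact zero_mem A
      obtain ⟨k, hk⟩ := exists_valuation_eq_zpow_of_fixed h.prime h.liesOver h0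
        fun σ hσ => by rw [map_sub, hdI σ hσ, map_intCast]
      rw [← A.valuation_le_one_iff, map_div₀, hk, div_eq_mul_inv,
        ← zpow_sub_one₀ h.val_p_pos.ne',
            zpow_le_one_iff_right_of_lt_one₀ h.val_p_pos h.val_p_lt_one]
      by_contra hk0
      have hk1 : k ≤ 0 := by omega
      have := A.valuation_le_one_iff _ |>.mpr (A.nonunits_subset hda)
      have hlt : A.valuation (d - a) < 1 := A.mem_nonunits_iff.mp hda
      rw [hk] at hlt
      exact absurd hlt (not_lt.mpr (one_le_zpow_of_nonpos₀ h.val_p_pos h.val_p_lt_one.le hk1))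
    refine ⟨n + (p : ℤ) ^ m * a, (d - a) / p, hdiv, ?_, fun σ hσ => ?_, ?_⟩
    · have hp0 : (p : Ω) ≠ 0 := Nat.cast_ne_zero.mpr h.prime.ne_zero
      push_cast
      field_simp
      linear_combination (p : Ω) * e
    · rw [map_div₀, map_sub, hdI σ hσ, map_intCast, map_natCast]
    · rw [map_div₀, map_sub, hdφ, map_intCast, map_natCast]

end Local

section Main

variable [Finite W] (h : IsOver A p)

variable (act) in
/-- The equivariant functions of an algebra of functions, a `ℤ_(p)`-algebra. -/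
def invariants (h : IsOver A p) (H : Subalgebra A (W → Ω)) :
    Subalgebra (GaloisRep.ratLocalizedAt p) (W → Ω) where
  carrier := {f | f ∈ H ∧ ∀ σ, conjFun act σ f = f}
  mul_mem' := fun hf hg => ⟨H.mul_mem hf.1 hg.1, fun σ => by rw [conjFun_hmul, hf.2, hg.2]⟩
  one_mem' := ⟨H.one_mem, fun σ => conjFun_one act σ⟩
  add_mem' := fun hf hg => ⟨H.add_mem hf.1 hg.1, fun σ => by rw [conjFun_add, hf.2, hg.2]⟩
  zero_mem' := ⟨H.zero_mem, fun σ => funext fun _ => map_zero σ⟩
  algebraMap_mem' := fun r => ⟨by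
    have := Fact.mk h.prime
    have : algebraMap (GaloisRep.ratLocalizedAt p) (W → Ω) r =
        algebraMap A (W → Ω) ⟨_, RowS56.algebraMap_mem h r⟩ := rfl
    rw [this]
    exact H.algebraMap_mem _, fun σ => funext fun _ => σ.commutes (r : ℚ)⟩

include h in
/-- A rational number in `A` lies in `ℤ_(p)`. -/
theorem mem_ratLocalizedAt {q : ℚ} (hq : algebraMap ℚ Ω q ∈ A) :
    q ∈ GaloisRep.ratLocalizedAt p := by
  show q.den.Coprime p
  rw [Nat.coprime_comm, h.prime.coprime_iff_not_dvd]
  intro hd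
  have hn : ¬ p ∣ q.num.natAbs := fun hd' =>
    h.prime.not_dvd_one (q.reduced ▸ Nat.dvd_gcd hd' hd)
  have e : (q.num : Ω) = algebraMap ℚ Ω q * (q.den : Ω) := by
    rw [← map_natCast (algebraMap ℚ Ω), ← map_mul, Rat.mul_den_eq_num, map_intCast]
  have hden : A.valuation (q.den : Ω) < 1 := by
    obtain ⟨c, hc⟩ := hd
    rw [hc, Nat.cast_mul, map_mul]
    exact lt_of_le_of_lt
        (mul_le_of_le_one_right' ((A.valuation_le_one_iff _).mpr (natCast_mem A c)))
      h.val_p_lt_one
  have hnum : A.valuation (q.num : Ω) = 1 :=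
    MultRed.vint_eq_one h.prime h.liesOver fun hd' => hn (Int.natCast_dvd.mp hd')
  rw [e, map_mul] at hnum
  exact absurd hnum (ne_of_lt (lt_of_le_of_lt
    (mul_le_of_le_one_left' ((A.valuation_le_one_iff _).mpr hq)) hden))

variable {H : Subalgebra A (W → Ω)}

include h in
/-- A function fixed by inertia and Frobenius is spanned by equivariant functions of the lattice. -/
theorem mem_span_of_fixed (hsm : IsSmooth act) (hsep : ∀ x y : W, (∀ f ∈ H, f x = f y) → x = y)
    {φ : G_ℚ} (hφ : A.IsFrobeniusAt φ p) {f : W → Ω} (hf : f ∈ H)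
    (hI : ∀ σ ∈ A.inertiaSubgroupIn ℚ, conjFun act σ f = f) (hφf : conjFun act φ f = f) :
    f ∈ span A ((invariants act h H : Subalgebra _ _) : Set (W → Ω)) := by
  classical
  obtain ⟨t, ht, htspan, htli⟩ := exists_linearIndependent Ω {f : W → Ω | ∀ σ, conjFun act σ f = f}
  rw [span_equivariant_eq_top hsm] at htspan
  let : Fintype t := htli.setFinite.fintype
  let b : Basis t Ω (W → Ω) := Basis.mk htli (by rw [Subtype.range_coe, htspan])
  have hbapp : ∀ i, b i = i.1 := fun i => Basis.mk_apply _ _ i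
  -- powers of `p` carrying the basis into the lattice
  have hH : ∀ g : W → Ω, ∃ m : ℕ, ((p : Ω) ^ m) • g ∈ H := fun g => by
    have hg : g ∈ span Ω (H : Set (W → Ω)) := by rw [span_eq_top_of_sep H hsep]; trivial
    induction hg using Submodule.span_induction with
    | mem g hg => exact ⟨0, by simpa using hg⟩
    | zero => exact ⟨0, by simp⟩
    | add g g' _ _ hg hg' =>
      obtain ⟨m, hm⟩ := hg
      obtain ⟨m', hm'⟩ := hg'
      refine ⟨m + m', ?_⟩
      rw [smul_add]
      refine H.add_mem ?_ ?_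
      · rw [pow_add, mul_comm, mul_smul]
        exact H.smul_mem hm (⟨_, pow_mem (natCast_mem A p) m'⟩ : A)
      · rw [pow_add, mul_smul]
        exact H.smul_mem hm' (⟨_, pow_mem (natCast_mem A p) m⟩ : A)
    | smul c g _ hg =>
      obtain ⟨m, hm⟩ := hg
      obtain ⟨m', hm'⟩ := exists_pow_mul_mem h c
      refine ⟨m' + m, ?_⟩
      rw [smul_smul, pow_add, mul_right_comm, mul_smul]
      exact H.smul_mem hm (⟨_, hm'⟩ : A)
  choose mm hmm using fun i : t => hH i.1
  let e : t → W → Ω := fun i => (p : Ω) ^ mm i • i.1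
  have he : ∀ i, e i ∈ invariants act h H := fun i => ⟨hmm i, fun σ => by
    rw [conjFun_smul, map_pow, map_natCast, ht i.2 σ]⟩
  let c : t → Ω := fun i => b.repr f i / (p : Ω) ^ mm i
  have hp0 : (p : Ω) ≠ 0 := Nat.cast_ne_zero.mpr h.prime.ne_zero
  have hce : f = ∑ i, c i • e i := by
    conv_lhs => rw [← b.sum_repr f]
    refine Finset.sum_congr rfl fun i _ => ?_
    rw [hbapp, smul_smul, div_mul_cancel₀ _ (pow_ne_zero _ hp0)]
  have hfix : ∀ σ, conjFun act σ f = f → ∀ i, σ (c i) = c i := fun σ hσ i => by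
    have e1 : f = ∑ i, σ (b.repr f i) • b i := by
      conv_lhs => rw [← hσ, ← b.sum_repr f]
      rw [conjFun_sum]
      refine Finset.sum_congr rfl fun j _ => ?_
      rw [conjFun_smul, hbapp, ht j.2 σ]
    have := congrArg (fun g => b.repr g i) e1
    simp only [Basis.repr_sum_self] at this
    simp only [c, map_div₀, map_pow, map_natCast, ← this]
  choose q hq using fun i => exists_pow_mul_mem h (c i)
  have happrox : ∀ i, ∃ r : ℚ, c i - algebraMap ℚ Ω r ∈ A := fun i => by
    obtain ⟨n, d, hd, e, -, -⟩ := exists_int_near h hφ (q i) (hq i)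
      (fun σ hσ => by rw [map_mul, map_pow, map_natCast, hfix σ (hI σ hσ)])
      (by rw [map_mul, map_pow, map_natCast, hfix φ hφf])
    refine ⟨n / (p : ℚ) ^ q i, ?_⟩
    rw [map_div₀, map_intCast, map_pow, map_natCast]
    convert hd using 1
    field_simp
    linear_combination e
  choose r hr using happrox
  have hsplit : f = ∑ i, (⟨_, hr i⟩ : A) • e i + ∑ i, algebraMap ℚ Ω (r i) • e i := by
    conv_lhs => rw [hce]
    rw [← Finset.sum_add_distrib]
    refine Finset.sum_congr rfl fun i _ => ?_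
    show _ = (c i - algebraMap ℚ Ω (r i)) • e i + _
    rw [← add_smul, sub_add_cancel]
  rw [hsplit]
  refine add_mem (sum_mem fun i _ => smul_mem _ _ (subset_span (he i)))
      (subset_span ⟨?_, fun σ => ?_⟩)
  · have := H.sub_mem hf
      (H.sum_mem (t := Finset.univ) fun i _ => H.smul_mem (he i).1 (⟨_, hr i⟩ : A))
    convert this using 1
    rw [eq_sub_iff_add_eq, add_comm]
    exact hsplit.symm
  · rw [conjFun_sum]
    refine Finset.sum_congr rfl fun i _ => ?_
    rw [conjFun_smul, AlgEquiv.commutes, (he i).2]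

/-- A permutation of the points and of finitely many numbers has finite order on them. -/
theorem exists_period (φ : G_ℚ) (F : Finset (W → Ω)) :
    ∃ n, 0 < n ∧ ∀ f ∈ F, conjFun act (φ ^ n) f = f := by
  classical
  let := Fintype.ofFinite W
  let S : Finset Ω := F.biUnion fun f => Finset.univ.image f
  let roots : Set Ω := ⋃ a ∈ S, (minpoly ℚ a).rootSet Ω
  have hfin : roots.Finite := S.finite_toSet.biUnion fun a _ => (minpoly ℚ a).rootSet_finite Ω
  have : Finite roots := hfin.to_subtype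
  let key : ℕ → (W → W) × (S → roots) := fun n => ⟨fun x => act (φ ^ n) x, fun a => ⟨(φ ^ n) a, by
    refine Set.mem_iUnion₂.mpr ⟨a, a.2, ?_⟩
    rw [Polynomial.mem_rootSet, Polynomial.aeval_algHom_apply, map_eq_zero]
    exact ⟨minpoly.ne_zero (Algebra.IsIntegral.isIntegral _), minpoly.aeval ℚ _⟩⟩⟩
  obtain ⟨i, j, hij, e⟩ := Finite.exists_ne_map_eq_of_infinite key
  wlog hlt : i < j generalizing i j
  · exact this j i hij.symm e.symm (by omega)
  refine ⟨j - i, by omega, fun f hf => ?_⟩
  rw [conjFun_eq_iff]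
  intro x
  have ej : φ ^ j = φ ^ (j - i) * φ ^ i := by rw [← pow_add]; congr 1; omega
  have ej' : φ ^ j = φ ^ i * φ ^ (j - i) := by rw [← pow_add]; congr 1; omega
  have hx : act (φ ^ (j - i)) x = x := by
    have := congrFun (congrArg Prod.fst e) x
    simp only [key, ej', map_mul] at this
    have h2 := congrArg (act (φ ^ i)⁻¹) this
    change act (φ ^ i)⁻¹ (act (φ ^ i) x) = act (φ ^ i)⁻¹ (act (φ ^ i) (act (φ ^ (j - i)) x)) at h2
    rw [act_inv_act, act_inv_act] at h2
    exact h2.symm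
  have ha : (f x) ∈ S :=
      Finset.mem_biUnion.mpr ⟨f, hf, Finset.mem_image_of_mem _ (Finset.mem_univ x)⟩
  have := congrArg Subtype.val (congrFun (congrArg Prod.snd e) ⟨_, ha⟩)
  simp only [key, ej', AlgEquiv.mul_apply] at this
  rw [hx]
  exact ((φ ^ i).injective this)

include h in
/-- Functions fixed by inertia are spanned by functions fixed by inertia and Frobenius. -/
theorem mem_span_of_inertia (hsm : IsSmooth act) (hsep : ∀ x y : W, (∀ f ∈ H, f x = f y) → x = y)
    {φ : G_ℚ} (hφ : A.IsFrobeniusAt φ p) (hstab : ∀ f ∈ H, conjFun act φ f ∈ H)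
    {f : W → Ω} (hf : f ∈ H) (hI : ∀ σ ∈ A.inertiaSubgroupIn ℚ, conjFun act σ f = f) :
    f ∈ span A ((invariants act h H : Subalgebra _ _) : Set (W → Ω)) := by
  classical
  obtain ⟨n, hn, hper⟩ := exists_period (act := act) φ {f}
  have hp := h.prime
  set m := p ^ n - 1 with hm
  have hpn : 1 < p ^ n := Nat.one_lt_pow hn.ne' hp.one_lt
  have hm0 : m ≠ 0 := by omega
  have hpm : ¬ p ∣ m := fun hd => hp.not_dvd_one <| by
    have := Nat.dvd_sub (dvd_pow_self p hn.ne') hd
    rwa [hm, Nat.sub_sub_self hpn.le] at this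
  have : NeZero (m : Ω) := ⟨Nat.cast_ne_zero.mpr hm0⟩
  obtain ⟨ζ, hζ⟩ := IsAlgClosed.exists_root _
    (Polynomial.degree_cyclotomic_pos m Ω (Nat.pos_of_ne_zero hm0)).ne'
  have hprim : IsPrimitiveRoot ζ m := Polynomial.isRoot_cyclotomic_iff.1 hζ
  have hzA : ζ ∈ A := Frobenius.mem_of_isIntegral A (hprim.isIntegral (Nat.pos_of_ne_zero hm0))
  let z : A := ⟨ζ, hzA⟩
  have hzprim : IsPrimitiveRoot z m :=
    IsPrimitiveRoot.of_map_of_injective (f := A.subtype) hprim A.subtype_injective
  have hθ : IsPrimitiveRoot (residue A z) m := by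
    refine ⟨by rw [← map_pow, hzprim.pow_eq_one, map_one], fun l hl => ?_⟩
    refine hzprim.dvd_of_pow_eq_one l (eq_one_of_residue_eq_one h hpm ?_ (by rwa [map_pow]))
    rw [← pow_mul, mul_comm, pow_mul, hzprim.pow_eq_one, one_pow]
  -- Frobenius raises `ζ` to the power `p`
  have hφz : φ ζ = ζ ^ p := by
    have hz0 : z ^ p ≠ 0 := pow_ne_zero _ fun e => hprim.ne_zero hm0 (congrArg Subtype.val e)
    have hmem : φ ζ ∈ A := mem_of_residue hφ.mem_decompositionSubgroup hzA
    let w : A := ⟨φ ζ, hmem⟩ * (z ^ p) ^ (m - 1)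
    have hzm : (z ^ p) ^ (m - 1) * z ^ p = 1 := by
      rw [← pow_succ, Nat.sub_add_cancel (Nat.pos_of_ne_zero hm0), ← pow_mul, mul_comm, pow_mul,
        hzprim.pow_eq_one, one_pow]
    have hw : w = 1 := by
      refine eq_one_of_residue_eq_one h hpm ?_ ?_
      · have h1 : (⟨φ ζ, hmem⟩ : A) ^ m = 1 := Subtype.ext <| by
          show φ ζ ^ m = 1
          rw [← map_pow, hprim.pow_eq_one, map_one]
        rw [mul_pow, h1, one_mul, ← pow_mul, ← pow_mul, mul_comm _ m, ← mul_assoc, mul_comm _ m,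
          mul_assoc, pow_mul, hzprim.pow_eq_one, one_pow]
      · rw [map_mul, show residue A ⟨φ ζ, hmem⟩ = residue A z ^ p from residue_frobenius hφ z,
          map_pow, map_pow, ← pow_succ', Nat.sub_add_cancel (Nat.pos_of_ne_zero hm0), ← pow_mul,
          mul_comm, pow_mul, hθ.pow_eq_one, one_pow]
    have := congrArg (fun a => a * z ^ p) hw
    simp only [w, mul_assoc, hzm, mul_one, one_mul] at this
    exact congrArg Subtype.val this
  have hφzj : ∀ (j : ℕ) (x : ℕ), (φ ^ j) (ζ ^ x) = ζ ^ (p ^ j * x) := by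
    intro j
    induction j with
    | zero => intro x; simp
    | succ j ih =>
      intro x
      rw [pow_succ', AlgEquiv.mul_apply, ih, map_pow, hφz, ← pow_mul, pow_succ']
      ring_nf
  -- the averages
  let g : Fin n → W → Ω := fun l =>
    ∑ j : Fin n, (φ ^ (j : ℕ)) (ζ ^ (l : ℕ)) • conjFun act (φ ^ (j : ℕ)) f
  have hstabj : ∀ j : ℕ, conjFun act (φ ^ j) f ∈ H := by
    intro j
    induction j with
    | zero =>
      convert hf using 1
      rw [pow_zero, conjFun_eq_iff]
      intro x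
      rw [map_one]
      rfl
    | succ j ih => rw [pow_succ', conjFun_mul]; exact hstab _ ih
  have hgH : ∀ l, g l ∈ H := fun l => H.sum_mem fun j _ =>
    H.smul_mem (hstabj j) (⟨_, by rw [hφzj]; exact pow_mem hzA _⟩ : A)
  have hgI : ∀ l, ∀ σ ∈ A.inertiaSubgroupIn ℚ, conjFun act σ (g l) = g l := fun l σ hσ => by
    rw [conjFun_sum]
    refine Finset.sum_congr rfl fun j _ => ?_
    rw [conjFun_smul]
    congr 1
    · rw [hφzj]
      exact BigImage.inertia_root_of_unity h.prime h.liesOver hσ hpm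
        (by rw [← pow_mul, mul_comm, pow_mul, hprim.pow_eq_one, one_pow])
    · obtain ⟨σ', hσ', e⟩ : ∃ σ' ∈ A.inertiaSubgroupIn ℚ, σ * φ ^ (j : ℕ) = φ ^ (j : ℕ) * σ' := by
        refine ⟨(φ ^ (j : ℕ))⁻¹ * σ * φ ^ (j : ℕ), ?_, by group⟩
        obtain ⟨τ, hτ, rfl⟩ := hσ
        refine ⟨(⟨φ, hφ.mem_decompositionSubgroup⟩ ^ (j : ℕ))⁻¹ * τ *
          ⟨φ, hφ.mem_decompositionSubgroup⟩ ^ (j : ℕ), ?_, by simp⟩
        have hN : (A.inertiaSubgroup ℚ).Normal := MonoidHom.normal_ker _
        simpa using hN.conj_mem τ hτ (⟨φ, hφ.mem_decompositionSubgroup⟩ ^ (j : ℕ))⁻¹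
      rw [← conjFun_mul, e, conjFun_mul, hI σ' hσ']
  have hperζ : ∀ l : ℕ, (φ ^ n) (ζ ^ l) = ζ ^ l := fun l => by
    rw [hφzj, show p ^ n = m + 1 by omega, add_mul, one_mul, pow_add, pow_mul, hprim.pow_eq_one,
      one_pow, one_mul]
  have hgφ : ∀ l, conjFun act φ (g l) = g l := fun l => by
    let G : ℕ → W → Ω := fun j => (φ ^ j) (ζ ^ (l : ℕ)) • conjFun act (φ ^ j) f
    have hG : ∀ j, conjFun act φ (G j) = G (j + 1) := fun j => by
      simp only [G, conjFun_smul, ← conjFun_mul, pow_succ', AlgEquiv.mul_apply]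
    have hsum : g l = ∑ j ∈ Finset.range n, G j := Fin.sum_univ_eq_sum_range G n
    have hGn : G n = G 0 := by
      simp only [G, hperζ, pow_zero, AlgEquiv.one_apply, hper f (Finset.mem_singleton_self f)]
      congr 1
      rw [eq_comm, conjFun_eq_iff]
      intro x
      rw [map_one]
      rfl
    rw [hsum, conjFun_sum]
    simp only [hG]
    have h1 := Finset.sum_range_succ G n
    rw [Finset.sum_range_succ', hGn] at h1
    exact add_right_cancel h1
  -- the averages span
  let V : Matrix (Fin n) (Fin n) A := Matrix.vandermonde fun j => z ^ p ^ (j : ℕ)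
  have hV : ∀ l j, ((V j l : A) : Ω) = (φ ^ (j : ℕ)) (ζ ^ (l : ℕ)) := fun l j => by
    rw [hφzj, pow_mul]
    rfl
  have hdet : IsUnit V.det := by
    refine isUnit_of_map_unit (residue A) _ ?_
    rw [RingHom.map_det, isUnit_iff_ne_zero]
    rw [show (residue A).mapMatrix V = Matrix.vandermonde fun j : Fin n => residue A z ^ p ^ (j : ℕ)
      from Matrix.ext fun i l => by simp [V, Matrix.vandermonde_apply],
      Matrix.det_vandermonde_ne_zero_iff]
    intro i j e
    have hlt : ∀ k : Fin n, p ^ (k : ℕ) < m ∨ n = 1 := fun k => by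
      rcases eq_or_lt_of_le (Nat.one_le_iff_ne_zero.mpr hn.ne') with hn1 | hn1
      · exact Or.inr hn1.symm
      refine Or.inl ?_
      have h1 : p ^ (k : ℕ) ≤ p ^ (n - 1) := Nat.pow_le_pow_right hp.pos (by omega)
      have h2 : p ^ (n - 1) * 2 ≤ p ^ n := by
        conv_rhs => rw [← Nat.sub_add_cancel hn, pow_succ]
        exact Nat.mul_le_mul_left _ hp.two_le
      have h3 : 1 < p ^ (n - 1) := Nat.one_lt_pow (by omega) hp.one_lt
      omega
    rcases hlt i with hi | hi
    · rcases hlt j with hj | hj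
      · exact Fin.ext (Nat.pow_right_injective hp.two_le (hθ.pow_inj hi hj e))
      · exact Fin.ext (by omega)
    · exact Fin.ext (by omega)
  have hspanf : f = ∑ l, V⁻¹ l ⟨0, hn⟩ • g l := by
    funext x
    simp only [Finset.sum_apply, Pi.smul_apply, g, smul_eq_mul,
      show ∀ (a : A) (y : Ω), a • y = (a : Ω) * y from fun _ _ => rfl, ← hV, Finset.mul_sum]
    rw [Finset.sum_comm]
    simp only [← mul_assoc, ← Finset.sum_mul]
    have hone : ∀ j, ∑ l, ((V⁻¹ l ⟨0, hn⟩ : A) : Ω) * ((V j l : A) : Ω) =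
        if j = ⟨0, hn⟩ then 1 else 0 := fun j => by
      have := congrArg Subtype.val (congrFun (congrFun (Matrix.mul_nonsing_inv V hdet) j) ⟨0, hn⟩)
      rw [Matrix.mul_apply, Matrix.one_apply] at this
      push_cast at this
      simp only [mul_comm (((V⁻¹ _ _ : A)) : Ω)]
      rw [this]
      split_ifs <;> rfl
    simp only [hone, ite_mul, one_mul, zero_mul, Finset.sum_ite_eq', Finset.mem_univ, if_true,
      pow_zero]
    rw [show conjFun act 1 f = f by rw [conjFun_eq_iff]; intro y; rw [map_one]; rfl]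
  rw [hspanf]
  exact sum_mem fun l _ => smul_mem _ _ (mem_span_of_fixed h hsm hsep hφ (hgH l) (hgI l) (hgφ l))

include h in
/-- **Descent.** -/
theorem exists_isModel_of_generators (hsm : IsSmooth act) (F : Set (W → Ω)) (hF : F.Finite)
    (hint : ∀ f ∈ F, ∀ x, f x ∈ A)
    (hI : ∀ f ∈ F, ∀ σ ∈ A.inertiaSubgroupIn ℚ, conjFun act σ f = f)
    (hD : ∀ f ∈ F, ∀ σ ∈ A.decompositionSubgroup ℚ, conjFun act σ f ∈ Algebra.adjoin A F)
    (hsep : ∀ x y : W, (∀ f ∈ F, f x = f y) → x = y)
    (hcomul : ∀ f ∈ F, (fun q : W × W => f (q.1 + q.2)) ∈ pairAlg (Algebra.adjoin A F)) :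
    ∃ M, IsModel p act M := by
  classical
  let := Fintype.ofFinite W
  set H := Algebra.adjoin A F with hHdef
  obtain ⟨φ, hφ⟩ := Frobenius.exists_isFrobeniusAt h.prime h.liesOver
  have hsepH : ∀ x y : W, (∀ f ∈ H, f x = f y) → x = y := fun x y e =>
    hsep x y fun f hf => e f (Algebra.subset_adjoin hf)
  have hIH : ∀ f ∈ Submonoid.closure F, ∀ σ ∈ A.inertiaSubgroupIn ℚ, conjFun act σ f = f := by
    intro f hf
    induction hf using Submonoid.closure_induction with
    | mem f hf => exact hI f hf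
    | one => exact fun σ _ => conjFun_one act σ
    | mul f g _ _ hf hg => exact fun σ hσ => by rw [conjFun_hmul, hf σ hσ, hg σ hσ]
  have hstab : ∀ σ ∈ A.decompositionSubgroup ℚ, ∀ f ∈ H, conjFun act σ f ∈ H := by
    intro σ hσ f hf
    induction hf using Algebra.adjoin_induction with
    | mem f hf => exact hD f hf σ hσ
    | algebraMap r =>
      rw [show conjFun act σ (algebraMap A (W → Ω) r) =
        algebraMap A (W → Ω) ⟨σ r, mem_of_residue hσ r.2⟩ from funext fun _ => rfl]
      exact H.algebraMap_mem _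
    | add f g _ _ hf hg => rw [conjFun_add]; exact H.add_mem hf hg
    | mul f g _ _ hf hg => rw [conjFun_hmul]; exact H.mul_mem hf hg
  set M := invariants act h H with hMdef
  have hspan : Subalgebra.toSubmodule H = span A (M : Set (W → Ω)) := by
    refine le_antisymm ?_ (span_le.mpr fun f hf => hf.1)
    rw [hHdef, Algebra.adjoin_eq_span]
    refine span_le.mpr fun f hf => ?_
    exact mem_span_of_inertia h hsm hsepH hφ (hstab φ hφ.mem_decompositionSubgroup)
      (Algebra.adjoin_eq_span A F ▸ subset_span hf : f ∈ Subalgebra.toSubmodule H) (hIH f hf)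
  -- finitely many functions of `M` spanning `H`
  have hfg : (Subalgebra.toSubmodule H).FG := by
    refine fg_adjoin_of_finite hF fun f hf => ?_
    refine ⟨∏ x : W, (Polynomial.X - Polynomial.C (⟨f x, hint f hf x⟩ : A)),
        Polynomial.monic_prod_X_sub_C (fun x : W => (⟨f x, hint f hf x⟩ : A)) Finset.univ, ?_⟩
    funext y
    rw [← Polynomial.aeval_def, map_prod, Finset.prod_apply]
    exact Finset.prod_eq_zero (Finset.mem_univ y)
        (by simp only [map_sub, Polynomial.aeval_X, Polynomial.aeval_C]; exact sub_self _)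
  let Spans : Finset (W → Ω) → Prop := fun t => (↑t ⊆ (M : Set (W → Ω))) ∧
    Subalgebra.toSubmodule H ≤ span A (↑t : Set (W → Ω))
  have hex : ∃ n, ∃ t, Spans t ∧ t.card = n := by
    obtain ⟨s, hs⟩ := hfg
    have hsM : ↑s ⊆ (span A (M : Set (W → Ω)) : Set (W → Ω)) := by
      rw [← hspan, ← hs]
      exact subset_span
    choose T hT hTmem using fun g : (↑s : Set (W → Ω)) =>
      mem_span_finite_of_mem_span (hsM g.2)
    refine ⟨_, Finset.univ.biUnion T, ⟨?_, ?_⟩, rfl⟩
    · intro f hf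
      obtain ⟨g, -, hg⟩ := Finset.mem_biUnion.mp (Finset.mem_coe.mp hf)
      exact hT g hg
    · rw [← hs, span_le]
      intro g hg
      refine span_mono ?_ (hTmem ⟨g, hg⟩)
      exact Finset.coe_subset.mpr (Finset.subset_biUnion_of_mem T (Finset.mem_univ _))
  obtain ⟨t, ⟨htM, htspan⟩, hcard⟩ := Nat.find_spec hex
  have hli : LinearIndependent Ω (fun g : t => (g : W → Ω)) := by
    rw [Fintype.linearIndependent_iff]
    by_contra! hdep
    obtain ⟨c, hc, ⟨j₀, hj₀⟩⟩ := hdep
    obtain ⟨i₀, -, hmax⟩ := Finset.univ.exists_max_image (fun g => A.valuation (c g))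
      ⟨j₀, Finset.mem_univ j₀⟩
    have hi₀ : c i₀ ≠ 0 := fun e => by
      have := hmax j₀ (Finset.mem_univ j₀)
      rw [e, map_zero, le_zero_iff, map_eq_zero] at this
      exact hj₀ this
    have hmem : ∀ g, c g / c i₀ ∈ A := fun g => by
      rw [← A.valuation_le_one_iff, map_div₀, div_le_one₀ (zero_lt_iff.mpr
        ((A.valuation.ne_zero_iff).mpr hi₀))]
      exact hmax g (Finset.mem_univ g)
    have hrel : (i₀ : W → Ω) ∈ span A (↑(t.erase i₀.1) : Set (W → Ω)) := by
      have e : (i₀ : W → Ω) = -∑ g ∈ Finset.univ.erase i₀, (⟨_, hmem g⟩ : A) • (g : W → Ω) := by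
        rw [eq_neg_iff_add_eq_zero]
        have h2 := congrArg ((c i₀)⁻¹ • ·) hc
        simp only [Finset.smul_sum, smul_smul, smul_zero] at h2
        rw [← Finset.add_sum_erase _ _ (Finset.mem_univ i₀), inv_mul_cancel₀ hi₀, one_smul] at h2
        rw [← h2]
        congr 1
        refine Finset.sum_congr rfl fun g _ => ?_
        show (c g / c i₀) • (g : W → Ω) = _
        rw [div_eq_inv_mul]
      rw [e]
      refine neg_mem (sum_mem fun g hg => smul_mem _ _ (subset_span ?_))
      exact Finset.mem_coe.mpr (Finset.mem_erase.mpr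
        ⟨fun e' => Finset.ne_of_mem_erase hg (Subtype.ext (e'.trans e.symm)), g.2⟩)
    have hsub : Spans (t.erase i₀.1) := by
      refine ⟨fun g hg => htM (Finset.mem_of_mem_erase hg),
          htspan.trans (span_le.mpr fun g hg => ?_)⟩
      by_cases hgi : g = i₀.1
      · rw [hgi]; exact hrel
      · exact subset_span (Finset.mem_coe.mpr (Finset.mem_erase.mpr ⟨hgi, hg⟩))
    exact absurd (Nat.find_min' hex ⟨_, hsub, rfl⟩)
      (not_le.mpr (hcard ▸ Finset.card_erase_lt_of_mem i₀.2))
  have hcoord : ∀ f ∈ H, ∃ c : t → A, f = ∑ g : t, (c g : Ω) • (g : W → Ω) := fun f hf => by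
    have := htspan hf
    rw [show (↑t : Set (W → Ω)) = Set.range (fun g : t => (g : W → Ω)) by simp,
      mem_span_range_iff_exists_fun] at this
    obtain ⟨c, rfl⟩ := this
    exact ⟨c, rfl⟩
  have huniq : ∀ c c' : t → Ω, ∑ g : t, c g • (g : W → Ω) = ∑ g : t, c' g • (g : W → Ω) → c = c' :=
    fun c c' e => funext fun g => sub_eq_zero.mp <| Fintype.linearIndependent_iff.mp hli
      (fun g => c g - c' g) (by simp only [sub_smul, Finset.sum_sub_distrib, e, sub_self]) g
  have hrat : ∀ a : Ω, a ∈ A → (∀ σ : G_ℚ, σ a = a) →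
      ∃ r : GaloisRep.ratLocalizedAt p, algebraMap _ Ω r = a := fun a ha hfix => by
    obtain ⟨q, rfl⟩ := (InfiniteGalois.mem_range_algebraMap_iff_fixed a).mpr hfix
    exact ⟨⟨q, mem_ratLocalizedAt h ha⟩, rfl⟩
  have hequiv : ∀ f ∈ M, ∀ (σ : G_ℚ) x, f (act σ x) = σ (f x) := fun f hf σ =>
    (conjFun_eq_iff act σ f).mp (hf.2 σ)
  refine ⟨M, ⟨t, le_antisymm (span_le.mpr htM) fun f hf => ?_⟩, hequiv, fun x y e => ?_, fun f hf =>
      ?_⟩
  · obtain ⟨c, hc⟩ := hcoord f hf.1
    have hfixc : ∀ (σ : G_ℚ) (g : t), σ (c g : Ω) = c g := fun σ g => by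
      refine congrFun (huniq (fun g => σ (c g : Ω)) (fun g => (c g : Ω)) ?_) g
      rw [← hc]
      conv_rhs => rw [← hf.2 σ, hc]
      rw [conjFun_sum]
      exact Finset.sum_congr rfl fun g _ => by rw [conjFun_smul, (htM g.2).2 σ]
    choose r hr using fun g => hrat _ (c g).2 fun σ => hfixc σ g
    rw [hc]
    refine sum_mem fun g _ => ?_
    rw [← hr g]
    rw [algebraMap_smul]
    exact smul_mem (span (GaloisRep.ratLocalizedAt p) (↑t : Set (W → Ω))) (r g) (subset_span g.2)
  · refine hsepH x y fun f hf => ?_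
    obtain ⟨c, rfl⟩ := hcoord f hf
    simp only [Finset.sum_apply, Pi.smul_apply]
    exact Finset.sum_congr rfl fun g _ => by rw [e _ (htM g.2)]
  · have hadd : (fun q : W × W => f (q.1 + q.2)) ∈ pairAlg H := by
      have : ∀ k ∈ H, (fun q : W × W => k (q.1 + q.2)) ∈ pairAlg H := by
        intro k hk
        induction hk using Algebra.adjoin_induction with
        | mem k hk => exact hcomul k hk
        | algebraMap r => exact (pairAlg H).algebraMap_mem r
        | add k l _ _ hk hl => exact (pairAlg H).add_mem hk hl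
        | mul k l _ _ hk hl => exact (pairAlg H).mul_mem hk hl
      exact this f hf.1
    obtain ⟨n, a, b, ha, hb, e⟩ := exists_sum_of_mem_pairAlg hadd
    choose ca hca using fun i => hcoord _ (ha i)
    choose cb hcb using fun i => hcoord _ (hb i)
    let lam : t → t → A := fun g g' => ∑ i, ca i g * cb i g'
    have hexp : ∀ x y, f (x + y) = ∑ g : t, ∑ g' : t, (lam g g' : Ω) * (g.1 x * g'.1 y) := by
      intro x y
      refine Eq.trans (e x y) ?_
      simp only [lam, AddSubmonoidClass.coe_finsetSum, MulMemClass.coe_mul, Finset.sum_mul]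
      conv_rhs => arg 2; ext g; rw [Finset.sum_comm]
      rw [Finset.sum_comm]
      refine Finset.sum_congr rfl fun i _ => ?_
      rw [hca i, hcb i]
      simp only [Finset.sum_apply, Pi.smul_apply, smul_eq_mul, Finset.sum_mul_sum]
      exact Finset.sum_congr rfl fun g _ => Finset.sum_congr rfl fun g' _ => by ring
    have hlam : ∀ σ : G_ℚ, ∀ g g', σ (lam g g' : Ω) = lam g g' := by
      intro σ g g'
      have hy : ∀ x, (fun g' : t => ∑ g : t, σ (lam g g' : Ω) * g.1 x) =
          fun g' : t => ∑ g : t, (lam g g' : Ω) * g.1 x := fun x => huniq _ _ <| by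
        funext y
        simp only [Finset.sum_apply, Pi.smul_apply, smul_eq_mul, Finset.sum_mul]
        rw [Finset.sum_comm]
        conv_rhs => rw [Finset.sum_comm]
        simp only [mul_assoc]
        rw [← hexp x y]
        have : f (x + y) = σ (f (act σ⁻¹ x + act σ⁻¹ y)) := by
          rw [← map_add]
          exact (congrFun (hf.2 σ) (x + y)).symm
        rw [this, hexp, map_sum]
        refine Finset.sum_congr rfl fun a _ => ?_
        rw [map_sum]
        refine Finset.sum_congr rfl fun c _ => ?_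
        rw [map_mul, map_mul, ← congrFun ((htM a.2).2 σ) x, ← congrFun ((htM c.2).2 σ) y]
        rfl
      refine congrFun (huniq (fun g => σ (lam g g' : Ω)) (fun g => (lam g g' : Ω)) ?_) g
      funext x
      simpa [Finset.sum_apply] using congrFun (hy x) g'
    choose r hr using fun g g' => hrat _ (lam g g').2 fun σ => hlam σ g g'
    refine ⟨_, fun i => (t.equivFin.symm i).1,
      fun i => ∑ g' : t, algebraMap (GaloisRep.ratLocalizedAt p) Ω
          (r (t.equivFin.symm i) g') • g'.1,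
      fun i => htM (t.equivFin.symm i).2,
      fun i => M.sum_mem fun g' _ =>
          (algebraMap_smul Ω (r (t.equivFin.symm i) g') g'.1).symm ▸ M.smul_mem (htM g'.2)
          (r (t.equivFin.symm i) g'), fun x y => ?_⟩
    rw [hexp, ← t.equivFin.symm.sum_comp]
    refine Finset.sum_congr rfl fun i _ => ?_
    simp only [Finset.sum_apply, Pi.smul_apply, smul_eq_mul, hr, Finset.mul_sum]
    exact Finset.sum_congr rfl fun g' _ => by ring

include h in
/-- **Descent**, stability under Frobenius being obtained by adding the conjugates. -/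
theorem exists_isModel_of_inertia (hsm : IsSmooth act) (F : Set (W → Ω)) (hF : F.Finite)
    (hint : ∀ f ∈ F, ∀ x, f x ∈ A)
    (hI : ∀ f ∈ F, ∀ σ ∈ A.inertiaSubgroupIn ℚ, conjFun act σ f = f)
    (hsep : ∀ x y : W, (∀ f ∈ F, f x = f y) → x = y)
    (hcomul : ∀ f ∈ F, (fun q : W × W => f (q.1 + q.2)) ∈ pairAlg (Algebra.adjoin A F)) :
    ∃ M, IsModel p act M := by
  classical
  -- the conjugates form a finite set
  set F' : Set (W → Ω) :=
      {f | ∃ σ ∈ A.decompositionSubgroup ℚ, ∃ f₀ ∈ F, f = conjFun act σ f₀} with hF'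
  have hconj1 : ∀ f, conjFun act 1 f = f := fun f => by
    rw [conjFun_eq_iff]; intro x; rw [map_one]; rfl
  have hFF' : F ⊆ F' := fun f hf => ⟨1, one_mem _, f, hf, (hconj1 f).symm⟩
  have hF'fin : F'.Finite := by
    let := Fintype.ofFinite W
    let V : Set Ω := ⋃ f ∈ F, ⋃ x : W, (minpoly ℚ (f x)).rootSet Ω
    have hV : V.Finite := hF.biUnion fun f _ =>
      Set.finite_iUnion fun x => (minpoly ℚ (f x)).rootSet_finite Ω
    refine (Set.Finite.pi' fun _ : W => hV).subset ?_
    rintro _ ⟨σ, -, f₀, hf₀, rfl⟩ x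
    refine Set.mem_iUnion₂.mpr ⟨f₀, hf₀, Set.mem_iUnion.mpr ⟨act σ⁻¹ x, ?_⟩⟩
    rw [Polynomial.mem_rootSet]
    refine ⟨minpoly.ne_zero (Algebra.IsIntegral.isIntegral _), ?_⟩
    show Polynomial.aeval (σ (f₀ (act σ⁻¹ x))) _ = 0
    rw [Polynomial.aeval_algHom_apply, minpoly.aeval, map_zero]
  have hadj : ∀ σ ∈ A.decompositionSubgroup ℚ,
      ∀ f ∈ Algebra.adjoin A F, conjFun act σ f ∈ Algebra.adjoin A F' := by
    intro σ hσ f hf
    induction hf using Algebra.adjoin_induction with
    | mem f hf => exact Algebra.subset_adjoin ⟨σ, hσ, f, hf, rfl⟩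
    | algebraMap r =>
      rw [show conjFun act σ (algebraMap A (W → Ω) r) =
        algebraMap A (W → Ω) ⟨σ r, mem_of_residue hσ r.2⟩ from funext fun _ => rfl]
      exact Subalgebra.algebraMap_mem _ _
    | add f g _ _ hf hg => rw [conjFun_add]; exact add_mem hf hg
    | mul f g _ _ hf hg => rw [conjFun_hmul]; exact mul_mem hf hg
  refine exists_isModel_of_generators h hsm F' hF'fin ?_ ?_ ?_ ?_ ?_
  · rintro _ ⟨σ, hσ, f₀, hf₀, rfl⟩ x
    exact mem_of_residue hσ (hint f₀ hf₀ _)
  · rintro _ ⟨σ, hσ, f₀, hf₀, rfl⟩ τ hτ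
    obtain ⟨τ', hτ', e⟩ : ∃ τ' ∈ A.inertiaSubgroupIn ℚ, τ * σ = σ * τ' := by
      refine ⟨σ⁻¹ * τ * σ, ?_, by group⟩
      obtain ⟨t, ht, rfl⟩ := hτ
      refine ⟨(⟨σ, hσ⟩ : A.decompositionSubgroup ℚ)⁻¹ * t * ⟨σ, hσ⟩, ?_, by simp⟩
      have hN : (A.inertiaSubgroup ℚ).Normal := MonoidHom.normal_ker _
      simpa using hN.conj_mem t ht (⟨σ, hσ⟩ : A.decompositionSubgroup ℚ)⁻¹
    rw [← conjFun_mul, e, conjFun_mul, hI f₀ hf₀ τ' hτ']
  · rintro _ ⟨σ, hσ, f₀, hf₀, rfl⟩ τ hτ
    rw [← conjFun_mul]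
    exact Algebra.subset_adjoin ⟨τ * σ, mul_mem hτ hσ, f₀, hf₀, rfl⟩
  · exact fun x y e => hsep x y fun f hf => e f (hFF' hf)
  · rintro _ ⟨σ, hσ, f₀, hf₀, rfl⟩
    -- conjugate the comultiplication
    let C : (W × W → Ω) → W × W → Ω := fun G q => σ (G (act σ⁻¹ q.1, act σ⁻¹ q.2))
    have hC : ∀ G ∈ pairAlg (Algebra.adjoin A F), C G ∈ pairAlg (Algebra.adjoin A F') := by
      intro G hG
      induction hG using Algebra.adjoin_induction with
      | mem G hG =>
        rcases hG with ⟨a, ha, rfl⟩ | ⟨b, hb, rfl⟩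
        · exact Algebra.subset_adjoin (Or.inl ⟨_, hadj σ hσ a ha, rfl⟩)
        · exact Algebra.subset_adjoin (Or.inr ⟨_, hadj σ hσ b hb, rfl⟩)
      | algebraMap r =>
        rw [show C (algebraMap A (W × W → Ω) r) =
          algebraMap A (W × W → Ω) ⟨σ r, mem_of_residue hσ r.2⟩ from funext fun _ => rfl]
        exact Subalgebra.algebraMap_mem _ _
      | add G G' _ _ hG hG' =>
        rw [show C (G + G') = C G + C G' from funext fun _ => map_add σ _ _]
        exact add_mem hG hG'
      | mul G G' _ _ hG hG' =>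
        rw [show C (G * G') = C G * C G' from funext fun _ => map_mul σ _ _]
        exact mul_mem hG hG'
    convert hC _ (hcomul f₀ hf₀) using 1
    funext q
    show σ (f₀ (act σ⁻¹ (q.1 + q.2))) = σ (f₀ (act σ⁻¹ q.1 + act σ⁻¹ q.2))
    rw [map_add]

end Main

end Fermat.Agent.S19Model
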