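import Fermat.Agent.S19Model.Defs
import Fermat.Agent.S19Model.Residual
import Fermat.Agent.S19Model.Descent
import Fermat.Agent.FlatJ0.Classes

/-!
# Charts of the residual classes

A finite module of divisor classes is covered by the charts of its residual classes, compatibly
with the inertia group.
-/

set_option autoImplicit false

noncomputable section

namespace Fermat.Agent.S19Model

open AlgebraicCurve IsLocalRing Fermat.Agent.FlatJ0 Fermat.Agent.Reduction
  Fermat.Agent.FunctionFieldRR
open scoped Fermat.Agent.Reduction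

local notation "Ω" => AlgebraicClosure ℚ
local notation "G_ℚ" => (AlgebraicClosure ℚ) ≃ₐ[ℚ] (AlgebraicClosure ℚ)

variable {A : ValuationSubring Ω} {F : IntermediateField Ω (LaurentSeries Ω)}
  {Fk : IntermediateField (IsLocalRing.ResidueField A) (LaurentSeries (IsLocalRing.ResidueField A))}
  {M : GoodModel A F Fk}
  [IsAlgClosed (IsLocalRing.ResidueField A)] [IsFunctionField Ω F]
  [IsFunctionField (IsLocalRing.ResidueField A) Fk]
  [HasPrincipalDivisors Ω F] [HasPrincipalDivisors (IsLocalRing.ResidueField A) Fk]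

section Class

variable (R : M.ReductionMap)

/-- The class of the reduction of a representative. -/
theorem exists_redClass :
    ∃ φ : Pic0 Ω F →+ Pic0 (IsLocalRing.ResidueField A) Fk,
      ∀ (D : Divisor Ω F) (x : Pic0 Ω F), IsRep D x →
          IsRep (Finsupp.mapDomain R.toFun D) (φ x) := by
  have hdeg : ∀ x : Pic0 Ω F, ∀ D : Divisor Ω F, IsRep D x →
      Divisor.degree (Finsupp.mapDomain R.toFun D) = 0 := fun x D hD => by
    rw [GoodModel.ReductionMap.degree_map, hD.degree_eq]
  choose D hD using fun x : Pic0 Ω F => exists_isRep x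
  let f : Pic0 Ω F → Pic0 (IsLocalRing.ResidueField A) Fk := fun x =>
    Pic0.mk ⟨_, Divisor.mem_degZero.mpr (hdeg x (D x) (hD x))⟩
  have hf : ∀ (E : Divisor Ω F) (x : Pic0 Ω F), IsRep E x →
      IsRep (Finsupp.mapDomain R.toFun E) (f x) := fun E x hE => by
    have h0 : IsRep (Finsupp.mapDomain R.toFun (D x)) (f x) := ⟨_, rfl⟩
    refine h0.congr (hdeg x E hE) ?_
    rw [← Finsupp.mapDomain_sub]
    exact isPrincipal_mapDomain ((hE.eq_iff (hD x)).mp rfl)
  refine ⟨AddMonoidHom.mk' f fun x y => ?_, hf⟩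
  have h1 := hf _ _ ((hD x).add (hD y))
  rw [Finsupp.mapDomain_add] at h1
  exact (h1.eq_iff ((hf _ _ (hD x)).add (hf _ _ (hD y)))).mpr (by
    rw [sub_self]; exact (Divisor.principal (K := _) (F := _)).zero_mem)

end Class

/-- Charts of the residual classes of `W`: one fixed effective divisor `Y e` of degree `g` per
class, and for every point `x` the effective divisor `X x` with `X x - Y` in the class of `x`. -/
structure ChartFamily (R : M.ReductionMap) (gal : G_ℚ →* SemilinearAut Ω F) (g : ℕ) {W : Type}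
    [AddCommGroup W] (jmath : W →+ Pic0 Ω F) where
  /-- the residual classes -/
  ι : Type
  finite_ι : Finite ι
  /-- the residual class of a point -/
  cls : W → ι
  cls_surj : Function.Surjective cls
  cls_add : ∀ x x' y y' : W, cls x = cls x' → cls y = cls y' → cls (x + y) = cls (x' + y')
  /-- the centres -/
  Y : ι → Divisor Ω F
  Y_nonneg : ∀ e, 0 ≤ Y e
  Y_degree : ∀ e, Divisor.degree (Y e) = g
  Y_fixed : ∀ e, ∀ σ ∈ A.inertiaSubgroupIn ℚ, gal σ • Y e = Y e
  /-- the effective representatives -/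
  X : W → Divisor Ω F
  /-- their reductions -/
  Xbar : ι → Divisor (IsLocalRing.ResidueField A) Fk
  isOver : ∀ x, IsOverDiv R (Xbar (cls x)) (X x)
  X_degree : ∀ x, Divisor.degree (X x) = g
  Xbar_nonneg : ∀ e, 0 ≤ Xbar e
  Xbar_degree : ∀ e, Divisor.degree (Xbar e) = g
  Xbar_finrank : ∀ e,
    Module.finrank (IsLocalRing.ResidueField A) (riemannRochSpace (Xbar e)) ≤ 1
  isRep : ∀ x, IsRep (X x - Y (cls x)) (jmath x)
  unique : ∀ x X', 0 ≤ X' → IsRep (X' - Y (cls x)) (jmath x) → X' = X x
  cls_of : ∀ x x', Divisor.IsPrincipal (Finsupp.mapDomain R.toFun (X x - Y (cls x)) -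
    Finsupp.mapDomain R.toFun (X x' - Y (cls x'))) → cls x = cls x'

variable {R : M.ReductionMap} {gal : G_ℚ →* SemilinearAut Ω F} {p g : ℕ} {c : ℤ}
  (H : GoodModel.RRData (A := A) (F := F) (Fk := Fk) (g : ℤ) c)
  {W : Type} [AddCommGroup W] {jmath : W →+ Pic0 Ω F}

include H in
/-- **Charts exist.** -/
theorem exists_chartFamily (h : IsOver A p) (hgal : IsCoeffAction gal)
    (hd : FixedPlacesDense gal R) [Finite W] (jmath : W →+ Pic0 Ω F) :
    Nonempty (ChartFamily R gal g jmath) := by
  classical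
  obtain ⟨φ, hφ⟩ := exists_redClass R
  set K : AddSubgroup W := (φ.comp jmath).ker
  have hY : ∀ e : W ⧸ K, ∃ (D : Divisor Ω F) (Y : Fin g → Place Ω F), IsRep D (jmath e.out) ∧
      (∀ i, ∀ σ ∈ A.inertiaSubgroupIn ℚ, gal σ • Y i = Y i) ∧
      Module.finrank (IsLocalRing.ResidueField A) (riemannRochSpace
        (Finsupp.mapDomain R.toFun D + Finsupp.mapDomain R.toFun (tupleDiv Y))) = 1 := fun e => by
    obtain ⟨D, hD⟩ := exists_isRep (jmath e.out)
    obtain ⟨Y, -, hYfix, hY1⟩ := exists_chartData H h hgal hd rfl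
      (C := Finsupp.mapDomain R.toFun D)
      (by rw [GoodModel.ReductionMap.degree_map, hD.degree_eq])
    exact ⟨D, Y, hD, hYfix, by rw [mapDomain_tupleDiv]; exact hY1⟩
  choose D₀ Y hD₀ hYfix hY1 using hY
  let cl : W → W ⧸ K := fun x => x
  choose D hD using fun x : W => exists_isRep (jmath x)
  -- the reductions of the representatives in a class differ by principal divisors
  have hDD : ∀ x, Divisor.IsPrincipal
      (Finsupp.mapDomain R.toFun (D x) - Finsupp.mapDomain R.toFun (D₀ (cl x))) := fun x => by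
    refine ((hφ _ _ (hD x)).eq_iff (hφ _ _ (hD₀ (cl x)))).mp ?_
    have h1 : -(cl x).out + x ∈ K :=
      QuotientAddGroup.eq.mp (QuotientAddGroup.out_eq' (cl x))
    rw [AddMonoidHom.mem_ker, map_add, map_neg, neg_add_eq_zero] at h1
    exact h1.symm
  have hns : ∀ x, Module.finrank (IsLocalRing.ResidueField A) (riemannRochSpace
      (Finsupp.mapDomain R.toFun (D x) + Finsupp.mapDomain R.toFun (tupleDiv (Y (cl x))))) ≤ 1 := by
    intro x
    obtain ⟨f, hf, hfd⟩ := hDD x
    have e : Finsupp.mapDomain R.toFun (D x) + Finsupp.mapDomain R.toFun (tupleDiv (Y (cl x))) -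
        dvs (K := IsLocalRing.ResidueField A) f =
        Finsupp.mapDomain R.toFun (D₀ (cl x)) + Finsupp.mapDomain R.toFun
            (tupleDiv (Y (cl x))) := by
      rw [← eq_dvs hfd]; abel
    rw [← finrank_rr_sub_dvs hf, e]
    exact (hY1 _).le
  choose X hX0 hXdeg hXprin hXuniq _ using fun x =>
    exists_rep R H (hD x).degree_eq (degree_tupleDiv (Y (cl x))) (hns x)
  have hrep : ∀ x, IsRep (X x - tupleDiv (Y (cl x))) (jmath x) := fun x =>
    (hD x).congr (by rw [map_sub, hXdeg, degree_tupleDiv, sub_self]) (hXprin x)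
  -- the residual effective member
  have hmap : ∀ x, Finsupp.mapDomain R.toFun (X x) =
      Finsupp.mapDomain R.toFun (X (cl x).out) := by
    intro x
    have hcl : cl (cl x).out = cl x := QuotientAddGroup.out_eq' (cl x)
    have hnn : ∀ y, 0 ≤ Finsupp.mapDomain R.toFun (X y) := fun y => by
      simpa using mapDomain_mono R.toFun (hX0 y)
    have hp : ∀ y, Divisor.IsPrincipal (Finsupp.mapDomain R.toFun (X y) -
        Finsupp.mapDomain R.toFun (tupleDiv (Y (cl y))) -
        Finsupp.mapDomain R.toFun (D₀ (cl y))) := fun y => by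
      have h1 := isPrincipal_mapDomain (R := R) (hXprin y)
      rw [Finsupp.mapDomain_sub, Finsupp.mapDomain_sub] at h1
      have h2 := (Divisor.principal (K := _) (F := _)).add_mem h1 (hDD y)
      rwa [sub_add_sub_cancel] at h2
    refine eq_of_isPrincipal_sub (hnn _) (hnn _) ?_ ?_
    · obtain ⟨f, hf, hfd⟩ := hp (cl x).out
      rw [← finrank_rr_sub_dvs hf, ← eq_dvs hfd, sub_sub, sub_sub_cancel, add_comm]
      exact (hY1 _).le
    · have h1 := (Divisor.principal (K := _) (F := _)).sub_mem (hp x) (hp (cl x).out)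
      rwa [hcl, sub_sub_sub_cancel_right, sub_sub_sub_cancel_right] at h1
  refine ⟨{
    ι := W ⧸ K
    finite_ι := inferInstance
    cls := cl
    cls_surj := QuotientAddGroup.mk_surjective
    cls_add := fun x x' y y' hx hy => ?_
    Y := fun e => tupleDiv (Y e)
    Y_nonneg := fun e => tupleDiv_nonneg _
    Y_degree := fun e => degree_tupleDiv _
    Y_fixed := fun e σ hσ => ?_
    X := X
    Xbar := fun e => Finsupp.mapDomain R.toFun (X e.out)
    isOver := fun x => ⟨hX0 x, hmap x⟩
    X_degree := hXdeg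
    Xbar_nonneg := fun e => by simpa using mapDomain_mono R.toFun (hX0 e.out)
    Xbar_degree := fun e => by rw [GoodModel.ReductionMap.degree_map, hXdeg]
    Xbar_finrank := fun e => ?_
    isRep := hrep
    unique := fun x X' hX' hr => hXuniq x X' hX' ((hr.eq_iff (hD x)).mp rfl)
    cls_of := fun x x' hp => ?_ }⟩
  · show ((x + y : W) : W ⧸ K) = ((x' + y' : W) : W ⧸ K)
    rw [QuotientAddGroup.mk_add, QuotientAddGroup.mk_add]
    exact congrArg₂ (· + ·) hx hy
  · rw [smul_tupleDiv]
    exact congrArg tupleDiv (funext fun i => hYfix e i σ hσ)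
  · obtain ⟨x, rfl⟩ := QuotientAddGroup.mk_surjective e
    have hp := isPrincipal_mapDomain (R := R) (hXprin (cl x).out)
    obtain ⟨f, hf, hfd⟩ := hp
    rw [Finsupp.mapDomain_sub, Finsupp.mapDomain_sub] at hfd
    rw [← finrank_rr_sub_dvs hf, ← eq_dvs hfd, sub_sub, sub_sub_cancel, add_comm]
    exact hns (cl x).out
  · refine QuotientAddGroup.eq.mpr ?_
    rw [AddMonoidHom.mem_ker, map_add, map_neg, neg_add_eq_zero]
    exact ((hφ _ _ (hrep x)).eq_iff (hφ _ _ (hrep x'))).mpr hp

namespace ChartFamily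

variable (C : ChartFamily R gal g jmath)

include H in
/-- Inertia preserves the classes and moves the representatives. -/
theorem equivariant (hgal : IsCoeffAction gal)
    (act : G_ℚ →* AddMonoid.End W) (hact : ∀ σ x, jmath (act σ x) = gal σ • jmath x)
    {σ : G_ℚ} (hσ : σ ∈ A.inertiaSubgroupIn ℚ) (x : W) :
    C.cls (act σ x) = C.cls x ∧ C.X (act σ x) = gal σ • C.X x := by
  have hmap : ∀ D : Divisor Ω F,
      Finsupp.mapDomain R.toFun (gal σ • D) = Finsupp.mapDomain R.toFun D := fun D => by
    rw [SemilinearAut.divisor_smul_def, ← Finsupp.mapDomain_comp]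
    congr 1
    exact funext fun P => toFun_smul_gal R H hgal hσ P
  have h1 := (C.isRep x).smul (gal σ)
  rw [← hact, smul_sub, C.Y_fixed _ σ hσ] at h1
  have hcl : C.cls (act σ x) = C.cls x := by
    refine C.cls_of _ _ ?_
    have h2 := isPrincipal_mapDomain (R := R) (((C.isRep (act σ x)).eq_iff h1).mp rfl)
    rw [Finsupp.mapDomain_sub, Finsupp.mapDomain_sub (v₁ := gal σ • C.X x), hmap,
      ← Finsupp.mapDomain_sub (v₁ := C.X x)] at h2
    exact h2
  refine ⟨hcl, (C.unique _ _ ?_ ?_).symm⟩
  · refine Finsupp.le_def.mpr fun v => ?_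
    obtain ⟨w, rfl⟩ := MulAction.surjective (gal σ) v
    rw [SemilinearAut.divisor_smul_apply_smul]
    exact Finsupp.le_def.mp (C.isOver x).1 w
  · rw [hcl]; exact h1

end ChartFamily

end Fermat.Agent.S19Model

end
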