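import Fermat.Agent.S19Model.Add
import Fermat.Agent.S19Model.ClassFunctions

/-!
# Comultiplication of the coordinate functions

The coordinates of the chart of `x + y` are sums of products of coordinates of `x` and of `y`.
-/

set_option autoImplicit false

noncomputable section

namespace Fermat.Agent.S19Model

open AlgebraicCurve IsLocalRing Fermat.Agent.FlatJ0 Fermat.Agent.Reduction
  Fermat.Agent.FunctionFieldRR
open scoped Fermat.Agent.Reduction

local notation "Ω" => AlgebraicClosure ℚ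
local notation "G_ℚ" => (AlgebraicClosure ℚ) ≃ₐ[ℚ] (AlgebraicClosure ℚ)

variable {A : ValuationSubring Ω} {F : IntermediateField Ω (LaurentSeries Ω)}
  {Fk : IntermediateField (IsLocalRing.ResidueField A) (LaurentSeries (IsLocalRing.ResidueField A))}
  {M : GoodModel A F Fk}
  [IsAlgClosed (IsLocalRing.ResidueField A)] [IsFunctionField Ω F]
  [IsFunctionField (IsLocalRing.ResidueField A) Fk]
  [HasPrincipalDivisors Ω F] [HasPrincipalDivisors (IsLocalRing.ResidueField A) Fk]
  {R : M.ReductionMap} {gal : G_ℚ →* SemilinearAut Ω F} {g : ℕ} {c : ℤ}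
  (H : GoodModel.RRData (A := A) (F := F) (Fk := Fk) (g : ℤ) c)

local notation "rDiv" => Finsupp.mapDomain R.toFun

include H in
/-- Lattices with fixed bases exist over fixed effective divisors of large degree. -/
theorem exists_lat_of_fixed (hgal : IsCoeffAction gal) (hd : FixedPlacesDense gal R)
    {D : Divisor Ω F} (hD0 : 0 ≤ D) (hfix : ∀ σ ∈ A.inertiaSubgroupIn ℚ, gal σ • D = D)
    (hdeg : c ≤ Divisor.degree D) :
    ∃ L : Lat R, L.D = D ∧ ∀ σ ∈ A.inertiaSubgroupIn ℚ, ∀ j, gal σ • L.v j = L.v j := by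
  obtain ⟨v, hv, hexp⟩ := exists_fixed_basis R H hgal hd hD0 hfix
  have hb : IsIntBasis M D v := ⟨rfl, fun j => (hv j).1, fun j => (hv j).2.1, fun f hf => by
    obtain ⟨a, ha, hai, -⟩ := hexp f hf
    exact ⟨a, ha, hai⟩⟩
  obtain ⟨⟨D', n', v', hb', hli, hsp⟩, hL, hv'⟩ := exists_lat (R := R) H hb hdeg
  simp only at hL hv'
  subst hL
  obtain rfl : n' = Module.finrank Ω (riemannRochSpace D') := hb'.card
  obtain rfl : v' = v := eq_of_heq hv'
  exact ⟨⟨D', _, v', hb', hli, hsp⟩, rfl, fun σ hσ j => (hv j).2.2 σ hσ⟩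

variable {W : Type} [AddCommGroup W] {jmath : W →+ Pic0 Ω F} {p : ℕ}

namespace ChartFamily

variable (C : ChartFamily R gal g jmath) {L : Lat R} (Cd : ∀ e, Coords R L.D L.v (C.Xbar e))

omit [IsAlgClosed (ResidueField ↥A)] [IsFunctionField Ω ↥F]
    [IsFunctionField (ResidueField ↥A) ↥Fk] in
theorem valued_adjoin_gens : Valued (Algebra.adjoin A (C.gens Cd)) := by
  intro f hf
  induction hf using Algebra.adjoin_induction with
  | mem f hf => exact C.gens_int Cd f hf
  | algebraMap r => exact fun _ => r.2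
  | add f g _ _ hf hg => exact fun x => add_mem (hf x) (hg x)
  | mul f g _ _ hf hg => exact fun x => mul_mem (hf x) (hg x)

include H in
/-- The echelon coordinates of a chart form a basis reducing to a basis. -/
theorem coords_facts (hdeg : c + g ≤ Divisor.degree L.D) {x : W} {e : C.ι}
    (hx : C.cls x = e) :
    Submodule.span Ω (Set.range fun s => (Cd e).coord (C.X x) s) = coordSpace L.v (L.D - C.X x) ∧
      LinearIndependent (ResidueField A)
        (fun s i => red A ((Cd e).coord (C.X x) s i)) ∧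
      Submodule.span (ResidueField A)
        (Set.range fun s i => red A ((Cd e).coord (C.X x) s i)) =
          resCoordSpace M L.v (rDiv L.D - C.Xbar e) := by
  classical
  have hov := C.isOverDiv hx
  have hmem : ∀ s, (Cd e).coord (C.X x) s ∈ coordSpace L.v (L.D - C.X x) := fun s =>
    mem_coordSpace.mpr ((Cd e).mem _ hov s)
  have hspan : Submodule.span Ω (Set.range fun s => (Cd e).coord (C.X x) s) =
      coordSpace L.v (L.D - C.X x) := by
    refine le_antisymm (Submodule.span_le.mpr (by rintro _ ⟨s, rfl⟩; exact hmem s)) fun a ha => ?_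
    rw [Submodule.mem_span_range_iff_exists_fun]
    refine ⟨fun s => a ((Cd e).piv s), funext fun j => ?_⟩
    rw [(Cd e).expand _ hov a (mem_coordSpace.mp ha) j, Finset.sum_apply]
    rfl
  have hind : LinearIndependent (ResidueField A)
      (fun s i => red A ((Cd e).coord (C.X x) s i)) :=
    Fintype.linearIndependent_iff.mpr fun a ha t => by
      have h1 := congrFun ha ((Cd e).piv t)
      simp only [Finset.sum_apply, Pi.smul_apply, smul_eq_mul, (Cd e).coord_piv _ hov,
        Pi.zero_apply, apply_ite (red A), show red A (1 : Ω) = 1 from (red_coe (1 : A)).trans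
            (map_one _),
        show red A (0 : Ω) = 0 from (red_coe (0 : A)).trans (map_zero _), mul_ite, mul_one,
            mul_zero,
        Finset.sum_ite_eq', Finset.mem_univ, if_true] at h1
      exact h1
  refine ⟨hspan, hind, Submodule.eq_of_le_of_finrank_le (Submodule.span_le.mpr ?_) ?_⟩
  · rintro _ ⟨s, rfl⟩
    obtain ⟨hi, hr⟩ := L.toFn_int (a := (Cd e).coord (C.X x) s) ((Cd e).integral _ hov s)
    have h1 := R.red_mem_rr (Lat.mem_coordSpace_iff L |>.mp (hmem s)) hi
    rw [Finsupp.mapDomain_sub, hov.2, hr] at h1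
    exact h1
  · have hle : rDiv L.D - C.Xbar e ≤ rDiv L.D := sub_le_self _ (C.Xbar_nonneg e)
    rw [L.finrank_resCoordSpace hle, finrank_span_eq_card hind]
    refine le_trans ?_ (finrank_range_le_card (R := Ω) fun s => (Cd e).coord (C.X x) s)
    rw [Set.finrank, hspan, L.finrank_coordSpace (sub_le_self _ hov.1)]
    refine finrank_le_of_map_eq (R := R) H ?_ ?_
    · rw [Finsupp.mapDomain_sub, hov.2]
    · rw [map_sub, GoodModel.ReductionMap.degree_map, C.Xbar_degree]; omega

include H in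
/-- Over a class, the charts give a free family. -/
theorem isFreeRR_chart (hdeg : c + g ≤ Divisor.degree L.D) {S : Type*} [Nonempty S]
    {B : Subalgebra A (S → Ω)} (π : S → W) {e : C.ι} (hπ : ∀ s, C.cls (π s) = e)
    (hB : ∀ s j, (fun t => C.coordFun Cd e s j (π t)) ∈ B) :
    IsFreeRR B L (fun s => L.D - C.X (π s)) (rDiv L.D - C.Xbar e) := by
  classical
  obtain ⟨s₀⟩ := ‹Nonempty S›
  have hf := fun s => C.coords_facts H Cd hdeg (hπ s)
  refine ⟨fun s => sub_le_self _ (C.isOverDiv (hπ s)).1, sub_le_self _ (C.Xbar_nonneg e),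
    fun s => by rw [Finsupp.mapDomain_sub, (C.isOverDiv (hπ s)).2],
    (Cd e).m, fun j s => (Cd e).coord (C.X (π s)) j,
    fun j i => red A ((Cd e).coord (C.X (π s₀)) j i), fun j i => ?_, fun s => (hf s).1,
    fun j s i => ?_, (hf s₀).2.1, (hf s₀).2.2⟩
  · convert hB j i using 1
    funext t
    simp [coordFun, hπ t]
  · have h1 := (Cd e).integral _ (C.isOverDiv (hπ s)) j i
    have h2 := (Cd e).integral _ (C.isOverDiv (hπ s₀)) j i
    rw [red_eq h1, red_eq h2, ← sub_eq_zero, ← map_sub, residue_eq_zero_iff,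
        ← A.coe_mem_nonunits_iff]
    exact (Cd e).congr _ _ (C.isOverDiv (hπ s)) (C.isOverDiv (hπ s₀)) j i

include H in
/-- **The coordinate functions are closed under comultiplication.** -/
theorem comulClosed (hgal : IsCoeffAction gal) (hd : FixedPlacesDense gal R)
    (h : IsOver A p) [Finite W] (hLY : ∀ e, C.Y e ≤ L.D)
    (hfix : ∀ σ ∈ A.inertiaSubgroupIn ℚ, gal σ • L.D = L.D)
    (hdeg : c + 4 * (g : ℤ) + 2 ≤ Divisor.degree L.D) (hdeg0 : 4 * (g : ℤ) ≤ Divisor.degree L.D) :
    ∀ f ∈ C.gens Cd,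
      (fun q : W × W => f (q.1 + q.2)) ∈ pairAlg (Algebra.adjoin A (C.gens Cd)) := by
  classical
  have := C.finite_ι
  let := Fintype.ofFinite C.ι
  set HA := Algebra.adjoin A (C.gens Cd) with hHA
  have hlow : ∀ D : Divisor (ResidueField A) Fk, Divisor.degree D + 1 - (g : ℤ) ≤
      (Module.finrank (ResidueField A) (riemannRochSpace D) : ℤ) := fun D => by
    obtain ⟨D₀, rfl, -⟩ := exists_mapDomain_eq H h hgal hd D
    rw [GoodModel.ReductionMap.degree_map]
    exact (H.low D₀).trans (Nat.cast_le.mpr (R.finrank_le D₀))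
  have hpl : ∀ a ∈ HA, (fun q : W × W => a q.1) ∈ pairAlg HA := fun a ha =>
    Algebra.subset_adjoin (Or.inl ⟨a, ha, rfl⟩)
  have hpr : ∀ a ∈ HA, (fun q : W × W => a q.2) ∈ pairAlg HA := fun a ha =>
    Algebra.subset_adjoin (Or.inr ⟨a, ha, rfl⟩)
  have hpv : Valued (pairAlg HA) := by
    intro G hG
    induction hG using Algebra.adjoin_induction with
    | mem G hG =>
      rcases hG with ⟨a, ha, rfl⟩ | ⟨a, ha, rfl⟩
      · exact fun q => C.valued_adjoin_gens Cd a ha q.1
      · exact fun q => C.valued_adjoin_gens Cd a ha q.2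
    | algebraMap r => exact fun _ => r.2
    | add f g _ _ hf hg => exact fun x => add_mem (hf x) (hg x)
    | mul f g _ _ hf hg => exact fun x => mul_mem (hf x) (hg x)
  intro f hf
  -- it suffices to work on one pair of classes
  suffices hloc : ∀ a b : C.ι, ∃ G ∈ pairAlg HA, ∀ x y, C.cls x = a → C.cls y = b →
      G (x, y) = f (x + y) by
    choose G hG hGe using hloc
    have e : (fun q : W × W => f (q.1 + q.2)) = ∑ a, ∑ b,
        (fun q : W × W => C.indicator a q.1) * (fun q : W × W => C.indicator b q.2) * G a b := by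
      funext ⟨x, y⟩
      simp only [Finset.sum_apply, Pi.mul_apply, indicator]
      rw [Finset.sum_eq_single (C.cls x) (fun a _ ha => by simp [Ne.symm ha]) (by simp),
        Finset.sum_eq_single (C.cls y) (fun b _ hb => by simp [Ne.symm hb]) (by simp)]
      simp [hGe _ _ x y rfl rfl]
    rw [e]
    exact sum_mem fun a _ => sum_mem fun b _ => mul_mem (mul_mem
      (hpl _ (Algebra.subset_adjoin (C.indicator_mem Cd a)))
      (hpr _ (Algebra.subset_adjoin (C.indicator_mem Cd b)))) (hG a b)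
  intro a b
  obtain ⟨x₀, rfl⟩ := C.cls_surj a
  obtain ⟨y₀, rfl⟩ := C.cls_surj b
  let S := {q : W × W // C.cls q.1 = C.cls x₀ ∧ C.cls q.2 = C.cls y₀}
  have : Nonempty S := ⟨⟨(x₀, y₀), rfl, rfl⟩⟩
  have : Finite S := Subtype.finite
  let res : (W × W → Ω) →ₐ[A] (S → Ω) := AlgHom.pi fun s => Pi.evalAlgHom A (fun _ => Ω) s.1
  let B : Subalgebra A (S → Ω) := (pairAlg HA).map res
  have hBv : Valued B := by
    rintro _ ⟨G, hG, rfl⟩ s
    exact hpv G hG s.1
  set e := C.cls (x₀ + y₀) with he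
  have hcls : ∀ s : S, C.cls (s.1.1 + s.1.2) = e := fun s => C.cls_add _ _ _ _ s.2.1 s.2.2
  have hX : IsFreeRR B L (fun s : S => L.D - C.X s.1.1) (rDiv L.D - C.Xbar (C.cls x₀)) :=
    C.isFreeRR_chart H Cd (by omega) (fun s : S => s.1.1) (fun s => s.2.1) fun s j =>
      ⟨_, hpl _ (Algebra.subset_adjoin (C.coordFun_mem Cd (C.cls x₀) s j)), rfl⟩
  have hX' : IsFreeRR B L (fun s : S => L.D - C.X s.1.2) (rDiv L.D - C.Xbar (C.cls y₀)) :=
    C.isFreeRR_chart H Cd (by omega) (fun s : S => s.1.2) (fun s => s.2.2) fun s j =>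
      ⟨_, hpr _ (Algebra.subset_adjoin (C.coordFun_mem Cd (C.cls y₀) s j)), rfl⟩
  -- the auxiliary lattices
  set Y := C.Y (C.cls x₀)
  set Y' := C.Y (C.cls y₀)
  set Y'' := C.Y e
  have hD0 : 0 ≤ L.D := (C.Y_nonneg e).trans (hLY e)
  have hP0 : 0 ≤ L.D + Y + Y' - Y'' := by
    rw [show L.D + Y + Y' - Y'' = L.D - Y'' + (Y + Y') by abel]
    exact add_nonneg (sub_nonneg.mpr (hLY e)) (add_nonneg (C.Y_nonneg _) (C.Y_nonneg _))
  have hG0 : 0 ≤ L.D + L.D + L.D - Y - Y' + Y'' := by
    rw [show L.D + L.D + L.D - Y - Y' + Y'' = L.D - Y + (L.D - Y') + (L.D + Y'') by abel]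
    exact add_nonneg (add_nonneg (sub_nonneg.mpr (hLY _)) (sub_nonneg.mpr (hLY _)))
      (add_nonneg hD0 (C.Y_nonneg e))
  have hYd : Divisor.degree Y = g := C.Y_degree _
  have hY'd : Divisor.degree Y' = g := C.Y_degree _
  have hY''d : Divisor.degree Y'' = g := C.Y_degree _
  have hfP : ∀ σ ∈ A.inertiaSubgroupIn ℚ, gal σ • (L.D + Y + Y' - Y'') = L.D + Y + Y' - Y'' :=
    fun σ hσ => by
      rw [smul_sub, smul_add, smul_add, hfix σ hσ, C.Y_fixed _ σ hσ, C.Y_fixed _ σ hσ,
        C.Y_fixed _ σ hσ]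
  obtain ⟨L2, hL2, -⟩ := exists_lat_of_fixed H hgal hd (add_nonneg hD0 hD0)
    (fun σ hσ => by rw [smul_add, hfix σ hσ]) (by rw [map_add]; omega)
  obtain ⟨L3, hL3, -⟩ := exists_lat_of_fixed H hgal hd (add_nonneg hD0 (hL2 ▸ add_nonneg hD0 hD0))
    (fun σ hσ => by rw [hL2, smul_add, smul_add, hfix σ hσ]) (D := L.D + L2.D)
    (by rw [hL2, map_add, map_add]; omega)
  obtain ⟨L4, hL4, -⟩ := exists_lat_of_fixed H hgal hd (D := L.D + L3.D)
    (add_nonneg hD0 (hL3 ▸ hL2 ▸ add_nonneg hD0 (add_nonneg hD0 hD0)))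
    (fun σ hσ => by rw [hL3, hL2, smul_add, smul_add, smul_add, hfix σ hσ])
    (by rw [hL3, hL2, map_add, map_add, map_add]; omega)
  obtain ⟨LP, hLP, -⟩ := exists_lat_of_fixed H hgal hd hP0 hfP
    (by rw [map_sub, map_add, map_add]; omega)
  obtain ⟨LG, hLG, -⟩ := exists_lat_of_fixed H hgal hd hG0
    (fun σ hσ => by
      rw [smul_add, smul_sub, smul_sub, smul_add, smul_add, hfix σ hσ, C.Y_fixed _ σ hσ,
        C.Y_fixed _ σ hσ, C.Y_fixed _ σ hσ])
    (by rw [map_add, map_sub, map_sub, map_add, map_add]; omega)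
  obtain ⟨LQ, hLQ, -⟩ := exists_lat_of_fixed H hgal hd (D := L.D + LP.D)
    (add_nonneg hD0 (hLP ▸ hP0)) (fun σ hσ => by rw [hLP, smul_add, hfix σ hσ, hfP σ hσ])
    (by rw [hLP, map_add, map_sub, map_add, map_add]; omega)
  have hsum : IsFreeRR B L (fun s : S => L.D - C.X (s.1.1 + s.1.2)) (rDiv L.D - C.Xbar e) := by
    refine isFreeRR_add H hlow hBv ⟨L2, L3, L4, LP, LG, LQ, hL2, hL3, hL4, hLP, hLG, hLQ⟩
      hYd hY'd hY''d (by omega) (by omega) (by omega)
      (fun s => (C.isOver _).1) (fun s => (C.isOver _).1) (fun s => (C.isOver _).1)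
      (fun s => C.X_degree _) (fun s => C.X_degree _) (fun s => C.X_degree _)
      (fun s => (C.isOverDiv (hcls s)).2) (C.Xbar_finrank e) (fun s => ?_) hX hX'
    have h1 := C.isRep (s.1.1 + s.1.2)
    rw [map_add, hcls s] at h1
    have h2 := (h1.eq_iff ((C.isRep s.1.1).add (C.isRep s.1.2))).mp rfl
    rw [s.2.1, s.2.2] at h2
    convert h2 using 1
    abel
  have hfacts := fun s : S => C.coords_facts H Cd (L := L) (by omega) (hcls s)
  obtain ⟨s₀⟩ := ‹Nonempty S›
  have hrank : Module.finrank (ResidueField A) (resCoordSpace M L.v (rDiv L.D - C.Xbar e)) =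
      (Cd e).m := by
    rw [← (hfacts s₀).2.2, finrank_span_eq_card (hfacts s₀).2.1, Fintype.card_fin]
  have hJ : ∀ x ∈ resCoordSpace M L.v (rDiv L.D - C.Xbar e),
      (∀ t, x ((Cd e).piv t) = 0) → x = 0 := fun x hx hx0 => by
    rw [← (hfacts s₀).2.2, Submodule.mem_span_range_iff_exists_fun] at hx
    obtain ⟨c', rfl⟩ := hx
    refine Finset.sum_eq_zero fun t _ => ?_
    have h1 := hx0 t
    simp only [Finset.sum_apply, Pi.smul_apply, smul_eq_mul,
      (Cd e).coord_piv _ (C.isOverDiv (hcls s₀)), apply_ite (red A),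
      show red A (1 : Ω) = 1 from (red_coe (1 : A)).trans (map_one _),
      show red A (0 : Ω) = 0 from (red_coe (0 : A)).trans (map_zero _), mul_ite, mul_one, mul_zero,
      Finset.sum_ite_eq', Finset.mem_univ, if_true] at h1
    rw [h1, zero_smul]
  have hloc : (fun s : S => f (s.1.1 + s.1.2)) ∈ B := by
    rcases hf with ⟨e', rfl⟩ | ⟨⟨e', j, i⟩, rfl⟩ <;> by_cases hee : e = e'
    · convert B.one_mem using 1
      funext s
      simp [indicator, hcls s, hee]
    · convert B.zero_mem using 1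
      funext s
      simp [indicator, hcls s, hee]
    · subst hee
      refine (congrArg (· ∈ B) (funext fun s => ?_)).mpr
        (hsum.free.mem_of_coords hBv hrank hJ
          (u := fun s : S => (Cd e).coord (C.X (s.1.1 + s.1.2)) j)
          (fun s => mem_coordSpace.mpr ((Cd e).mem _ (C.isOverDiv (hcls s)) j)) (fun t => ?_) i)
      · simp [coordFun, hcls s]
      · simp only [fun s : S => (Cd e).coord_piv _ (C.isOverDiv (hcls s)) j t]
        split_ifs
        · exact B.one_mem
        · exact B.zero_mem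
    · convert B.zero_mem using 1
      funext s
      simp [coordFun, hcls s, hee]
  obtain ⟨G, hG, hGe⟩ := hloc
  exact ⟨G, hG, fun x y hx hy => congrFun hGe ⟨(x, y), hx, hy⟩⟩

end ChartFamily

end Fermat.Agent.S19Model
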