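import Mathlib.LinearAlgebra.Dual.Lemmas
import Mathlib.LinearAlgebra.Dimension.Constructions
import Mathlib.LinearAlgebra.FiniteDimensional.Basic
import Mathlib.RingTheory.Valuation.ValuationSubring

/-!
# Echelon bases over a valuation ring

Reduced echelon bases over a valuation ring of subspaces whose reductions lie in a fixed residual
subspace of at most the same dimension.
-/

set_option autoImplicit false

noncomputable section

open IsLocalRing

namespace Fermat.Agent.S19Model

variable {K : Type*} [Field K]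

/-- A subspace of a coordinate space projects bijectively onto some of the coordinates. -/
theorem exists_pivots {n : ℕ} (U : Submodule K (Fin n → K)) :
    ∃ S : Fin (Module.finrank K U) → Fin n, Function.Injective S ∧
      ∀ b : Fin (Module.finrank K U) → K, ∃! u : U, ∀ t, (u : Fin n → K) (S t) = b t := by
  classical
  let φ : Fin n → Module.Dual K U := fun j => (LinearMap.proj j).comp U.subtype
  have hspan : Submodule.span K (Set.range φ) = ⊤ := by
    by_contra hne
    obtain ⟨x, hx0, hx⟩ := Submodule.exists_dual_map_eq_bot_of_lt_top (lt_top_iff_ne_top.mpr hne)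
      inferInstance
    refine hx0 ?_
    obtain ⟨u, rfl⟩ := (Module.evalEquiv K U).surjective x
    have hu : u = 0 := Subtype.ext (funext fun j => by
      have h1 : Module.evalEquiv K U u (φ j) ∈ Submodule.map (Module.evalEquiv K U u)
          (Submodule.span K (Set.range φ)) :=
        Submodule.mem_map_of_mem (Submodule.subset_span (Set.mem_range_self j))
      rw [hx, Submodule.mem_bot] at h1
      exact h1)
    rw [hu, map_zero]
  obtain ⟨κ, a, ha, haspan, hli⟩ := exists_linearIndependent' K φ
  have hfin : Finite κ := Finite.of_injective a ha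
  have := Fintype.ofFinite κ
  have hcard : Fintype.card κ = Module.finrank K U := by
    rw [← Subspace.dual_finrank_eq, ← finrank_top K (Module.Dual K U), ← hspan, ← haspan,
      finrank_span_eq_card hli]
  let e := (Fintype.equivFinOfCardEq hcard).symm
  refine ⟨a ∘ e, ha.comp e.injective, fun b => ?_⟩
  let P : U →ₗ[K] (Fin (Module.finrank K U) → K) := LinearMap.pi fun t => φ (a (e t))
  have hinj : Function.Injective P := by
    rw [injective_iff_map_eq_zero]
    intro u hu
    have hall : ∀ f ∈ Submodule.span K (Set.range φ), f u = 0 := by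
      rw [← haspan]
      intro f hf
      induction hf using Submodule.span_induction with
      | mem f hf =>
        obtain ⟨k, rfl⟩ := hf
        have := congrFun hu (e.symm k)
        simpa [P] using this
      | zero => rfl
      | add f g _ _ hf hg => simp [hf, hg]
      | smul r f _ hf => simp [hf]
    exact Subtype.ext (funext fun j => hall (φ j) (Submodule.subset_span (Set.mem_range_self j)))
  have hsurj : Function.Surjective P :=
    (LinearMap.injective_iff_surjective_of_finrank_eq_finrank (by simp)).mp hinj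
  obtain ⟨u, hu⟩ := hsurj b
  refine ⟨u, fun t => congrFun hu t, fun u' hu' => hinj ?_⟩
  rw [hu]
  exact funext hu'

variable (A : ValuationSubring K)

/-- An integral multiple with a unit coordinate. -/
theorem exists_primitive {n : ℕ} {a : Fin n → K} (ha : a ≠ 0) :
    ∃ (i : Fin n), a i ≠ 0 ∧ ∀ j, a j * (a i)⁻¹ ∈ A := by
  classical
  obtain ⟨i₁, hi₁⟩ := Function.ne_iff.mp ha
  obtain ⟨i, -, hmax⟩ := Finset.exists_max_image Finset.univ (fun i => A.valuation (a i))
    ⟨i₁, Finset.mem_univ _⟩
  have hi : a i ≠ 0 := fun e => hi₁ (by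
    have h := hmax i₁ (Finset.mem_univ _)
    simp only [e, map_zero] at h
    exact (Valuation.zero_iff A.valuation).mp (le_antisymm h zero_le))
  refine ⟨i, hi, fun j => (A.valuation_le_one_iff _).mp ?_⟩
  rw [map_mul, map_inv₀]
  rw [mul_inv_le_iff₀ (zero_lt_iff.mpr ((Valuation.ne_zero_iff A.valuation).mpr hi)), one_mul]
  exact hmax j (Finset.mem_univ _)

/-- The residue of an integral vector. -/
def resVec {n : ℕ} {a : Fin n → K} (ha : ∀ j, a j ∈ A) : Fin n → ResidueField A :=
  fun j => residue A ⟨a j, ha j⟩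

variable {A} {n : ℕ} {U : Submodule K (Fin n → K)}
  {Ub : Submodule (ResidueField A) (Fin n → ResidueField A)}
  {m : ℕ} {S : Fin m → Fin n}

/-- A subspace reducing into `Ub` meets trivially the vectors vanishing at the pivots of `Ub`. -/
theorem eq_zero_of_pivots (hU : ∀ a ∈ U, ∀ ha : ∀ j, a j ∈ A, resVec A ha ∈ Ub)
    (hS : ∀ u ∈ Ub, (∀ t, u (S t) = 0) → u = 0) {a : Fin n → K} (ha : a ∈ U)
    (h0 : ∀ t, a (S t) = 0) : a = 0 := by
  by_contra hne
  obtain ⟨i, hi, hint⟩ := exists_primitive A hne
  have hmem : (a i)⁻¹ • a ∈ U := U.smul_mem _ ha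
  have hint' : ∀ j, ((a i)⁻¹ • a) j ∈ A := fun j => by
    rw [Pi.smul_apply, smul_eq_mul, mul_comm]; exact hint j
  have hres := hS _ (hU _ hmem hint') fun t => by
    refine (residue_eq_zero_iff _).mpr fun hu => hu.ne_zero (Subtype.ext ?_)
    show (a i)⁻¹ * a (S t) = 0
    rw [h0 t, mul_zero]
  have h1 := congrFun hres i
  exact (residue_eq_zero_iff _).mp h1 (by
    convert isUnit_one (M := A)
    exact inv_mul_cancel₀ hi)

/-- Vectors with integral pivot coordinates are integral. -/
theorem mem_of_pivots (hU : ∀ a ∈ U, ∀ ha : ∀ j, a j ∈ A, resVec A ha ∈ Ub)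
    (hS : ∀ u ∈ Ub, (∀ t, u (S t) = 0) → u = 0) {a : Fin n → K} (ha : a ∈ U)
    (h0 : ∀ t, a (S t) ∈ A) (j : Fin n) : a j ∈ A := by
  rcases eq_or_ne a 0 with rfl | hne
  · exact zero_mem _
  obtain ⟨i, hi, hint⟩ := exists_primitive A hne
  by_cases hiA : a i ∈ A
  · have := mul_mem (hint j) hiA
    rwa [mul_assoc, inv_mul_cancel₀ hi, mul_one] at this
  exfalso
  have hinv : (a i)⁻¹ ∈ A := (A.mem_or_inv_mem _).resolve_left hiA
  have hnu : ¬ IsUnit (⟨(a i)⁻¹, hinv⟩ : A) := fun h => by
    obtain ⟨w, hw⟩ := h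
    refine hiA ?_
    have h2 : ((w : A) : K) * ((↑w⁻¹ : A) : K) = 1 := by
      rw [← MulMemClass.coe_mul, Units.mul_inv]; rfl
    rw [hw] at h2
    have h3 : a i = ((↑w⁻¹ : A) : K) := by
      rw [← inv_inv (a i)]; exact (inv_eq_of_mul_eq_one_right h2)
    rw [h3]; exact (↑w⁻¹ : A).2
  have hmem : (a i)⁻¹ • a ∈ U := U.smul_mem _ ha
  have hint' : ∀ j, ((a i)⁻¹ • a) j ∈ A := fun j => by
    rw [Pi.smul_apply, smul_eq_mul, mul_comm]; exact hint j
  have hres := hS _ (hU _ hmem hint') fun t => by
    show residue A _ = 0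
    rw [residue_eq_zero_iff]
    intro hu
    apply hnu
    have e : (⟨_, hint' (S t)⟩ : A) = ⟨(a i)⁻¹, hinv⟩ * ⟨a (S t), h0 t⟩ := Subtype.ext rfl
    rw [e] at hu
    exact isUnit_of_mul_isUnit_left hu
  have h1 := congrFun hres i
  exact (residue_eq_zero_iff _).mp h1 (by
    convert isUnit_one (M := A)
    exact inv_mul_cancel₀ hi)

/-- **Reduced echelon bases.** -/
theorem exists_echelon (hU : ∀ a ∈ U, ∀ ha : ∀ j, a j ∈ A, resVec A ha ∈ Ub)
    (hS : ∀ u ∈ Ub, (∀ t, u (S t) = 0) → u = 0) (hdim : m ≤ Module.finrank K U) :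
    ∀ b : Fin m → K, ∃! a, a ∈ U ∧ ∀ t, a (S t) = b t := by
  intro b
  let P : U →ₗ[K] (Fin m → K) := LinearMap.pi fun t => (LinearMap.proj (S t)).comp U.subtype
  have hinj : Function.Injective P := by
    rw [injective_iff_map_eq_zero]
    exact fun u hu => Subtype.ext (eq_zero_of_pivots hU hS u.2 fun t => congrFun hu t)
  have heq : Module.finrank K U = Module.finrank K (Fin m → K) := by
    refine le_antisymm (LinearMap.finrank_le_finrank_of_injective hinj) ?_
    rwa [Module.finrank_fin_fun]
  obtain ⟨u, hu⟩ := (LinearMap.injective_iff_surjective_of_finrank_eq_finrank heq).mp hinj b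
  refine ⟨u, ⟨u.2, fun t => congrFun hu t⟩, fun a ha => ?_⟩
  have h := sub_eq_zero.mp (eq_zero_of_pivots hU hS (U.sub_mem ha.1 u.2) fun t => by
    rw [Pi.sub_apply, ha.2 t, sub_eq_zero]
    exact (congrFun hu t).symm)
  exact h

end Fermat.Agent.S19Model

end
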