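import Fermat.Agent.FlatJ0.FixedBasis
import Fermat.Agent.FlatJ0.Points
import Fermat.Agent.FlatJ0.Equivariant
import Fermat.Agent.S19Model.Pivot

/-!
# Echelon coordinates

Coordinates of the effective divisors over a residual divisor: the reduced echelon basis of
`L(D - X)` in an integral basis of `L(D)`.
-/

set_option autoImplicit false

noncomputable section

namespace Fermat.Agent.S19Model

open AlgebraicCurve IsLocalRing Fermat.Agent.FlatJ0 Fermat.Agent.Reduction
  Fermat.Agent.FunctionFieldRR
open scoped Fermat.Agent.Reduction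

local notation "Ω" => AlgebraicClosure ℚ

variable {A : ValuationSubring Ω} {F : IntermediateField Ω (LaurentSeries Ω)}
  {Fk : IntermediateField (IsLocalRing.ResidueField A) (LaurentSeries (IsLocalRing.ResidueField A))}
  {M : GoodModel A F Fk}
  [IsAlgClosed (IsLocalRing.ResidueField A)] [IsFunctionField Ω F]
  [IsFunctionField (IsLocalRing.ResidueField A) Fk]
  [HasPrincipalDivisors Ω F] [HasPrincipalDivisors (IsLocalRing.ResidueField A) Fk]
  {R : M.ReductionMap} {g c : ℤ} (H : GoodModel.RRData (A := A) (F := F) (Fk := Fk) g c)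
  {D : Divisor Ω F} {n : ℕ} {v : Fin n → F}

/-- An effective divisor over the residual divisor `Xb`. -/
def IsOverDiv (R : M.ReductionMap) (Xb : Divisor (IsLocalRing.ResidueField A) Fk)
    (X : Divisor Ω F) : Prop :=
  0 ≤ X ∧ Finsupp.mapDomain R.toFun X = Xb

/-- An integral basis of `L(D)`: the coordinates of integral functions are integral. -/
structure IsIntBasis (M : GoodModel A F Fk) (D : Divisor Ω F) (v : Fin n → F) : Prop where
  card : n = Module.finrank Ω (riemannRochSpace D)
  mem : ∀ j, v j ∈ riemannRochSpace D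
  isInt : ∀ j, M.IsInt (v j)
  exists_coef : ∀ f ∈ riemannRochSpace D, ∃ a : Fin n → Ω,
    f = ∑ j, a j • v j ∧ (M.IsInt f → ∀ j, a j ∈ A)

/-- The vectors of coordinates of functions in `L(E)`. -/
def coordSpace (v : Fin n → F) (E : Divisor Ω F) : Submodule Ω (Fin n → Ω) :=
  (riemannRochSpace E).comap (Fintype.linearCombination Ω v)

omit [IsFunctionField Ω ↥F] [HasPrincipalDivisors Ω ↥F] in
theorem mem_coordSpace {E : Divisor Ω F} {a : Fin n → Ω} :
    a ∈ coordSpace v E ↔ ∑ j, a j • v j ∈ riemannRochSpace E := by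
  rw [coordSpace, Submodule.mem_comap, Fintype.linearCombination_apply]

/-- The residual vectors of coordinates of functions in `L(E)`. -/
def resCoordSpace (M : GoodModel A F Fk) (v : Fin n → F)
    (E : Divisor (IsLocalRing.ResidueField A) Fk) :
    Submodule (IsLocalRing.ResidueField A) (Fin n → IsLocalRing.ResidueField A) :=
  (riemannRochSpace E).comap
    (Fintype.linearCombination (IsLocalRing.ResidueField A) fun j => M.red (v j))

section Basis

variable (hv : IsIntBasis M D v)
include hv

omit [IsAlgClosed (ResidueField ↥A)] [IsFunctionField (ResidueField ↥A) ↥Fk]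
    [HasPrincipalDivisors Ω ↥F] [HasPrincipalDivisors (ResidueField ↥A) ↥Fk] in
theorem IsIntBasis.linearIndependent : LinearIndependent Ω v := by
  have := finiteDimensional_riemannRochSpace (K := Ω) D
  have hspan : Submodule.span Ω (Set.range v) = riemannRochSpace D := by
    refine le_antisymm (Submodule.span_le.mpr ?_) fun f hf => ?_
    · rintro _ ⟨j, rfl⟩; exact hv.mem j
    · obtain ⟨a, rfl, -⟩ := hv.exists_coef f hf
      exact Submodule.sum_mem _ fun j _ =>
        Submodule.smul_mem _ _ (Submodule.subset_span ⟨j, rfl⟩)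
  refine linearIndependent_iff_card_eq_finrank_span.mpr ?_
  rw [Set.finrank, hspan, Fintype.card_fin, hv.card]

omit [IsAlgClosed (ResidueField ↥A)] [IsFunctionField Ω ↥F] [IsFunctionField (ResidueField ↥A) ↥Fk]
    [HasPrincipalDivisors Ω ↥F] [HasPrincipalDivisors (ResidueField ↥A) ↥Fk] in
theorem IsIntBasis.red_sum {a : Fin n → Ω} (ha : ∀ j, a j ∈ A) :
    M.IsInt (∑ j, a j • v j) ∧
      M.red (∑ j, a j • v j) = ∑ j, IsLocalRing.residue A ⟨a j, ha j⟩ • M.red (v j) := by
  obtain ⟨h1, h2⟩ := isInt_sum M Finset.univ (fun j => a j • v j)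
    fun j _ => (M.isInt_smul (ha j) (hv.isInt j)).1
  refine ⟨h1, h2.trans (Finset.sum_congr rfl fun j _ => (M.isInt_smul (ha j) (hv.isInt j)).2)⟩

include H in
theorem IsIntBasis.red_linearIndependent (R : M.ReductionMap) (hD : c ≤ Divisor.degree D) :
    LinearIndependent (IsLocalRing.ResidueField A) fun j => M.red (v j) := by
  have := finiteDimensional_riemannRochSpace (K := IsLocalRing.ResidueField A)
    (Finsupp.mapDomain R.toFun D)
  have hspan : Submodule.span (IsLocalRing.ResidueField A) (Set.range fun j => M.red (v j)) =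
      riemannRochSpace (Finsupp.mapDomain R.toFun D) := by
    refine le_antisymm (Submodule.span_le.mpr ?_) fun s hs => ?_
    · rintro _ ⟨j, rfl⟩; exact R.red_mem_rr (hv.mem j) (hv.isInt j)
    · obtain ⟨x, hx, hxi, rfl⟩ := R.exists_lift H.low H.up hD hs
      obtain ⟨a, rfl, ha⟩ := hv.exists_coef x hx
      rw [(hv.red_sum (ha hxi)).2]
      exact Submodule.sum_mem _ fun j _ =>
        Submodule.smul_mem _ _ (Submodule.subset_span ⟨j, rfl⟩)
  refine linearIndependent_iff_card_eq_finrank_span.mpr ?_
  rw [Set.finrank, hspan, Fintype.card_fin]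
  have h1 := R.finrank_le D
  have h2 := H.up (Finsupp.mapDomain R.toFun D) (by rwa [GoodModel.ReductionMap.degree_map])
  have h3 := H.finrank_eq hD R
  rw [GoodModel.ReductionMap.degree_map] at h2
  have := hv.card
  omega

omit [IsAlgClosed (ResidueField ↥A)] [IsFunctionField (ResidueField ↥A) ↥Fk]
    [HasPrincipalDivisors Ω ↥F] [HasPrincipalDivisors (ResidueField ↥A) ↥Fk] in
theorem IsIntBasis.finrank_coordSpace {E : Divisor Ω F} (hE : E ≤ D) :
    Module.finrank Ω (coordSpace v E) = Module.finrank Ω (riemannRochSpace E) := by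
  have hinj := hv.linearIndependent.fintypeLinearCombination_injective
  refine (Submodule.equivMapOfInjective _ hinj (coordSpace v E)).finrank_eq.trans ?_
  rw [coordSpace, Submodule.map_comap_eq, inf_eq_right.mpr]
  intro f hf
  obtain ⟨a, rfl, -⟩ := hv.exists_coef f (rr_mono hE hf)
  exact ⟨a, Fintype.linearCombination_apply _ _ _⟩

end Basis

/-- The coordinates of the effective divisors over `Xb`. -/
structure Coords (R : M.ReductionMap) (D : Divisor Ω F) (v : Fin n → F)
    (Xb : Divisor (IsLocalRing.ResidueField A) Fk) where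
  /-- the number of basis vectors -/
  m : ℕ
  /-- the pivots -/
  piv : Fin m → Fin n
  piv_inj : Function.Injective piv
  /-- the coordinates -/
  coord : Divisor Ω F → Fin m → Fin n → Ω
  mem : ∀ X, IsOverDiv R Xb X → ∀ s, ∑ j, coord X s j • v j ∈ riemannRochSpace (D - X)
  coord_piv : ∀ X, IsOverDiv R Xb X → ∀ s t, coord X s (piv t) = if s = t then 1 else 0
  expand : ∀ X, IsOverDiv R Xb X → ∀ a : Fin n → Ω,
    ∑ j, a j • v j ∈ riemannRochSpace (D - X) → ∀ j, a j = ∑ s, a (piv s) * coord X s j
  integral : ∀ X, IsOverDiv R Xb X → ∀ s j, coord X s j ∈ A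
  congr : ∀ X X', IsOverDiv R Xb X → IsOverDiv R Xb X' →
    ∀ s j, coord X s j - coord X' s j ∈ A.nonunits
  injective : ∀ X X', IsOverDiv R Xb X → IsOverDiv R Xb X' → coord X = coord X' → X = X'
  equivariant : ∀ γ : SemilinearAut Ω F, γ • D = D → (∀ j, γ • v j = v j) →
    ∀ X, IsOverDiv R Xb X → IsOverDiv R Xb (γ • X) →
      ∀ s j, coord (γ • X) s j = SemilinearAut.baseAut γ (coord X s j)

include H in
/-- **Coordinates exist** in large degree. -/
theorem exists_coordinates (hv : IsIntBasis M D v) (Xb : Divisor (IsLocalRing.ResidueField A) Fk)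
    (hXb : 0 ≤ Divisor.degree Xb) (hdeg : c + 2 * Divisor.degree Xb ≤ Divisor.degree D) :
    Nonempty (Coords R D v Xb) := by
  classical
  set E := Finsupp.mapDomain R.toFun D - Xb with hE
  set Ub := resCoordSpace M v E with hUb
  obtain ⟨S, hSinj, hS⟩ := exists_pivots Ub
  have hS0 : ∀ u ∈ Ub, (∀ t, u (S t) = 0) → u = 0 := fun u hu h0 => by
    obtain ⟨w, -, hw⟩ := hS 0
    exact (congrArg Subtype.val (hw ⟨u, hu⟩ h0)).trans
      (congrArg Subtype.val (hw 0 fun t => rfl)).symm
  have hEdeg : Divisor.degree E = Divisor.degree D - Divisor.degree Xb := by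
    rw [hE, map_sub, GoodModel.ReductionMap.degree_map]
  have hred := hv.red_linearIndependent H R (by omega)
  have := finiteDimensional_riemannRochSpace (K := IsLocalRing.ResidueField A) E
  have hdimb : (Module.finrank (IsLocalRing.ResidueField A) Ub : ℤ) ≤
      Divisor.degree D - Divisor.degree Xb + 1 - g := by
    have hinj := hred.fintypeLinearCombination_injective
    have h1 : Module.finrank (IsLocalRing.ResidueField A) Ub ≤
        Module.finrank (IsLocalRing.ResidueField A) (riemannRochSpace E) := by
      refine (Submodule.equivMapOfInjective _ hinj Ub).finrank_eq.le.trans ?_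
      exact Submodule.finrank_mono (Submodule.map_comap_le _ _)
    have h2 := H.up E (by omega)
    omega
  -- per divisor
  have hUres : ∀ {X : Divisor Ω F}, IsOverDiv R Xb X → ∀ a ∈ coordSpace v (D - X),
      ∀ ha : ∀ j, a j ∈ A, resVec A ha ∈ Ub := by
    intro X hX a hamem ha
    rw [hUb, resCoordSpace, Submodule.mem_comap, Fintype.linearCombination_apply]
    rw [mem_coordSpace] at hamem
    obtain ⟨hi, hr⟩ := hv.red_sum ha
    have h := R.red_mem_rr hamem hi
    rw [Finsupp.mapDomain_sub, hX.2, hr] at h
    exact h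
  have hech : ∀ {X : Divisor Ω F}, IsOverDiv R Xb X →
      ∀ b : Fin (Module.finrank (IsLocalRing.ResidueField A) Ub) → Ω,
        ∃! a, a ∈ coordSpace v (D - X) ∧ ∀ t, a (S t) = b t := by
    intro X hX
    refine exists_echelon (hUres hX) hS0 ?_
    rw [hv.finrank_coordSpace (sub_le_self _ hX.1)]
    have h := H.low (D - X)
    rw [map_sub] at h
    have h' : Divisor.degree X = Divisor.degree Xb := by
      rw [← hX.2, GoodModel.ReductionMap.degree_map]
    omega
  choose sol hsol huniq using @hech
  let coord : Divisor Ω F → Fin (Module.finrank (IsLocalRing.ResidueField A) Ub) → Fin n → Ω :=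
    fun X s => if hX : IsOverDiv R Xb X then sol hX (Pi.single s 1) else 0
  have hcoord : ∀ {X} (hX : IsOverDiv R Xb X) s, coord X s = sol hX (Pi.single s 1) :=
    fun hX s => dif_pos hX
  have hint : ∀ {X} (hX : IsOverDiv R Xb X) s j, coord X s j ∈ A := fun {X} hX s j => by
    rw [hcoord hX]
    refine mem_of_pivots (hUres hX) hS0 (hsol hX _).1 (fun t => ?_) j
    rw [(hsol hX _).2 t, Pi.single_apply]
    split_ifs
    exacts [one_mem _, zero_mem _]
  refine ⟨⟨_, S, hSinj, coord, fun X hX s => ?_, fun X hX s t => ?_, fun X hX a ha j => ?_,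
    fun X hX => hint hX, fun X X' hX hX' s j => ?_, fun X X' hX hX' he => ?_,
    fun γ hγD hγv X hX hX' s j => ?_⟩⟩
  · rw [← mem_coordSpace, hcoord hX]; exact (hsol hX _).1
  · rw [hcoord hX, (hsol hX _).2 t, Pi.single_apply]
    simp [eq_comm]
  · have hmem : (∑ s, a (S s) • coord X s) ∈ coordSpace v (D - X) :=
      Submodule.sum_mem _ fun s _ => Submodule.smul_mem _ _ (by rw [hcoord hX]; exact (hsol hX _).1)
    have h1 := huniq hX (fun t => a (S t)) a ⟨mem_coordSpace.mpr ha, fun t => rfl⟩
    have h2 := huniq hX (fun t => a (S t)) _ ⟨hmem, fun t => by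
      rw [Finset.sum_apply, Finset.sum_eq_single t]
      · rw [Pi.smul_apply, hcoord hX, (hsol hX _).2 t, Pi.single_eq_same, smul_eq_mul, mul_one]
      · intro s _ hst
        rw [Pi.smul_apply, hcoord hX, (hsol hX _).2 t, Pi.single_eq_of_ne (Ne.symm hst), smul_zero]
      · exact fun h => absurd (Finset.mem_univ t) h⟩
    have h3 := congrFun (h1.trans h2.symm) j
    rw [Finset.sum_apply] at h3
    exact h3
  · have hdiff := hS0 _ (Ub.sub_mem
      (hUres hX _ (by rw [hcoord hX]; exact (hsol hX _).1) (hint hX s))
      (hUres hX' _ (by rw [hcoord hX']; exact (hsol hX' _).1) (hint hX' s))) fun t => by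
      rw [Pi.sub_apply, sub_eq_zero]
      show residue A _ = residue A _
      refine congrArg _ (Subtype.ext ?_)
      show coord X s (S t) = coord X' s (S t)
      rw [hcoord hX, hcoord hX', (hsol hX _).2 t, (hsol hX' _).2 t]
    have h1 := congrFun hdiff j
    rw [Pi.sub_apply] at h1
    have h2 : residue A (⟨coord X s j, hint hX s j⟩ - ⟨coord X' s j, hint hX' s j⟩) = 0 := by
      rw [map_sub]; exact h1
    rw [residue_eq_zero_iff] at h2
    exact (A.coe_mem_nonunits_iff
      (a := ⟨coord X s j, hint hX s j⟩ - ⟨coord X' s j, hint hX' s j⟩)).mpr h2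
  · -- equal coordinates give equal spaces
    have hsub : ∀ {X X'}, IsOverDiv R Xb X → IsOverDiv R Xb X' → coord X = coord X' →
        riemannRochSpace (D - X) ≤ riemannRochSpace (D - X') := by
      intro X X' hX hX' he f hf
      obtain ⟨a, rfl, -⟩ := hv.exists_coef f (rr_mono (sub_le_self _ hX.1) hf)
      rw [← mem_coordSpace]
      have hexp : a = ∑ s, a (S s) • coord X s := by
        have h1 := huniq hX (fun t => a (S t)) a ⟨mem_coordSpace.mpr hf, fun t => rfl⟩
        have h2 := huniq hX (fun t => a (S t)) (∑ s, a (S s) • coord X s)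
          ⟨Submodule.sum_mem _ fun s _ => Submodule.smul_mem _ _
            (by rw [hcoord hX]; exact (hsol hX _).1), fun t => by
          rw [Finset.sum_apply, Finset.sum_eq_single t]
          · rw [Pi.smul_apply, hcoord hX, (hsol hX _).2 t, Pi.single_eq_same, smul_eq_mul, mul_one]
          · intro s _ hst
            rw [Pi.smul_apply, hcoord hX, (hsol hX _).2 t, Pi.single_eq_of_ne (Ne.symm hst),
              smul_zero]
          · exact fun h => absurd (Finset.mem_univ t) h⟩
        exact h1.trans h2.symm
      rw [hexp, he]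
      exact Submodule.sum_mem _ fun s _ =>
        Submodule.smul_mem _ _ (by rw [hcoord hX']; exact (hsol hX' _).1)
    by_contra hne
    set Y : Divisor Ω F := Finsupp.zipWith max (max_self 0) X X' with hY
    have hXY : X ≤ Y := Finsupp.le_def.mpr fun P => by simp [hY]
    have hX'Y : X' ≤ Y := Finsupp.le_def.mpr fun P => by simp [hY]
    have hle : riemannRochSpace (D - X) ≤ riemannRochSpace (D - Y) := by
      intro f hf
      rcases eq_or_ne f 0 with rfl | hf0
      · exact zero_mem _
      have hf' := hsub hX hX' he hf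
      rw [mem_rr hf0] at hf hf' ⊢
      intro P
      have h1 := hf P
      have h2 := hf' P
      simp only [Finsupp.sub_apply, hY, Finsupp.zipWith_apply] at h1 h2 ⊢
      omega
    have hdX : Divisor.degree X = Divisor.degree Xb := by
      rw [← hX.2, GoodModel.ReductionMap.degree_map]
    have hdX' : Divisor.degree X' = Divisor.degree Xb := by
      rw [← hX'.2, GoodModel.ReductionMap.degree_map]
    have hY2 : Divisor.degree Y ≤ 2 * Divisor.degree Xb := by
      have h : Y ≤ X + X' := Finsupp.le_def.mpr fun P => by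
        have h1 := Finsupp.le_def.mp hX.1 P
        have h2 := Finsupp.le_def.mp hX'.1 P
        simp only [hY, Finsupp.zipWith_apply, Finsupp.add_apply, Finsupp.zero_apply] at h1 h2 ⊢
        omega
      have := degree_mono h
      rw [map_add] at this
      omega
    have hYgt : Divisor.degree X < Divisor.degree Y := by
      rcases (degree_mono hXY).lt_or_eq with hlt | heq
      · exact hlt
      exfalso
      have e1 : Y = X := sub_eq_zero.mp
        (eq_zero_of_degree_eq_zero (sub_nonneg.mpr hXY) (by rw [map_sub, heq, sub_self]))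
      have e2 : Y = X' := sub_eq_zero.mp
        (eq_zero_of_degree_eq_zero (sub_nonneg.mpr hX'Y)
          (by rw [map_sub, ← heq, hdX, hdX', sub_self]))
      exact hne (e1.symm.trans e2)
    have := finiteDimensional_riemannRochSpace (K := Ω) (D - Y)
    have h1 := Submodule.finrank_mono hle
    have h2 := H.low (D - X)
    have h3 := H.finrank_eq (D := D - Y) (by rw [map_sub]; omega) R
    rw [map_sub] at h2 h3
    omega
  · rw [hcoord hX', hcoord hX]
    have key : (fun i => SemilinearAut.baseAut γ (sol hX (Pi.single s 1) i)) ∈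
        coordSpace v (D - γ • X) ∧
        ∀ t, SemilinearAut.baseAut γ (sol hX (Pi.single s 1) (S t)) =
            (Pi.single s 1 : _ → Ω) t := by
      refine ⟨?_, fun t => ?_⟩
      · rw [mem_coordSpace]
        have h := smul_mem_riemannRochSpace γ (mem_coordSpace.mp (hsol hX (Pi.single s 1)).1)
        rw [smul_sub, hγD, Finset.smul_sum] at h
        simp only [semilinear_smul, hγv] at h
        exact h
      · rw [(hsol hX _).2 t, Pi.single_apply]
        split_ifs <;> simp
    exact (congrFun (huniq hX' _ _ key) j).symm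

end Fermat.Agent.S19Model

end
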