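import Mathlib.RingTheory.Valuation.ValuationSubring
import Mathlib.RingTheory.LocalRing.ResidueField.Basic
import Mathlib.LinearAlgebra.Matrix.NonsingularInverse
import Mathlib.LinearAlgebra.Dimension.Constructions
import Mathlib.LinearAlgebra.Dimension.StrongRankCondition
import Mathlib.LinearAlgebra.FiniteDimensional.Lemmas
import Mathlib.Algebra.Algebra.Pi
import Mathlib.Algebra.Polynomial.AlgebraMap
import Mathlib.Algebra.Polynomial.Div

/-!
# Families of subspaces with constant reduction

`B` is an algebra of functions on a finite set `S` with values in a valuation ring `A`. A family of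
subspaces `V s` of `L^ι` is free over `B` with reduction `W` when it has a basis with coordinates in
`B` whose reduction is a fixed basis of `W`. Kernels, spans and preimages of such families are free
as soon as the dimensions do not drop, by Cramer's rule.
-/

set_option autoImplicit false

noncomputable section

namespace Fermat.Agent.S19Model

open IsLocalRing Submodule

section Ring

variable {R : Type*} [CommRing R] {ι : Type*} [Fintype ι] [DecidableEq ι] {d : Type*} [Fintype d]
  [DecidableEq d]

/-- The vector of the kernel of the rows `N` with coordinate `1` at `i`, off the pivots `J`. -/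
def kerVec (N : d → ι → R) (J : d → ι) (Minv : Matrix d d R) (i : ι) : ι → R := fun l =>
  (if l = i then 1 else 0) - ∑ a, (if l = J a then ∑ b, Minv a b * N b i else 0)

omit [Fintype ι] [DecidableEq d] in
theorem kerVec_apply_of_notMem (N : d → ι → R) (J : d → ι) (Minv : Matrix d d R) (i : ι) {l : ι}
    (hl : l ∉ Set.range J) : kerVec N J Minv i l = if l = i then 1 else 0 := by
  rw [kerVec, Finset.sum_eq_zero, sub_zero]
  intro a _
  rw [if_neg fun e => hl ⟨a, e.symm⟩]

theorem dot_kerVec (N : d → ι → R) (J : d → ι) (Minv : Matrix d d R)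
    (h : (Matrix.of fun b a => N b (J a)) * Minv = 1) (i : ι) (b : d) :
    ∑ l, N b l * kerVec N J Minv i l = 0 := by
  simp only [kerVec, mul_sub, Finset.sum_sub_distrib, mul_ite, mul_one, mul_zero, Finset.mul_sum,
    Finset.sum_ite_eq', Finset.mem_univ, if_true]
  rw [Finset.sum_comm]
  simp only [Finset.sum_ite_eq', Finset.mem_univ, if_true]
  rw [Finset.sum_comm (f := fun a b' => N b (J a) * (Minv a b' * N b' i))]
  simp only [← mul_assoc, ← Finset.sum_mul]
  have hb : ∀ b', ∑ a, N b (J a) * Minv a b' = if b = b' then 1 else 0 := fun b' => by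
    have := congrFun (congrFun h b) b'
    rw [Matrix.mul_apply, Matrix.one_apply] at this
    exact this
  simp [hb]

theorem eq_zero_of_dot (N : d → ι → R) (J : d → ι) (hJ : Function.Injective J)
    (Minv : Matrix d d R) (h : Minv * (Matrix.of fun b a => N b (J a)) = 1) {y : ι → R}
    (hy : ∀ b, ∑ l, N b l * y l = 0) (hsupp : ∀ l, l ∉ Set.range J → y l = 0) : y = 0 := by
  classical
  have hsum : ∀ b, ∑ a, N b (J a) * y (J a) = 0 := fun b => by
    rw [← hy b, ← Finset.sum_image (s := Finset.univ) (g := J) (f := fun l => N b l * y l)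
      fun a _ a' _ e => hJ e]
    refine Finset.sum_subset (Finset.subset_univ _) fun l _ hl => ?_
    rw [hsupp l, mul_zero]
    rintro ⟨a, rfl⟩
    exact hl (Finset.mem_image_of_mem J (Finset.mem_univ a))
  funext l
  by_cases hl : l ∈ Set.range J
  · obtain ⟨a, rfl⟩ := hl
    calc y (J a) = ∑ a', (if a = a' then 1 else 0) * y (J a') := by simp
      _ = ∑ a', (∑ b, Minv a b * N b (J a')) * y (J a') := by
        refine Finset.sum_congr rfl fun a' _ => ?_
        have := congrFun (congrFun h a) a'
        rw [Matrix.mul_apply, Matrix.one_apply] at this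
        rw [← this]
        rfl
      _ = ∑ b, Minv a b * ∑ a', N b (J a') * y (J a') := by
        simp only [Finset.sum_mul, Finset.mul_sum, mul_assoc]
        rw [Finset.sum_comm]
      _ = 0 := by simp [hsum]
  · exact hsupp l hl

theorem eq_sum_kerVec (N : d → ι → R) (J : d → ι) (hJ : Function.Injective J)
    (Minv : Matrix d d R) (h : (Matrix.of fun b a => N b (J a)) * Minv = 1)
    (h' : Minv * (Matrix.of fun b a => N b (J a)) = 1) {x : ι → R}
    (hx : ∀ b, ∑ l, N b l * x l = 0) [Fintype {i // i ∉ Set.range J}] :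
    x = ∑ i : {i // i ∉ Set.range J}, x i • kerVec N J Minv i := by
  rw [← sub_eq_zero]
  refine eq_zero_of_dot N J hJ Minv h' (fun b => ?_) fun l hl => ?_
  · simp only [Pi.sub_apply, Finset.sum_apply, Pi.smul_apply, smul_eq_mul, mul_sub,
      Finset.sum_sub_distrib, hx b, zero_sub, neg_eq_zero, Finset.mul_sum]
    rw [Finset.sum_comm]
    refine Finset.sum_eq_zero fun i _ => ?_
    simp only [mul_left_comm (N b _), ← Finset.mul_sum, dot_kerVec N J Minv h i b, mul_zero]
  · simp only [Pi.sub_apply, Finset.sum_apply, Pi.smul_apply, smul_eq_mul,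
      kerVec_apply_of_notMem N J Minv _ hl]
    rw [Finset.sum_eq_single ⟨l, hl⟩ (fun i _ hne => ?_) (by simp)]
    · simp
    · rw [if_neg (fun e : l = i => hne (Subtype.ext e.symm)), mul_zero]

omit [Fintype ι] [DecidableEq d] in
theorem map_kerVec {T : Type*} [CommRing T] (f : R →+* T) (N : d → ι → R) (J : d → ι)
    (Minv : Matrix d d R) (i l : ι) :
    f (kerVec N J Minv i l) = kerVec (fun b m => f (N b m)) J (Minv.map f) i l := by
  simp only [kerVec, map_sub, map_sum, apply_ite f, map_one, map_zero, map_mul, Matrix.map_apply]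

end Ring

section Field

variable {k : Type*} [Field k] {ι : Type*}

/-- An independent family has an invertible minor. -/
theorem exists_minor [Finite ι] {r : ℕ} {w : Fin r → ι → k} (hw : LinearIndependent k w) :
    ∃ J : Fin r → ι, Function.Injective J ∧ (Matrix.of fun j a => w j (J a)).det ≠ 0 := by
  classical
  have htop : span k (Set.range fun i j => w j i) = (⊤ : Submodule k (Fin r → k)) := by
    by_contra hne
    obtain ⟨φ, hφ, hker⟩ := Submodule.exists_le_ker_of_lt_top _ (lt_top_iff_ne_top.mpr hne)
    refine hφ (LinearMap.pi_ext' fun j => LinearMap.ext_ring ?_)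
    have hsum : ∑ j, φ (Pi.single j 1) • w j = 0 := by
      funext i
      have hi : φ (fun j => w j i) = 0 := hker (subset_span ⟨i, rfl⟩)
      rw [← Finset.univ_sum_single (fun j => w j i), map_sum] at hi
      rw [Pi.zero_apply, Finset.sum_apply, ← hi]
      refine Finset.sum_congr rfl fun j _ => ?_
      rw [show (Pi.single j (w j i) : Fin r → k) = w j i • Pi.single j 1 by
        rw [← Pi.single_smul, smul_eq_mul, mul_one], map_smul]
      simp [mul_comm]
    simpa using Fintype.linearIndependent_iff.mp hw _ hsum j
  have hr : Module.finrank k (span k (Set.range fun i j => w j i)) = r := by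
    rw [htop, finrank_top, Module.finrank_fin_fun]
  obtain ⟨f, hf, -, hli⟩ := exists_fun_fin_finrank_span_eq k (Set.range fun i j => w j i)
  choose J hJ using hf
  have hli' : LinearIndependent k fun a : Fin r => f (Fin.cast hr.symm a) :=
    hli.comp _ (Fin.cast_injective _)
  refine ⟨fun a => J (Fin.cast hr.symm a), fun a a' e => ?_, ?_⟩
  · refine hli'.injective ?_
    simp only [← hJ]
    exact congrArg (fun i j => w j i) e
  · rw [← Matrix.det_transpose]
    refine IsUnit.ne_zero ((Matrix.isUnit_iff_isUnit_det _).mp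
      (Matrix.linearIndependent_rows_iff_isUnit.mp ?_))
    convert hli' using 1
    funext a
    exact hJ (Fin.cast hr.symm a)

/-- Coordinates separating a subspace give every basis of it an invertible minor. -/
theorem det_minor_ne_zero {r : ℕ} {W : Submodule k (ι → k)} {J : Fin r → ι}
    (hJ : ∀ x ∈ W, (∀ a, x (J a) = 0) → x = 0) {w : Fin r → ι → k} (hw : LinearIndependent k w)
    (hWw : ∀ j, w j ∈ W) : (Matrix.of fun j a => w j (J a)).det ≠ 0 := by
  refine IsUnit.ne_zero ((Matrix.isUnit_iff_isUnit_det _).mp
    (Matrix.linearIndependent_rows_iff_isUnit.mp ?_))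
  refine Fintype.linearIndependent_iff.mpr fun c hc j => ?_
  refine Fintype.linearIndependent_iff.mp hw c ?_ j
  refine hJ _ (W.sum_mem fun j _ => W.smul_mem _ (hWw j)) fun a => ?_
  have := congrFun hc a
  simpa [Matrix.row, Matrix.of_apply] using this

end Field

variable {L : Type*} [Field L] (A : ValuationSubring L) {S : Type*}

/-- The reduction of an element of `L`, zero outside `A`. -/
def red (x : L) : ResidueField A :=
  haveI := Classical.dec (x ∈ A)
  if h : x ∈ A then residue A ⟨x, h⟩ else 0

variable {A}

theorem red_eq {x : L} (h : x ∈ A) : red A x = residue A ⟨x, h⟩ := dif_pos h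

theorem red_coe (x : A) : red A (x : L) = residue A x := red_eq x.2

/-- Functions with values in `A`. -/
def Valued (B : Subalgebra A (S → L)) : Prop := ∀ f ∈ B, ∀ s, f s ∈ A

variable {B : Subalgebra A (S → L)} (hB : Valued B)

/-- Evaluation at a point. -/
def evalHom (B : Subalgebra A (S → L)) (s : S) : B →+* L :=
  (Pi.evalRingHom (fun _ => L) s).comp B.val.toRingHom

/-- The reduction of the value at a point. -/
def redHom (hB : Valued B) (s : S) : B →+* ResidueField A :=
  (residue A).comp
    { toFun := fun f => ⟨(f : S → L) s, hB _ f.2 s⟩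
      map_one' := rfl
      map_mul' := fun _ _ => rfl
      map_zero' := rfl
      map_add' := fun _ _ => rfl }

theorem evalHom_apply (f : B) (s : S) : evalHom B s f = (f : S → L) s := rfl

theorem redHom_apply (f : B) (s : S) : redHom hB s f = red A ((f : S → L) s) :=
  (red_coe _).symm

open Polynomial in
include hB in
/-- A function of `B` whose values are units is a unit of `B`. -/
theorem isUnit_of_red_ne_zero [Finite S] (f : B) (hf : ∀ s, red A ((f : S → L) s) ≠ 0) :
    IsUnit f := by
  classical
  have := Fintype.ofFinite S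
  let v : S → A := fun s => ⟨(f : S → L) s, hB _ f.2 s⟩
  let P : A[X] := ∏ s, (X - C (v s))
  have hP : aeval f P = 0 := by
    apply Subtype.ext
    funext s
    have h : ((aeval f P : B) : S → L) s = ∏ t, ((f : S → L) s - (v t : L)) := by
      rw [show ((aeval f P : B) : S → L) s = evalHom B s (aeval f P) from rfl,
          map_prod (aeval (R := A) f),
        map_prod]
      exact Finset.prod_congr rfl fun t _ => by simp only [map_sub, aeval_X, aeval_C]; rfl
    rw [h]
    exact Finset.prod_eq_zero (Finset.mem_univ s) (sub_self _)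
  have h0 : IsUnit (P.coeff 0) := by
    rw [coeff_zero_eq_eval_zero, eval_prod, IsUnit.prod_iff]
    intro s _
    rw [eval_sub, eval_X, eval_C, zero_sub, IsUnit.neg_iff]
    by_contra hu
    refine hf s ?_
    rw [show ((f : S → L) s) = (v s : L) from rfl, red_coe, residue_eq_zero_iff]
    exact hu
  rw [← X_mul_divX_add P, map_add, map_mul, aeval_X, aeval_C, add_eq_zero_iff_eq_neg] at hP
  refine isUnit_of_mul_isUnit_left (y := aeval f P.divX) ?_
  rw [hP]
  exact IsUnit.neg (RingHom.isUnit_map (algebraMap A B) h0)

include hB in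
/-- A matrix over `B` with invertible reductions is invertible over `B`. -/
theorem exists_inverse [Finite S] {d : Type*} [Fintype d] [DecidableEq d] (M : Matrix d d B)
    (Mb : Matrix d d (ResidueField A))
    (hMb : ∀ s a b, red A ((M a b : S → L) s) = Mb a b) (h : Mb.det ≠ 0) :
    ∃ N : Matrix d d B, M * N = 1 ∧ N * M = 1 := by
  have hu : IsUnit M.det := isUnit_of_red_ne_zero hB _ fun s e => h (by
    rw [show Mb = (redHom hB s).mapMatrix M from
      Matrix.ext fun a b => ((redHom_apply hB (M a b) s).trans (hMb s a b)).symm,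
      ← RingHom.map_det, redHom_apply]
    exact e)
  exact ⟨M⁻¹, Matrix.mul_nonsing_inv M hu, Matrix.nonsing_inv_mul M hu⟩

variable {ι : Type*}

variable (B) in
/-- A basis of the family `V` over `B` reducing to the basis `wb` of `W`. -/
structure IsBasisFamily (V : S → Submodule L (ι → L))
    (W : Submodule (ResidueField A) (ι → ResidueField A))
    {r : ℕ} (w : Fin r → S → ι → L) (wb : Fin r → ι → ResidueField A) : Prop where
  mem : ∀ j i, (fun s => w j s i) ∈ B
  span_eq : ∀ s, span L (Set.range fun j => w j s) = V s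
  red_eq : ∀ j s i, red A (w j s i) = wb j i
  indep : LinearIndependent (ResidueField A) wb
  span_red : span (ResidueField A) (Set.range wb) = W

variable (B) in
/-- The family is free over `B` with reduction `W`. -/
def IsFree (V : S → Submodule L (ι → L))
    (W : Submodule (ResidueField A) (ι → ResidueField A)) : Prop :=
  ∃ (r : ℕ) (w : Fin r → S → ι → L) (wb : Fin r → ι → ResidueField A), IsBasisFamily B V W w wb

variable {V : S → Submodule L (ι → L)} {W : Submodule (ResidueField A) (ι → ResidueField A)}
  {r : ℕ} {w : Fin r → S → ι → L} {wb : Fin r → ι → ResidueField A}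

theorem IsBasisFamily.finrank_red (h : IsBasisFamily B V W w wb) :
    Module.finrank (ResidueField A) W = r := by
  rw [← h.span_red, finrank_span_eq_card h.indep, Fintype.card_fin]

theorem IsBasisFamily.red_mem (h : IsBasisFamily B V W w wb) (j : Fin r) : wb j ∈ W :=
  h.span_red ▸ subset_span ⟨j, rfl⟩

theorem IsBasisFamily.mem_space (h : IsBasisFamily B V W w wb) (j : Fin r) (s : S) :
    w j s ∈ V s :=
  h.span_eq s ▸ subset_span ⟨j, rfl⟩

include hB in
/-- Coordinates with respect to a basis family, through a separating set of coordinates. -/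
theorem IsBasisFamily.exists_coords [Finite S] (h : IsBasisFamily B V W w wb) {J : Fin r → ι}
    (hJ : ∀ x ∈ W, (∀ a, x (J a) = 0) → x = 0) :
    ∃ Minv : Matrix (Fin r) (Fin r) B,
      (∀ j b, ∑ a, (⟨_, h.mem j (J a)⟩ : B) * Minv a b = if j = b then 1 else 0) ∧
      (∀ a b, ∑ j, Minv a j * (⟨_, h.mem j (J b)⟩ : B) = if a = b then 1 else 0) ∧
      ∀ s, ∀ x ∈ V s, x = ∑ j, (∑ a, x (J a) * evalHom B s (Minv a j)) • w j s := by
  classical
  obtain ⟨Minv, h1, h2⟩ := exists_inverse hB (Matrix.of fun j a => (⟨_, h.mem j (J a)⟩ : B))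
    _ (fun s j a => h.red_eq j s (J a)) (det_minor_ne_zero hJ h.indep h.red_mem)
  refine ⟨Minv, fun j b => ?_, fun a b => ?_, fun s x hx => ?_⟩
  · have := congrFun (congrFun h1 j) b
    rwa [Matrix.mul_apply, Matrix.one_apply] at this
  · have := congrFun (congrFun h2 a) b
    rwa [Matrix.mul_apply, Matrix.one_apply] at this
  · rw [← h.span_eq s, mem_span_range_iff_exists_fun] at hx
    obtain ⟨c, rfl⟩ := hx
    refine Finset.sum_congr rfl fun j _ => congrArg (· • w j s) ?_
    have e : ∀ l, ∑ a, w l s (J a) * evalHom B s (Minv a j) = if l = j then 1 else 0 := fun l => by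
      have := congrArg (evalHom B s) (congrFun (congrFun h1 l) j)
      rw [Matrix.mul_apply, Matrix.one_apply, map_sum, apply_ite (evalHom B s), map_one,
        map_zero] at this
      simpa only [map_mul, Matrix.of_apply, evalHom_apply] using this
    simp only [Finset.sum_apply, Pi.smul_apply, smul_eq_mul, Finset.sum_mul, mul_assoc]
    rw [Finset.sum_comm]
    simp [← Finset.mul_sum, e]

include hB in
/-- A vector of `V` with separating coordinates in `B` has all coordinates in `B`. -/
theorem IsFree.mem_of_coords [Finite S] (h : IsFree B V W) {r : ℕ} {J : Fin r → ι}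
    (hr : Module.finrank (ResidueField A) W = r)
    (hJ : ∀ x ∈ W, (∀ a, x (J a) = 0) → x = 0) {u : S → ι → L} (hu : ∀ s, u s ∈ V s)
    (huJ : ∀ a, (fun s => u s (J a)) ∈ B) (i : ι) : (fun s => u s i) ∈ B := by
  obtain ⟨r', w, wb, h⟩ := h
  obtain rfl : r' = r := h.finrank_red.symm.trans hr
  obtain ⟨Minv, -, -, hc⟩ := h.exists_coords hB hJ
  have e : (fun s => u s i) =
      ∑ j, (∑ a, (fun s => u s (J a)) * (Minv a j : S → L)) * fun s => w j s i := by
    funext s
    conv_lhs => rw [hc s _ (hu s)]
    simp [Finset.sum_apply, evalHom_apply]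
  rw [e]
  exact B.sum_mem fun j _ => B.mul_mem
    (B.sum_mem fun a _ => B.mul_mem (huJ a) (Minv a j).2) (h.mem j i)

include hB in
/-- Sums of products of functions of `B` reduce to the sums of products of the reductions. -/
theorem red_sum_mul {κ : Type*} (t : Finset κ) (f g : κ → S → L) (hf : ∀ q, f q ∈ B)
    (hg : ∀ q, g q ∈ B) (s : S) :
    red A (∑ q ∈ t, f q s * g q s) = ∑ q ∈ t, red A (f q s) * red A (g q s) := by
  have e : ∀ b : B, redHom hB s b = red A (evalHom B s b) := fun b => redHom_apply hB b s
  have h1 := e (∑ q ∈ t, (⟨_, hf q⟩ : B) * ⟨_, hg q⟩)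
  simp only [map_sum, map_mul, evalHom_apply, redHom_apply] at h1
  exact h1.symm

variable [Fintype ι]

include hB in
/-- Independent reductions give independent values. -/
theorem linearIndependent_of_red [Finite S] {κ : Type*} [Fintype κ] (u : κ → S → ι → L)
    (hu : ∀ q i, (fun s => u q s i) ∈ B) (ub : κ → ι → ResidueField A)
    (hred : ∀ q s i, red A (u q s i) = ub q i) (hind : LinearIndependent (ResidueField A) ub)
    (s : S) : LinearIndependent L fun q => u q s := by
  classical
  let e := Fintype.equivFin κ
  obtain ⟨J, -, hdet⟩ := exists_minor (hind.comp e.symm e.symm.injective)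
  obtain ⟨Minv, h1, -⟩ := exists_inverse hB
    (Matrix.of fun j a => (⟨_, hu (e.symm j) (J a)⟩ : B)) _
    (fun t j a => hred (e.symm j) t (J a)) hdet
  have : LinearIndependent L fun j => u (e.symm j) s := by
    refine Fintype.linearIndependent_iff.mpr fun c hc b => ?_
    calc c b = ∑ j, c j * (if j = b then 1 else 0) := by simp
      _ = ∑ j, c j * ∑ a, u (e.symm j) s (J a) * evalHom B s (Minv a b) := by
        refine Finset.sum_congr rfl fun j _ => congrArg (c j * ·) ?_
        have := congrArg (evalHom B s) (congrFun (congrFun h1 j) b)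
        rw [Matrix.mul_apply, Matrix.one_apply, map_sum, apply_ite (evalHom B s), map_one,
          map_zero] at this
        simpa only [map_mul, Matrix.of_apply, evalHom_apply] using this.symm
      _ = ∑ a, (∑ j, c j * u (e.symm j) s (J a)) * evalHom B s (Minv a b) := by
        simp only [Finset.mul_sum, Finset.sum_mul, mul_assoc]
        rw [Finset.sum_comm]
      _ = 0 := Finset.sum_eq_zero fun a _ => by
        have := congrFun hc (J a)
        simp only [Finset.sum_apply, Pi.smul_apply, smul_eq_mul, Pi.zero_apply] at this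
        rw [this, zero_mul]
  exact (linearIndependent_equiv e.symm).mp this

include hB in
/-- Generators whose reductions span a space of the full dimension. -/
theorem isFree_of_generators [Finite S] {κ : Type*} (u : κ → S → ι → L)
    (hu : ∀ q i, (fun s => u q s i) ∈ B) (ub : κ → ι → ResidueField A)
    (hred : ∀ q s i, red A (u q s i) = ub q i) (hmem : ∀ q s, u q s ∈ V s)
    (hspan : span (ResidueField A) (Set.range ub) = W)
    (hdim : ∀ s, Module.finrank L (V s) ≤ Module.finrank (ResidueField A) W) : IsFree B V W := by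
  classical
  obtain ⟨f, hf, hfs, hfi⟩ := exists_fun_fin_finrank_span_eq (ResidueField A) (Set.range ub)
  choose q hq using hf
  refine ⟨_, fun j => u (q j), f, fun j i => hu _ i, fun s => ?_, fun j s i => ?_, hfi,
    hfs.trans hspan⟩
  · refine Submodule.eq_of_le_of_finrank_le (span_le.mpr ?_) ?_
    · rintro _ ⟨j, rfl⟩
      exact hmem _ s
    · have hli := linearIndependent_of_red hB (fun j => u (q j)) (fun j i => hu _ i) f
        (fun j s i => by rw [hred, hq]) hfi s
      rw [finrank_span_eq_card hli, Fintype.card_fin, hspan]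
      exact hdim s
  · rw [hred, hq]

include hB in
/-- A kernel whose dimension is at least that of the reduced kernel. -/
theorem isFree_of_kernel [Finite S] {κ : Type*} (N : κ → S → ι → L)
    (hN : ∀ q i, (fun s => N q s i) ∈ B) (Nb : κ → ι → ResidueField A)
    (hred : ∀ q s i, red A (N q s i) = Nb q i)
    (hW : ∀ x, x ∈ W ↔ ∀ q, ∑ i, Nb q i * x i = 0)
    (hV : ∀ s, ∀ x ∈ V s, ∀ q, ∑ i, N q s i * x i = 0)
    (hdim : ∀ s, Module.finrank (ResidueField A) W ≤ Module.finrank L (V s)) : IsFree B V W := by
  classical
  obtain ⟨f, hf, hfs, hfi⟩ := exists_fun_fin_finrank_span_eq (ResidueField A) (Set.range Nb)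
  choose q hq using hf
  obtain ⟨J, hJ, hdet⟩ := exists_minor hfi
  let NB : Fin _ → ι → B := fun b i => ⟨_, hN (q b) i⟩
  obtain ⟨Minv, h1, h2⟩ := exists_inverse hB (Matrix.of fun b a => NB b (J a)) _
    (fun s b a => (hred (q b) s (J a)).trans (congrFun (hq b) (J a))) hdet
  let e := Fintype.equivFin {i : ι // i ∉ Set.range J}
  let v : Fin _ → S → ι → L := fun j s l => evalHom B s (kerVec NB J Minv (e.symm j).1 l)
  have hvmem : ∀ j l, (fun s => v j s l) ∈ B := fun j l =>
    (kerVec NB J Minv (e.symm j).1 l).2
  have hev : ∀ (T : Type _) [CommRing T] (φ : B →+* T) (j : Fin _) (l : ι),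
      φ (kerVec NB J Minv (e.symm j).1 l) =
        kerVec (fun b m => φ (NB b m)) J (Minv.map φ) (e.symm j).1 l :=
    fun T _ φ j l => map_kerVec φ NB J Minv _ l
  have hM : ∀ (T : Type _) [CommRing T] (φ : B →+* T),
      (Matrix.of fun b a => φ (NB b (J a))) * Minv.map φ = 1 ∧
        Minv.map φ * (Matrix.of fun b a => φ (NB b (J a))) = 1 := fun T _ φ => by
    constructor
    · have := congrArg φ.mapMatrix h1
      rwa [map_mul, map_one] at this
    · have := congrArg φ.mapMatrix h2
      rwa [map_mul, map_one] at this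
  have hred' : ∀ s b m, redHom hB s (NB b m) = f b m := fun s b m => by
    rw [redHom_apply, ← hq b]
    exact hred _ s _
  rcases isEmpty_or_nonempty S with hS | ⟨⟨s₀⟩⟩
  · obtain ⟨f', hf's, hf'i⟩ : ∃ f' : Fin (Module.finrank (ResidueField A) W) → ι → ResidueField A,
        span (ResidueField A) (Set.range f') = W ∧ LinearIndependent (ResidueField A) f' :=
      ⟨fun j => (Module.finBasis (ResidueField A) W j : ι → ResidueField A),
        by
          rw [show (fun j => (Module.finBasis (ResidueField A) W j : ι → ResidueField A)) =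
            W.subtype ∘ Module.finBasis (ResidueField A) W from rfl, Set.range_comp,
            span_image, Module.Basis.span_eq, Submodule.map_top, range_subtype],
        (Module.finBasis (ResidueField A) W).linearIndependent.map' W.subtype (ker_subtype W)⟩
    exact ⟨_, fun _ s => hS.elim s, f', fun j i => by
      rw [show (fun s => (hS.elim s : ι → L) i) = 0 from funext fun s => hS.elim s]
      exact B.zero_mem, fun s => hS.elim s, fun _ s => hS.elim s, hf'i, hf's⟩
  let vb : Fin _ → ι → ResidueField A := fun j =>
    kerVec f J (Minv.map (redHom hB s₀)) (e.symm j).1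
  have hf0 : ∀ s, (fun b m => redHom hB s (NB b m)) = f := fun s => funext₂ (hred' s)
  have hMs : ∀ s, Minv.map (redHom hB s) = Minv.map (redHom hB s₀) := fun s => by
    have a := hM _ (redHom hB s)
    have b := hM _ (redHom hB s₀)
    simp only [hred'] at a b
    exact left_inv_eq_right_inv a.2 b.1
  have hvred : ∀ j s l, red A (v j s l) = vb j l := fun j s l => by
    show red A (evalHom B s _) = _
    rw [show red A (evalHom B s (kerVec NB J Minv (e.symm j).1 l)) =
      redHom hB s (kerVec NB J Minv (e.symm j).1 l) from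
      (redHom_apply hB (kerVec NB J Minv (e.symm j).1 l) s).symm, hev, hf0, hMs]
  have hb := hM _ (redHom hB s₀)
  simp only [hred'] at hb
  have hvW : ∀ j, vb j ∈ W := fun j => (hW _).mpr fun q' => by
    have hq' : Nb q' ∈ span (ResidueField A) (Set.range f) :=
      hfs.symm ▸ subset_span ⟨q', rfl⟩
    rw [mem_span_range_iff_exists_fun] at hq'
    obtain ⟨c, hc⟩ := hq'
    simp only [← hc, Finset.sum_apply, Pi.smul_apply, smul_eq_mul, Finset.sum_mul, mul_assoc]
    rw [Finset.sum_comm]
    simp only [← Finset.mul_sum, vb, dot_kerVec f J _ hb.1, mul_zero, Finset.sum_const_zero]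
  have hind : LinearIndependent (ResidueField A) vb :=
    Fintype.linearIndependent_iff.mpr fun c hc j => by
      have := congrFun hc (e.symm j).1
      simp only [Finset.sum_apply, Pi.smul_apply, smul_eq_mul, vb,
        kerVec_apply_of_notMem f J _ _ (e.symm j).2, Pi.zero_apply, Subtype.val_inj,
        e.symm.injective.eq_iff] at this
      simpa using this
  have hspan : span (ResidueField A) (Set.range vb) = W := by
    refine le_antisymm (span_le.mpr (by rintro _ ⟨j, rfl⟩; exact hvW j)) fun x hx => ?_
    rw [eq_sum_kerVec f J hJ _ hb.1 hb.2 (x := x) fun b => by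
      rw [← hq b]; exact (hW x).mp hx _]
    refine sum_mem fun i _ => Submodule.smul_mem _ _ (subset_span ⟨e i, ?_⟩)
    show kerVec f J _ (e.symm (e i)).1 = _
    rw [e.symm_apply_apply]
  refine ⟨_, v, vb, hvmem, fun s => ?_, hvred, hind, hspan⟩
  have hle : V s ≤ span L (Set.range fun j => v j s) := fun x hx => by
    rw [eq_sum_kerVec (fun b m => evalHom B s (NB b m)) J hJ (Minv.map (evalHom B s))
      (hM _ (evalHom B s)).1 (hM _ (evalHom B s)).2 (x := x) fun b => hV s x hx _]
    refine sum_mem fun i _ => Submodule.smul_mem _ _ (subset_span ⟨e i, ?_⟩)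
    funext l
    show evalHom B s _ = _
    rw [hev, e.symm_apply_apply]
  refine (Submodule.eq_of_le_of_finrank_le hle ?_).symm
  refine (finrank_range_le_card _).trans ?_
  rw [Fintype.card_fin]
  refine le_trans (le_of_eq ?_) (hdim s)
  rw [← hspan, finrank_span_eq_card hind, Fintype.card_fin]

include hB in
/-- A free family is the kernel of rows with entries in `B`. -/
theorem IsFree.exists_rows [Finite S] (h : IsFree B V W) :
    ∃ (N : ι → S → ι → L) (Nb : ι → ι → ResidueField A),
      (∀ q i, (fun s => N q s i) ∈ B) ∧ (∀ q s i, red A (N q s i) = Nb q i) ∧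
      (∀ s, ∀ x ∈ V s, ∀ q, ∑ i, N q s i * x i = 0) ∧
      (Nonempty S → ∀ x, x ∈ W ↔ ∀ q, ∑ i, Nb q i * x i = 0) := by
  classical
  obtain ⟨r, w, wb, h⟩ := h
  obtain ⟨J, hJi, hdet⟩ := exists_minor h.indep
  let wB : Fin r → ι → B := fun j i => ⟨_, h.mem j i⟩
  obtain ⟨Minv, h1, h2⟩ := exists_inverse hB (Matrix.of fun j a => wB j (J a)) _
    (fun s j a => h.red_eq j s (J a)) hdet
  let NB : ι → ι → B := fun q l =>
    (if l = q then 1 else 0) - ∑ a, if l = J a then ∑ j, Minv a j * wB j q else 0
  have hdot : ∀ (T : Type _) [CommRing T] (φ : B →+* T) (x : ι → T) (q : ι),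
      ∑ l, φ (NB q l) * x l = x q - ∑ j, (∑ a, x (J a) * φ (Minv a j)) * φ (wB j q) := by
    intro T _ φ x q
    simp only [NB, map_sub, map_sum, apply_ite φ, map_one, map_zero, map_mul, sub_mul, ite_mul,
      one_mul, zero_mul, Finset.sum_mul, Finset.sum_sub_distrib, Finset.sum_ite_eq',
      Finset.mem_univ, if_true]
    congr 1
    rw [Finset.sum_comm]
    simp only [Finset.sum_ite_eq', Finset.mem_univ, if_true]
    rw [Finset.sum_comm]
    refine Finset.sum_congr rfl fun j _ => Finset.sum_congr rfl fun a _ => ?_
    ring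
  have hker : ∀ (T : Type _) [CommRing T] (φ : B →+* T) (c : Fin r → T) (q : ι),
      ∑ l, φ (NB q l) * (∑ j, c j * φ (wB j l)) = 0 := by
    intro T _ φ c q
    rw [hdot, sub_eq_zero]
    refine Finset.sum_congr rfl fun j _ => congrArg (· * φ (wB j q)) ?_
    have e : ∀ i, ∑ a, φ (wB i (J a)) * φ (Minv a j) = if i = j then 1 else 0 := fun i => by
      have := congrArg φ (congrFun (congrFun h1 i) j)
      rw [Matrix.mul_apply, Matrix.one_apply, map_sum, apply_ite φ, map_one, map_zero] at this
      simpa only [map_mul, Matrix.of_apply] using this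
    simp only [Finset.sum_mul, mul_assoc]
    rw [Finset.sum_comm]
    simp [← Finset.mul_sum, e]
  rcases isEmpty_or_nonempty S with hS | ⟨⟨s₀⟩⟩
  · exact ⟨fun q s l => evalHom B s (NB q l), fun _ _ => 0, fun q l => (NB q l).2,
      fun _ s => hS.elim s, fun s => hS.elim s, fun ⟨s⟩ => hS.elim s⟩
  refine ⟨fun q s l => evalHom B s (NB q l), fun q l => redHom hB s₀ (NB q l),
    fun q l => (NB q l).2, fun q s l => ?_, fun s x hx q => ?_, fun _ x =>
        ⟨fun hx q => ?_, fun hx => ?_⟩⟩
  · rw [← show redHom hB s (NB q l) = red A (evalHom B s (NB q l)) from redHom_apply hB _ s]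
    have hw : ∀ j i, redHom hB s (wB j i) = wb j i := fun j i => by
      rw [redHom_apply]; exact h.red_eq j s i
    have hw₀ : ∀ j i, redHom hB s₀ (wB j i) = wb j i := fun j i => by
      rw [redHom_apply]; exact h.red_eq j s₀ i
    have a : Minv.map (redHom hB s) * (Matrix.of fun j b => wb j (J b)) = 1 := by
      have := congrArg (redHom hB s).mapMatrix h2
      rw [map_mul, map_one] at this
      rw [← this]
      exact congrArg _ (Matrix.ext fun j b => (hw j (J b)).symm)
    have b : (Matrix.of fun j b => wb j (J b)) * Minv.map (redHom hB s₀) = 1 := by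
      have := congrArg (redHom hB s₀).mapMatrix h1
      rw [map_mul, map_one] at this
      rw [← this]
      exact congrArg (· * _) (Matrix.ext fun j b => (hw₀ j (J b)).symm)
    have hab : Minv.map (redHom hB s) = Minv.map (redHom hB s₀) := left_inv_eq_right_inv a b
    have hM := fun a' j => congrFun (congrFun hab a') j
    simp only [Matrix.map_apply] at hM
    simp only [NB, map_sub, map_sum, apply_ite (redHom hB s), apply_ite (redHom hB s₀), map_one,
      map_zero, map_mul, hw, hw₀, hM]
  · rw [← h.span_eq s, mem_span_range_iff_exists_fun] at hx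
    obtain ⟨c, rfl⟩ := hx
    simpa [Finset.sum_apply, evalHom_apply, wB] using hker L (evalHom B s) c q
  · rw [← h.span_red, mem_span_range_iff_exists_fun] at hx
    obtain ⟨c, rfl⟩ := hx
    have := hker _ (redHom hB s₀) c q
    simp only [redHom_apply, wB, h.red_eq] at this
    simpa [Finset.sum_apply, redHom_apply] using this
  · have e : x = ∑ j, (∑ a, x (J a) * redHom hB s₀ (Minv a j)) • wb j := by
      funext q
      have := hdot _ (redHom hB s₀) x q
      rw [hx q, eq_comm, sub_eq_zero] at this
      rw [this, Finset.sum_apply]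
      refine Finset.sum_congr rfl fun j _ => ?_
      rw [Pi.smul_apply, smul_eq_mul, redHom_apply hB (wB j q)]
      exact congrArg _ (h.red_eq j s₀ q)
    rw [e]
    exact W.sum_mem fun j _ => W.smul_mem _ (h.red_mem j)

include hB in
/-- The preimage of a free family under linear maps with entries in `B`. -/
theorem isFree_of_preimage [Finite S] {ι₀ : Type*} [Fintype ι₀] {κ : Type*}
    (T : κ → ι₀ → S → ι → L) (hT : ∀ q a i, (fun s => T q a s i) ∈ B)
    (Tb : κ → ι₀ → ι → ResidueField A) (hred : ∀ q a s i, red A (T q a s i) = Tb q a i)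
    (h : IsFree B V W) {V₀ : S → Submodule L (ι₀ → L)}
    {W₀ : Submodule (ResidueField A) (ι₀ → ResidueField A)}
    (hW : ∀ x, x ∈ W₀ ↔ ∀ q, ∑ a, x a • Tb q a ∈ W)
    (hV : ∀ s, ∀ x ∈ V₀ s, ∀ q, ∑ a, x a • T q a s ∈ V s)
    (hdim : ∀ s, Module.finrank (ResidueField A) W₀ ≤ Module.finrank L (V₀ s)) :
    IsFree B V₀ W₀ := by
  classical
  obtain ⟨N, Nb, hN, hNred, hNV, hNW⟩ := h.exists_rows hB
  rcases isEmpty_or_nonempty S with hS | hS
  · obtain ⟨f, hfmem, hfs, hfi⟩ :=
      exists_fun_fin_finrank_span_eq (ResidueField A) (W₀ : Set (ι₀ → ResidueField A))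
    exact ⟨_, fun _ s => hS.elim s, f, fun j i => by
      rw [show (fun s => (hS.elim s : ι₀ → L) i) = 0 from funext fun s => hS.elim s]
      exact B.zero_mem, fun s => hS.elim s, fun _ s => hS.elim s, hfi,
      hfs.trans (span_eq W₀)⟩
  refine isFree_of_kernel hB (fun (qm : κ × ι) s a => ∑ i, N qm.2 s i * T qm.1 a s i)
    (fun qm a => ?_) (fun qm a => ∑ i, Nb qm.2 i * Tb qm.1 a i) (fun qm s a => ?_) (fun x => ?_)
    (fun s x hx qm => ?_) hdim
  · rw [show (fun s => ∑ i, N qm.2 s i * T qm.1 a s i) =
      ∑ i, (fun s => N qm.2 s i) * fun s => T qm.1 a s i by funext s; simp [Finset.sum_apply]]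
    exact B.sum_mem fun i _ => B.mul_mem (hN _ _) (hT _ _ _)
  · show red A (∑ i, N qm.2 s i * T qm.1 a s i) = _
    rw [red_sum_mul hB Finset.univ (fun i s => N qm.2 s i) (fun i s => T qm.1 a s i)
      (hN qm.2) (hT qm.1 a) s]
    simp [hNred, hred]
  · rw [hW]
    simp only [hNW hS, Finset.sum_apply, Pi.smul_apply, smul_eq_mul, Finset.mul_sum, Finset.sum_mul]
    rw [Prod.forall]
    refine forall_congr' fun q => forall_congr' fun m => ?_
    rw [Finset.sum_comm]
    simp only [mul_assoc, mul_comm (x _)]
  · have := hNV s _ (hV s x hx qm.1) qm.2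
    simp only [Finset.sum_apply, Pi.smul_apply, smul_eq_mul, Finset.mul_sum] at this
    rw [Finset.sum_comm] at this
    simpa [Finset.sum_mul, mul_assoc, mul_comm (x _)] using this

end Fermat.Agent.S19Model
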