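import Fermat.Agent.S19Model.Coords
import Fermat.Agent.S19Model.FreeFamily

/-!
# Free families of Riemann–Roch spaces

`IsFreeRR B R L E Eb`: in the integral basis of the lattice `L`, the spaces `L(E s)` form a family
free over `B` which reduces to `L(Eb)`. Products, colons and multiplication by elements preserve
freeness when the reductions have the expected dimension.
-/

set_option autoImplicit false

noncomputable section

namespace Fermat.Agent.S19Model

open AlgebraicCurve IsLocalRing Fermat.Agent.FlatJ0 Fermat.Agent.Reduction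
  Fermat.Agent.FunctionFieldRR
open scoped Fermat.Agent.Reduction

local notation "Ω" => AlgebraicClosure ℚ

/-- Products of Riemann–Roch spaces. -/
theorem mul_mem_rr {K E : Type*} [Field K] [Field E] [Algebra K E] {D D' : Divisor K E} {f g : E}
    (hf : f ∈ riemannRochSpace D) (hg : g ∈ riemannRochSpace D') :
    f * g ∈ riemannRochSpace (D + D') := by
  rcases eq_or_ne f 0 with rfl | hf0
  · simp
  rcases eq_or_ne g 0 with rfl | hg0
  · simp
  rw [mem_rr (mul_ne_zero hf0 hg0)]
  intro v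
  rw [Finsupp.add_apply, v.ord_mul hf0 hg0]
  linarith [(mem_rr hf0).mp hf v, (mem_rr hg0).mp hg v]

variable {A : ValuationSubring Ω} {F : IntermediateField Ω (LaurentSeries Ω)}
  {Fk : IntermediateField (IsLocalRing.ResidueField A) (LaurentSeries (IsLocalRing.ResidueField A))}
  {M : GoodModel A F Fk}
  [HasPrincipalDivisors Ω F] [HasPrincipalDivisors (IsLocalRing.ResidueField A) Fk]

/-- An integral lattice `L(D)` with a basis reducing to a basis of the reduced space. -/
structure Lat (R : M.ReductionMap) where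
  /-- the divisor -/
  D : Divisor Ω F
  /-- the rank -/
  n : ℕ
  /-- the basis -/
  v : Fin n → F
  basis : IsIntBasis M D v
  red_li : LinearIndependent (ResidueField A) fun j => M.red (v j)
  red_span : Submodule.span (ResidueField A) (Set.range fun j => M.red (v j)) =
    riemannRochSpace (Finsupp.mapDomain R.toFun D)

variable {R : M.ReductionMap} {g c : ℤ} (H : GoodModel.RRData (A := A) (F := F) (Fk := Fk) g c)

include H in
/-- An integral basis in large degree gives a lattice. -/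
theorem exists_lat [IsAlgClosed (ResidueField A)] [IsFunctionField Ω F]
    [IsFunctionField (ResidueField A) Fk] {D : Divisor Ω F} {n : ℕ} {v : Fin n → F}
    (hv : IsIntBasis M D v)
    (hD : c ≤ Divisor.degree D) : ∃ L : Lat R, L.D = D ∧ HEq L.v v := by
  have hli := hv.red_linearIndependent H R hD
  refine ⟨⟨D, n, v, hv, hli, ?_⟩, rfl, HEq.rfl⟩
  have := finiteDimensional_riemannRochSpace (K := ResidueField A) (Finsupp.mapDomain R.toFun D)
  refine Submodule.eq_of_le_of_finrank_le (Submodule.span_le.mpr ?_) ?_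
  · rintro _ ⟨j, rfl⟩
    exact R.red_mem_rr (hv.mem j) (hv.isInt j)
  · rw [finrank_span_eq_card hli, Fintype.card_fin]
    have h2 := H.up (Finsupp.mapDomain R.toFun D) (by rwa [GoodModel.ReductionMap.degree_map])
    have h3 := H.finrank_eq hD R
    rw [GoodModel.ReductionMap.degree_map] at h2
    have := hv.card
    omega

namespace Lat

variable (L : Lat R)

/-- The function with given coordinates. -/
def toFn : (Fin L.n → Ω) →ₗ[Ω] F := Fintype.linearCombination Ω L.v

/-- The residual function with given coordinates. -/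
def toFk : (Fin L.n → ResidueField A) →ₗ[ResidueField A] Fk :=
  Fintype.linearCombination (ResidueField A) fun j => M.red (L.v j)

theorem toFn_apply (a : Fin L.n → Ω) : L.toFn a = ∑ j, a j • L.v j :=
  Fintype.linearCombination_apply _ _ _

theorem toFk_apply (a : Fin L.n → ResidueField A) : L.toFk a = ∑ j, a j • M.red (L.v j) :=
  Fintype.linearCombination_apply _ _ _

theorem toFk_injective : Function.Injective L.toFk :=
  L.red_li.fintypeLinearCombination_injective

theorem mem_coordSpace_iff {E : Divisor Ω F} {a : Fin L.n → Ω} :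
    a ∈ coordSpace L.v E ↔ L.toFn a ∈ riemannRochSpace E := Iff.rfl

theorem mem_resCoordSpace_iff {Eb : Divisor (ResidueField A) Fk}
    {a : Fin L.n → ResidueField A} :
    a ∈ resCoordSpace M L.v Eb ↔ L.toFk a ∈ riemannRochSpace Eb := Iff.rfl

theorem toFn_mem (a : Fin L.n → Ω) : L.toFn a ∈ riemannRochSpace L.D := by
  rw [toFn_apply]
  exact Submodule.sum_mem _ fun j _ => Submodule.smul_mem _ _ (L.basis.mem j)

theorem toFk_mem (a : Fin L.n → ResidueField A) :
    L.toFk a ∈ riemannRochSpace (Finsupp.mapDomain R.toFun L.D) := by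
  rw [← L.red_span, toFk_apply]
  exact Submodule.sum_mem _ fun j _ => Submodule.smul_mem _ _ (Submodule.subset_span ⟨j, rfl⟩)

theorem exists_toFn_eq {f : F} (hf : f ∈ riemannRochSpace L.D) :
    ∃ a, L.toFn a = f ∧ (M.IsInt f → ∀ j, a j ∈ A) := by
  obtain ⟨a, rfl, ha⟩ := L.basis.exists_coef f hf
  exact ⟨a, L.toFn_apply a, ha⟩

theorem exists_toFk_eq {f : Fk} (hf : f ∈ riemannRochSpace (Finsupp.mapDomain R.toFun L.D)) :
    ∃ a, L.toFk a = f := by
  rw [← L.red_span, Submodule.mem_span_range_iff_exists_fun] at hf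
  obtain ⟨a, rfl⟩ := hf
  exact ⟨a, L.toFk_apply a⟩

/-- Integral coordinates reduce coordinatewise. -/
theorem toFn_int {a : Fin L.n → Ω} (ha : ∀ j, a j ∈ A) :
    M.IsInt (L.toFn a) ∧ M.red (L.toFn a) = L.toFk fun j => red A (a j) := by
  obtain ⟨h1, h2⟩ := L.basis.red_sum ha
  rw [toFn_apply, toFk_apply]
  exact ⟨h1, h2.trans (Finset.sum_congr rfl fun j _ => by rw [red_eq (ha j)])⟩

theorem finrank_coordSpace [IsFunctionField Ω F] {E : Divisor Ω F} (hE : E ≤ L.D) :
    Module.finrank Ω (coordSpace L.v E) = Module.finrank Ω (riemannRochSpace E) :=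
  L.basis.finrank_coordSpace hE

theorem finrank_resCoordSpace {Eb : Divisor (ResidueField A) Fk}
    (hE : Eb ≤ Finsupp.mapDomain R.toFun L.D) :
    Module.finrank (ResidueField A) (resCoordSpace M L.v Eb) =
      Module.finrank (ResidueField A) (riemannRochSpace Eb) := by
  refine (Submodule.equivMapOfInjective _ L.toFk_injective _).finrank_eq.trans ?_
  rw [resCoordSpace, show Fintype.linearCombination (ResidueField A)
      (fun j => M.red (L.v j)) = L.toFk
    from rfl, Submodule.map_comap_eq, inf_eq_right.mpr]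
  exact fun f hf => L.exists_toFk_eq (rr_mono hE hf)

/-- The coordinates of the products of two bases. -/
theorem exists_mulCoef (L₁ L₂ L₃ : Lat R) (h : L₁.D + L₂.D ≤ L₃.D) :
    ∃ m : Fin L₁.n → Fin L₂.n → Fin L₃.n → A,
      (∀ a b, L₃.toFn (fun i => ∑ j, ∑ l, a j * b l * (m j l i : Ω)) = L₁.toFn a * L₂.toFn b) ∧
      ∀ a b, L₃.toFk (fun i => ∑ j, ∑ l, a j * b l * residue A (m j l i)) =
        L₁.toFk a * L₂.toFk b := by
  have hmem : ∀ j l, L₁.v j * L₂.v l ∈ riemannRochSpace L₃.D := fun j l =>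
    rr_mono h (mul_mem_rr (L₁.basis.mem j) (L₂.basis.mem l))
  have hint : ∀ j l, M.IsInt (L₁.v j * L₂.v l) ∧
      M.red (L₁.v j * L₂.v l) = M.red (L₁.v j) * M.red (L₂.v l) := fun j l =>
    M.isInt_mul (L₁.basis.isInt j) (L₂.basis.isInt l)
  choose a ha haA using fun j l => L₃.exists_toFn_eq (hmem j l)
  refine ⟨fun j l i => ⟨a j l i, haA j l (hint j l).1 i⟩, fun x y => ?_, fun x y => ?_⟩
  · rw [show (fun i => ∑ j, ∑ l, x j * y l * a j l i) = ∑ j, ∑ l, (x j * y l) • a j l by
      funext i; simp [Finset.sum_apply]]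
    simp only [map_sum, map_smul, ha, L₁.toFn_apply, L₂.toFn_apply, Finset.sum_mul_sum,
      smul_mul_smul_comm]
  · rw [show (fun i => ∑ j, ∑ l, x j * y l * residue A ⟨a j l i, haA j l (hint j l).1 i⟩) =
      ∑ j, ∑ l, (x j * y l) • fun i => red A (a j l i) by
      funext i
      simp [Finset.sum_apply, red_eq (haA _ _ (hint _ _).1 i)]]
    simp only [map_sum, map_smul, L₁.toFk_apply, L₂.toFk_apply, Finset.sum_mul_sum,
      smul_mul_smul_comm]
    refine Finset.sum_congr rfl fun j _ => Finset.sum_congr rfl fun l _ => ?_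
    rw [← (L₃.toFn_int (haA j l (hint j l).1)).2, ha, (hint j l).2]

end Lat

variable {S : Type*}

/-- A vector with entries in `B` and constant reduction. -/
structure IsElem (B : Subalgebra A (S → Ω)) (L : Lat R) (u : S → Fin L.n → Ω)
    (ub : Fin L.n → ResidueField A) : Prop where
  mem : ∀ i, (fun s => u s i) ∈ B
  red_eq : ∀ s i, red A (u s i) = ub i

/-- The spaces `L(E s)` form a family free over `B` with reduction `L(Eb)`. -/
structure IsFreeRR (B : Subalgebra A (S → Ω)) (L : Lat R) (E : S → Divisor Ω F)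
    (Eb : Divisor (ResidueField A) Fk) : Prop where
  le : ∀ s, E s ≤ L.D
  leb : Eb ≤ Finsupp.mapDomain R.toFun L.D
  map_eq : ∀ s, Finsupp.mapDomain R.toFun (E s) = Eb
  free : IsFree B (fun s => coordSpace L.v (E s)) (resCoordSpace M L.v Eb)

variable {B : Subalgebra A (S → Ω)} (hB : Valued B)

include hB in
theorem IsElem.toFn_int {L : Lat R} {u : S → Fin L.n → Ω} {ub : Fin L.n → ResidueField A}
    (h : IsElem B L u ub) (s : S) :
    M.IsInt (L.toFn (u s)) ∧ M.red (L.toFn (u s)) = L.toFk ub := by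
  obtain ⟨h1, h2⟩ := L.toFn_int (a := u s) fun i => hB _ (h.mem i) s
  exact ⟨h1, h2.trans (congrArg _ (funext (h.red_eq s)))⟩

/-- The basis of a free family: spanning elements on both levels. -/
theorem IsFreeRR.exists_gens {L : Lat R} {E : S → Divisor Ω F} {Eb : Divisor (ResidueField A) Fk}
    (h : IsFreeRR B L E Eb) :
    ∃ (r : ℕ) (u : Fin r → S → Fin L.n → Ω) (ub : Fin r → Fin L.n → ResidueField A),
      r = Module.finrank (ResidueField A) (riemannRochSpace Eb) ∧
      (∀ j, IsElem B L (u j) (ub j)) ∧ LinearIndependent (ResidueField A) ub ∧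
      (∀ j s, L.toFn (u j s) ∈ riemannRochSpace (E s)) ∧
      (∀ j, L.toFk (ub j) ∈ riemannRochSpace Eb) ∧
      riemannRochSpace Eb ≤ Submodule.span (ResidueField A) (Set.range fun j => L.toFk (ub j)) := by
  obtain ⟨r, w, wb, hw⟩ := h.free
  refine ⟨r, w, wb, hw.finrank_red.symm.trans (L.finrank_resCoordSpace h.leb),
    fun j => ⟨hw.mem j, hw.red_eq j⟩, hw.indep, fun j s => hw.mem_space j s, hw.red_mem,
    fun f hf => ?_⟩
  obtain ⟨a, rfl⟩ := L.exists_toFk_eq (rr_mono h.leb hf)
  have ha : a ∈ Submodule.span (ResidueField A) (Set.range wb) := hw.span_red ▸ hf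
  rw [show Set.range (fun j => L.toFk (wb j)) = L.toFk '' Set.range wb from Set.range_comp L.toFk
      wb,
    Submodule.span_image]
  exact Submodule.mem_map_of_mem ha

/-- The whole lattice is free. -/
theorem isFreeRR_self (L : Lat R) :
    IsFreeRR B L (fun _ : S => L.D) (Finsupp.mapDomain R.toFun L.D) := by
  classical
  refine ⟨fun _ => le_rfl, le_rfl, fun _ => rfl, L.n, fun j _ => Pi.single j 1,
    fun j => Pi.single j 1, fun j i => ?_, fun s => ?_, fun j s i => ?_,
    Pi.linearIndependent_single_one (Fin L.n) (ResidueField A), ?_⟩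
  · rcases eq_or_ne i j with rfl | hij
    · simp only [Pi.single_eq_same]; exact B.one_mem
    · simp only [Pi.single_eq_of_ne hij]; exact B.zero_mem
  · refine le_antisymm (fun a _ => L.toFn_mem a) fun a _ => ?_
    rw [← Finset.univ_sum_single a]
    refine Submodule.sum_mem _ fun j _ => ?_
    rw [show (Pi.single j (a j) : Fin L.n → Ω) = a j • Pi.single j 1 by
      rw [← Pi.single_smul, smul_eq_mul, mul_one]]
    exact Submodule.smul_mem _ _ (Submodule.subset_span ⟨j, rfl⟩)
  · rcases eq_or_ne i j with rfl | hij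
    · simp only [Pi.single_eq_same]; exact (red_coe (1 : A)).trans (map_one _)
    · simp only [Pi.single_eq_of_ne hij]; exact (red_coe (0 : A)).trans (map_zero _)
  · refine le_antisymm (fun a _ => L.toFk_mem a) fun a _ => ?_
    rw [← Finset.univ_sum_single a]
    refine Submodule.sum_mem _ fun j _ => ?_
    rw [show (Pi.single j (a j) : Fin L.n → ResidueField A) = a j • Pi.single j 1 by
      rw [← Pi.single_smul, smul_eq_mul, mul_one]]
    exact Submodule.smul_mem _ _ (Submodule.subset_span ⟨j, rfl⟩)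

variable [IsFunctionField Ω F]

include hB in
/-- Spaces spanned by products of elements. -/
theorem isFreeRR_mul [IsAlgClosed (ResidueField A)] [IsFunctionField (ResidueField A) Fk]
    [Finite S] {L₁ L₂ L₃ : Lat R} (hle : L₁.D + L₂.D ≤ L₃.D) {κ₁ κ₂ : Type*}
    {u₁ : κ₁ → S → Fin L₁.n → Ω} {ub₁ : κ₁ → Fin L₁.n → ResidueField A}
    {u₂ : κ₂ → S → Fin L₂.n → Ω} {ub₂ : κ₂ → Fin L₂.n → ResidueField A}
    (h₁ : ∀ q, IsElem B L₁ (u₁ q) (ub₁ q)) (h₂ : ∀ q, IsElem B L₂ (u₂ q) (ub₂ q))
    {E : S → Divisor Ω F} {Eb : Divisor (ResidueField A) Fk} (hE : ∀ s, E s ≤ L₃.D)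
    (hEb : Eb ≤ Finsupp.mapDomain R.toFun L₃.D) (hmap : ∀ s, Finsupp.mapDomain R.toFun (E s) = Eb)
    (hmem : ∀ q q' s, L₁.toFn (u₁ q s) * L₂.toFn (u₂ q' s) ∈ riemannRochSpace (E s))
    (hmemb : ∀ q q', L₁.toFk (ub₁ q) * L₂.toFk (ub₂ q') ∈ riemannRochSpace Eb)
    (hspan : riemannRochSpace Eb ≤ Submodule.span (ResidueField A)
      (Set.range fun q : κ₁ × κ₂ => L₁.toFk (ub₁ q.1) * L₂.toFk (ub₂ q.2))) :
    IsFreeRR B L₃ E Eb := by
  obtain ⟨m, hm, hmb⟩ := Lat.exists_mulCoef L₁ L₂ L₃ hle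
  refine ⟨hE, hEb, hmap, isFree_of_generators hB
    (fun (q : κ₁ × κ₂) s i => ∑ j, ∑ l, u₁ q.1 s j * u₂ q.2 s l * (m j l i : Ω)) (fun q i => ?_)
    (fun q i => ∑ j, ∑ l, ub₁ q.1 j * ub₂ q.2 l * residue A (m j l i)) (fun q s i => ?_)
    (fun q s => ?_) (le_antisymm (Submodule.span_le.mpr ?_) ?_) fun s => ?_⟩
  · rw [show (fun s => ∑ j, ∑ l, u₁ q.1 s j * u₂ q.2 s l * (m j l i : Ω)) =
      ∑ j, ∑ l, (fun s => u₁ q.1 s j) * (fun s => u₂ q.2 s l) *
        algebraMap A (S → Ω) (m j l i) by funext s; simp [Finset.sum_apply, Pi.algebraMap_apply]]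
    exact B.sum_mem fun j _ => B.sum_mem fun l _ =>
      B.mul_mem (B.mul_mem ((h₁ q.1).mem j) ((h₂ q.2).mem l)) (B.algebraMap_mem _)
  · have e : (⟨_, B.sum_mem (t := Finset.univ) fun j _ => B.sum_mem (t := Finset.univ) fun l _ =>
        B.mul_mem (B.mul_mem ((h₁ q.1).mem j) ((h₂ q.2).mem l)) (B.algebraMap_mem (m j l i))⟩ : B) =
      ∑ j, ∑ l, (⟨_, (h₁ q.1).mem j⟩ : B) * ⟨_, (h₂ q.2).mem l⟩ * algebraMap A B (m j l i) := by
      apply Subtype.ext
      simp
    have h := congrArg (redHom hB s) e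
    simp only [map_sum, map_mul, redHom_apply, (h₁ _).red_eq, (h₂ _).red_eq] at h
    refine Eq.trans ?_ (h.trans ?_)
    · simp [Finset.sum_apply, Pi.algebraMap_apply]
    · exact Finset.sum_congr rfl fun j _ => Finset.sum_congr rfl fun l _ => by
        rw [← red_coe (m j l i)]; rfl
  · rw [Lat.mem_coordSpace_iff, hm]
    exact hmem q.1 q.2 s
  · rintro _ ⟨q, rfl⟩
    rw [SetLike.mem_coe, Lat.mem_resCoordSpace_iff, hmb]
    exact hmemb q.1 q.2
  · intro a ha
    have h := hspan (L₃.mem_resCoordSpace_iff.mp ha)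
    obtain ⟨c, hc⟩ : ∃ c : κ₁ × κ₂ →₀ ResidueField A,
        (c.sum fun q t => t • (L₁.toFk (ub₁ q.1) * L₂.toFk (ub₂ q.2))) = L₃.toFk a :=
      Finsupp.mem_span_range_iff_exists_finsupp.mp (hspan (L₃.mem_resCoordSpace_iff.mp ha))
    rw [Finsupp.mem_span_range_iff_exists_finsupp]
    refine ⟨c, L₃.toFk_injective ?_⟩
    rw [← hc, map_finsuppSum]
    exact Finsupp.sum_congr fun q _ => by rw [map_smul, hmb]
  · rw [L₃.finrank_coordSpace (hE s), L₃.finrank_resCoordSpace hEb, ← hmap s]
    exact R.finrank_le _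

include hB in
/-- Colon spaces: the functions multiplying given elements into a free family. -/
theorem isFreeRR_colon [Finite S] {L₁ L₂ L₃ : Lat R} (hle : L₁.D + L₂.D ≤ L₃.D) {κ : Type*}
    {u : κ → S → Fin L₂.n → Ω} {ub : κ → Fin L₂.n → ResidueField A}
    (hu : ∀ q, IsElem B L₂ (u q) (ub q)) {T : S → Divisor Ω F}
    {Tb : Divisor (ResidueField A) Fk} (hT : IsFreeRR B L₃ T Tb)
    {E : S → Divisor Ω F} {Eb : Divisor (ResidueField A) Fk} (hE : ∀ s, E s ≤ L₁.D)
    (hEb : Eb ≤ Finsupp.mapDomain R.toFun L₁.D) (hmap : ∀ s, Finsupp.mapDomain R.toFun (E s) = Eb)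
    (hmem : ∀ q s, ∀ f ∈ riemannRochSpace (E s), f * L₂.toFn (u q s) ∈ riemannRochSpace (T s))
    (hres : ∀ f ∈ riemannRochSpace (Finsupp.mapDomain R.toFun L₁.D),
      f ∈ riemannRochSpace Eb ↔ ∀ q, f * L₂.toFk (ub q) ∈ riemannRochSpace Tb)
    (hdim : ∀ s, Module.finrank (ResidueField A) (riemannRochSpace Eb) ≤
      Module.finrank Ω (riemannRochSpace (E s))) :
    IsFreeRR B L₁ E Eb := by
  classical
  obtain ⟨m, hm, hmb⟩ := Lat.exists_mulCoef L₁ L₂ L₃ hle
  refine ⟨hE, hEb, hmap, isFree_of_preimage hB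
    (fun q (j : Fin L₁.n) s i => ∑ l, u q s l * (m j l i : Ω)) (fun q j i => ?_)
    (fun q j i => ∑ l, ub q l * residue A (m j l i)) (fun q j s i => ?_) hT.free (fun x => ?_)
    (fun s x hx q => ?_) fun s => ?_⟩
  · rw [show (fun s => ∑ l, u q s l * (m j l i : Ω)) =
      ∑ l, (fun s => u q s l) * algebraMap A (S → Ω) (m j l i) by
      funext s; simp [Finset.sum_apply, Pi.algebraMap_apply]]
    exact B.sum_mem fun l _ => B.mul_mem ((hu q).mem l) (B.algebraMap_mem _)
  · show red A (∑ l, u q s l * (m j l i : Ω)) = _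
    rw [red_sum_mul hB Finset.univ (fun l s => u q s l) (fun l _ => (m j l i : Ω))
      (fun l => (hu q).mem l) (fun l => B.algebraMap_mem (m j l i)) s]
    simp [(hu q).red_eq, red_coe]
  · rw [Lat.mem_resCoordSpace_iff, hres _ (L₁.toFk_mem x)]
    refine forall_congr' fun q => ?_
    rw [← hmb, ← Lat.mem_resCoordSpace_iff]
    refine iff_of_eq (congrArg (· ∈ _) ?_)
    funext i
    simp [Finset.sum_apply, Finset.mul_sum, mul_assoc]
  · rw [Lat.mem_coordSpace_iff] at hx
    have h := hmem q s _ hx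
    rw [← hm, ← Lat.mem_coordSpace_iff] at h
    convert h using 1
    funext i
    simp [Finset.sum_apply, Finset.mul_sum, mul_assoc]
  · rw [L₁.finrank_coordSpace (hE s), L₁.finrank_resCoordSpace hEb]
    exact hdim s

end Fermat.Agent.S19Model
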